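import Fermat.Agent.Jac.Sheaf.Dictionary

/-!
# Pullback of sheaves and of line data; rigidity
-/

set_option autoImplicit false

noncomputable section

universe u

open CategoryTheory CategoryTheory.Limits AlgebraicGeometry TopologicalSpace TensorProduct
  NeronModelInfra AlgebraicGeometry.RelPicard

namespace Fermat.Agent.Jac

/-- A spanning semilinear map between invertible modules is a base change. -/
theorem bijective_liftBaseChange {A B : Type u} [CommRing A] [CommRing B] [Algebra A B]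
    {M N : Type u} [AddCommGroup M] [Module A M] [Module.Invertible A M] [AddCommGroup N]
    [Module B N] [Module.Invertible B N] [Module A N] [IsScalarTower A B N] (g : M →ₗ[A] N)
    (hg : Submodule.span B (Set.range g) = ⊤) : Function.Bijective (g.liftBaseChange B) := by
  refine Module.Invertible.bijective_of_surjective (LinearMap.range_eq_top.mp (top_le_iff.mp ?_))
  rw [← hg, Submodule.span_le]
  rintro _ ⟨x, rfl⟩
  exact ⟨1 ⊗ₜ x, by simp⟩

/-- A semilinear surjection to the base ring trivialises an invertible module. -/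
theorem nonempty_linearEquiv_of_surjective {A B : Type u} [CommRing A] [CommRing B] {σ : A →+* B}
    {M N : Type u} [AddCommGroup M] [Module A M] [Module.Invertible A M] [AddCommGroup N]
    [Module B N] [Module.Invertible B N] (p : M →ₛₗ[σ] N)
    (hp : Submodule.span B (Set.range p) = ⊤) (g : M →ₛₗ[σ] B) (hg : Function.Surjective g) :
    Nonempty (N ≃ₗ[B] B) := by
  let _ := σ.toAlgebra
  let _ : Module A N := Module.compHom N σ
  have : IsScalarTower A B N := IsScalarTower.of_compHom A B N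
  let p' : M →ₗ[A] N :=
    { toFun := p, map_add' := map_add p, map_smul' := fun r x => p.map_smulₛₗ r x }
  let g' : M →ₗ[A] B :=
    { toFun := g, map_add' := map_add g, map_smul' := fun r x => g.map_smulₛₗ r x }
  have h1 := bijective_liftBaseChange p' hp
  have h2 := bijective_liftBaseChange (B := B) g' (eq_top_iff.mpr fun x _ =>
    Submodule.subset_span (hg x))
  exact ⟨(LinearEquiv.ofBijective _ h1).symm.trans (LinearEquiv.ofBijective _ h2)⟩

variable {k : Type u} [Field k] {C : Scheme.{u}} {c : C ⟶ Spec (CommRingCat.of k)}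
  {ε : SchemeHomOver (𝟙 (Spec (CommRingCat.of k))) c}

namespace CurveModel

variable (m : CurveModel c ε) {R R' : Type u} [CommRing R] [Algebra k R] [CommRing R'] [Algebra k R']
  {L : (pullback c (structMap k R)).Modules} (hL : Scheme.Modules.IsInvertible L)

theorem mapBR_y (φ : R →ₐ[k] R') (i : ℕ) :
    (m.D.mapBR φ).toRingHom (algebraMap (m.D.AR₁ R) (m.D.BR R) (m.D.yR R) ^ i) =
      algebraMap (m.D.AR₁ R') (m.D.BR R') (m.D.yR R') ^ i := by
  rw [map_pow]
  congr 1
  rw [CurveData.algebraMap_AR₁_tmul, CurveData.algebraMap_AR₁_tmul]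
  simp [CurveData.mapBR]

/-- The line data of a pullback is the pullback of the line data. -/
def toLineDataPullback (φ : R →ₐ[k] R') :
    LineData.Pullback φ (m.toLineData L hL)
      (m.toLineData ((Scheme.Modules.pullback (baseChangeSnd c (specHomOver φ))).obj L)
        (hL.pullback _)) where
  gM := pullMap (baseChangeSnd c (specHomOver φ)) (m.J₀ R) (m.J₀ R') (m.sq₀ φ) L
  gN := pullMap (baseChangeSnd c (specHomOver φ)) (m.J₁ R) (m.J₁ R') (m.sq₁ φ) L
  spanM := span_range_pullMap (baseChangeSnd c (specHomOver φ)) (m.J₀ R) (m.J₀ R') (m.sq₀ φ) L hL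
  spanN := span_range_pullMap (baseChangeSnd c (specHomOver φ)) (m.J₁ R) (m.J₁ R') (m.sq₁ φ) L hL
  rel := fun i (x : m.secM L) (n : m.secN L) h => by
    have h1 := (m.rel_iff L hL i x n).mp h
    refine (m.rel_iff _ (hL.pullback _) i
      (pullMap (baseChangeSnd c (specHomOver φ)) (m.J₀ R) (m.J₀ R') (m.sq₀ φ) L x)
      (pullMap (baseChangeSnd c (specHomOver φ)) (m.J₁ R) (m.J₁ R') (m.sq₁ φ) L n)).mpr ?_
    refine Eq.trans ?_ (pullMap_resMap (baseChangeSnd c (specHomOver φ)) (m.J₁ R) (m.JB R)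
      (m.J₁ R') (m.JB R') (m.JB_eq₁ R) (m.JB_eq₁ R') (m.sq₁ φ) (m.sqB φ) L n)
    refine Eq.trans ?_ (congrArg
      (pullMap (baseChangeSnd c (specHomOver φ)) (m.JB R) (m.JB R') (m.sqB φ) L) h1)
    refine Eq.trans ?_ ((pullMap (baseChangeSnd c (specHomOver φ)) (m.JB R) (m.JB R')
      (m.sqB φ) L).map_smulₛₗ _ _).symm
    exact congrArg₂ (· • ·) (m.mapBR_y φ i).symm
      (pullMap_resMap (baseChangeSnd c (specHomOver φ)) (m.J₀ R) (m.JB R)
        (m.J₀ R') (m.JB R') (m.JB_eq₀ R) (m.JB_eq₀ R') (m.sq₀ φ) (m.sqB φ) L x).symm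

/-- Rigidity in terms of line data. -/
theorem nonempty_rig_iso_iff :
    Nonempty ((Scheme.Modules.pullback (rigSection c (structMap k R) ε)).obj L ≅
        SheafOfModules.unit (Spec (CommRingCat.of R)).ringCatSheaf) ↔
      (m.toLineData L hL).Rigid := by
  let σ := rigSection c (structMap k R) ε
  let Lσ := (Scheme.Modules.pullback σ).obj L
  let p := pullMap σ (m.J₁ R) (𝟙 (Spec (CommRingCat.of R))) (m.sq_rig R) L
  have hp := span_range_pullMap σ (m.J₁ R) (𝟙 (Spec (CommRingCat.of R))) (m.sq_rig R) L hL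
  let res : Lσ.restrict (𝟙 (Spec (CommRingCat.of R))) ≅ Lσ :=
    (Scheme.Modules.restrictFunctorId).app Lσ
  have hinvσ := hL.pullback σ
  constructor
  · rintro ⟨e⟩
    obtain ⟨e'⟩ := (nonempty_tilde_iso_unit_iff (B := CommRingCat.of R)
        (Sec (𝟙 (Spec (CommRingCat.of R))) Lσ)).mp
      ⟨tildeΓIso (isInvertible_restrict (𝟙 (Spec (CommRingCat.of R))) hinvσ) ≪≫ res ≪≫ e⟩
    refine ⟨e'.toLinearEquiv.toLinearMap.comp p, ?_⟩
    intro r
    obtain ⟨z, rfl⟩ := e'.toLinearEquiv.surjective r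
    have hz : z ∈ Submodule.span R (Set.range p) := hp ▸ Submodule.mem_top
    induction hz using Submodule.span_induction with
    | mem w hw =>
      obtain ⟨v, rfl⟩ := hw
      exact ⟨v, rfl⟩
    | zero => exact ⟨0, (map_zero (e'.toLinearEquiv.toLinearMap.comp p)).trans
        (map_zero e'.toLinearEquiv).symm⟩
    | add a b _ _ ha hb =>
      obtain ⟨v, hv⟩ := ha
      obtain ⟨w, hw⟩ := hb
      exact ⟨v + w, (map_add (e'.toLinearEquiv.toLinearMap.comp p) v w).trans
        ((congrArg₂ (· + ·) hv hw).trans (map_add e'.toLinearEquiv a b).symm)⟩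
    | smul r a _ ha =>
      obtain ⟨v, hv⟩ := ha
      refine ⟨(r ⊗ₜ[k] (1 : m.D.A₁) : m.D.AR₁ R) • v, ?_⟩
      refine ((e'.toLinearEquiv.toLinearMap.comp p).map_smulₛₗ _ _).trans ?_
      refine (congrArg₂ (· • ·) ?_ hv).trans (e'.toLinearEquiv.map_smul r a).symm
      show m.D.evR (R := R) (r ⊗ₜ 1) = r
      simp [CurveData.evR]
  · rintro ⟨g, hg⟩
    let g' : m.secN L →ₛₗ[(m.D.evR (R := R)).toRingHom] R := g
    have : Module.Invertible R (Sec (𝟙 (Spec (CommRingCat.of R))) Lσ) :=
      moduleInvertible_ΓMod (isInvertible_restrict (𝟙 (Spec (CommRingCat.of R))) hinvσ)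
    have : Module.Invertible (m.D.AR₁ R) (m.secN L) :=
      moduleInvertible_ΓMod (isInvertible_restrict (m.J₁ R) hL)
    obtain ⟨e'⟩ := nonempty_linearEquiv_of_surjective
      (A := m.D.AR₁ R) (B := R) (σ := (m.D.evR (R := R)).toRingHom) (M := m.secN L)
      (N := Sec (𝟙 (Spec (CommRingCat.of R))) Lσ) p hp g' hg
    obtain ⟨e⟩ := (nonempty_tilde_iso_unit_iff (B := CommRingCat.of R) _).mpr ⟨e'.toModuleIso⟩
    exact ⟨res.symm ≪≫
      (tildeΓIso (isInvertible_restrict (𝟙 (Spec (CommRingCat.of R))) hinvσ)).symm ≪≫ e⟩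

end CurveModel

end Fermat.Agent.Jac
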