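import Fermat.Agent.Jac.Sheaf.GlueHom

/-!
# Comparing morphisms on an affine overlap
-/

set_option autoImplicit false

noncomputable section

universe u

open CategoryTheory CategoryTheory.Limits AlgebraicGeometry Opposite TopologicalSpace

namespace Fermat.Agent.Jac

variable {X Z Z' : Scheme.{u}} {A : CommRingCat.{u}} {L L' : X.Modules}

/-- A morphism on the image of `J`, restricted to a smaller open immersion. -/
def restrictHom (J : Z ⟶ X) [IsOpenImmersion J] (φ : L.restrict J ⟶ L'.restrict J) (K : Z' ⟶ X)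
    [IsOpenImmersion K] (hK : K.opensRange ≤ J.opensRange) : L.restrict K ⟶ L'.restrict K :=
  ⟨PresheafOfModules.homMk (M₁ := (L.restrict K).val) (M₂ := (L'.restrict K).val)
    { app := fun V => AddCommGrpCat.ofHom
        (appOn J φ (K ''ᵁ V.unop) ((K.image_le_opensRange V.unop).trans hK))
      naturality := fun V V' h => by
        ext x
        exact (map_appOn J φ ((K.image_le_opensRange V.unop).trans hK)
          ((K.image_le_opensRange V'.unop).trans hK) (K.opensFunctor.map h.unop) x).symm }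
    fun V r x => appOn_smul J φ (K ''ᵁ V.unop) ((K.image_le_opensRange V.unop).trans hK)
      ((K.appIso V.unop).inv r) x⟩

theorem appOn_eq_of_eq_top (K : Spec A ⟶ X) [IsOpenImmersion K] (hL : Scheme.Modules.IsInvertible L)
    (J : Z ⟶ X) (J' : Z' ⟶ X) [IsOpenImmersion J] [IsOpenImmersion J']
    (φ : L.restrict J ⟶ L'.restrict J) (φ' : L.restrict J' ⟶ L'.restrict J')
    (hK : chartOpen K ≤ J.opensRange) (hK' : chartOpen K ≤ J'.opensRange)
    (h : ∀ x, appOn J φ (chartOpen K) hK x = appOn J' φ' (chartOpen K) hK' x)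
    {W : X.Opens} (hW : W ≤ chartOpen K) (x : Γ(L, W)) :
    appOn J φ W (hW.trans hK) x = appOn J' φ' W (hW.trans hK') x := by
  have hr : K.opensRange ≤ chartOpen K := (K.image_top_eq_opensRange).ge
  have e : restrictHom J φ K (hr.trans hK) = restrictHom J' φ' K (hr.trans hK') :=
    hom_ext_of_app_top (isInvertible_restrict K hL) h
  have hWK : W ≤ K.opensRange := hW.trans (K.image_top_eq_opensRange).le
  let i := homOfLE (image_preimage_of_le K hWK).ge
  have hi : K ''ᵁ (K ⁻¹ᵁ W) ≤ J.opensRange := (K.image_le_opensRange _).trans (hr.trans hK)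
  have hi' : K ''ᵁ (K ⁻¹ᵁ W) ≤ J'.opensRange := (K.image_le_opensRange _).trans (hr.trans hK')
  let y := L.presheaf.map (homOfLE (image_preimage_of_le K hWK).le).op x
  have h1 : appOn J φ _ hi y = appOn J' φ' _ hi' y := congr(($e).app (K ⁻¹ᵁ W) y)
  have h2 : L.presheaf.map i.op y = x :=
    (map_map_apply L _ _ (𝟙 W) x).trans (by rw [op_id, CategoryTheory.Functor.map_id]; rfl)
  rw [← h2, ← map_appOn J φ hi _ i, ← map_appOn J' φ' hi' _ i, h1]

/-- An isomorphism of invertible sheaves on an affine scheme with prescribed global sections. -/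
def isoOfΓ {L L' : (Spec A).Modules} (h : Scheme.Modules.IsInvertible L)
    (h' : Scheme.Modules.IsInvertible L') (e : ΓMod L ≅ ΓMod L') : L ≅ L' :=
  (tildeΓIso h).symm ≪≫ (tilde.functor A).mapIso e ≪≫ tildeΓIso h'

theorem isoOfΓ_app_top {L L' : (Spec A).Modules} (h : Scheme.Modules.IsInvertible L)
    (h' : Scheme.Modules.IsInvertible L') (e : ΓMod L ≅ ΓMod L') (z : ΓMod L) :
    (isoOfΓ h h' e).hom.app ⊤ z = e.hom.hom z := by
  refine Eq.trans ?_ (tildeΓIso_hom_app_top h' (e.hom.hom z))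
  exact congrArg ((tildeΓIso h').hom.app ⊤) (homOfΓ_app_top h e.hom z)

/-- On the whole chart `appOn` is the map on global sections. -/
theorem appOn_chartOpen (J : Spec A ⟶ X) [IsOpenImmersion J] (φ : L.restrict J ⟶ L'.restrict J)
    (hJ : chartOpen J ≤ J.opensRange) (x : Γ(L, chartOpen J)) :
    appOn J φ (chartOpen J) hJ x = φ.app ⊤ x := by
  have hpre : J ⁻¹ᵁ chartOpen J = ⊤ := J.preimage_image_eq ⊤
  have h1 := congr($(φ.mapPresheaf.naturality (eqToHom hpre).op).hom x)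
  refine (congrArg (L'.presheaf.map (homOfLE (image_preimage_of_le J hJ).ge).op) h1).trans ?_
  exact (map_map_apply L' (J.opensFunctor.map (eqToHom hpre))
    (homOfLE (image_preimage_of_le J hJ).ge) (𝟙 (chartOpen J)) (φ.app ⊤ x)).trans
      (by rw [op_id, CategoryTheory.Functor.map_id]; rfl)

/-- Two isomorphisms on two charts which agree on the overlap glue. -/
theorem exists_glue_iso₂ (J₀ : Z ⟶ X) (J₁ : Z' ⟶ X) [IsOpenImmersion J₀] [IsOpenImmersion J₁]
    (hcov : J₀.opensRange ⊔ J₁.opensRange = ⊤)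
    (φ₀ : L.restrict J₀ ≅ L'.restrict J₀) (φ₁ : L.restrict J₁ ≅ L'.restrict J₁)
    (hφ : ∀ (W : X.Opens) (h₀ : W ≤ J₀.opensRange) (h₁ : W ≤ J₁.opensRange) x,
      appOn J₀ φ₀.hom W h₀ x = appOn J₁ φ₁.hom W h₁ x) :
    ∃ f : L ≅ L', (∀ (W : X.Opens) (h : W ≤ J₀.opensRange) x, f.hom.app W x = appOn J₀ φ₀.hom W h x) ∧
      ∀ (W : X.Opens) (h : W ≤ J₁.opensRange) x, f.hom.app W x = appOn J₁ φ₁.hom W h x := by
  let Y : ULift.{u} Bool → Scheme.{u} := fun b => match b with | ⟨true⟩ => Z | ⟨false⟩ => Z'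
  let J : ∀ b, Y b ⟶ X := fun b => match b with | ⟨true⟩ => J₀ | ⟨false⟩ => J₁
  have hJ : ∀ b, IsOpenImmersion (J b) := by rintro ⟨⟨⟩⟩ <;> infer_instance
  let φ : ∀ b, L.restrict (J b) ≅ L'.restrict (J b) := fun b =>
    match b with | ⟨true⟩ => φ₀ | ⟨false⟩ => φ₁
  obtain ⟨f, hf⟩ := exists_glue_iso J (fun x => by
    rcases (hcov.ge : ⊤ ≤ _) (Opens.mem_top x) with h | h
    · exact ⟨⟨true⟩, h⟩
    · exact ⟨⟨false⟩, h⟩) φ (by
    rintro ⟨⟨⟩⟩ ⟨⟨⟩⟩ W hi hj x
    · rfl
    · exact (hφ W hj hi x).symm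
    · exact hφ W hi hj x
    · rfl)
  exact ⟨f, fun W h x => hf ⟨true⟩ W h x, fun W h x => hf ⟨false⟩ W h x⟩

end Fermat.Agent.Jac
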