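import Fermat.Agent.Jac.Sheaf.Dictionary
import Fermat.Agent.Jac.Sheaf.Overlap

/-!
# Isomorphic sheaves and isomorphic line data
-/

set_option autoImplicit false

noncomputable section

universe u

open CategoryTheory CategoryTheory.Limits AlgebraicGeometry TopologicalSpace TensorProduct
  NeronModelInfra AlgebraicGeometry.RelPicard

namespace Fermat.Agent.Jac.CurveModel

variable {k : Type u} [Field k] {C : Scheme.{u}} {c : C ⟶ Spec (CommRingCat.of k)}
  {ε : SchemeHomOver (𝟙 (Spec (CommRingCat.of k))) c}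
variable (m : CurveModel c ε) {R : Type u} [CommRing R] [Algebra k R]
variable {L L' : (pullback c (structMap k R)).Modules} (hL : Scheme.Modules.IsInvertible L)
  (hL' : Scheme.Modules.IsInvertible L')

/-- An isomorphism of sheaves gives an isomorphism of line data. -/
def lineDataIso (e : L ≅ L') : LineData.Iso (m.toLineData L hL) (m.toLineData L' hL') where
  eM := secIso (m.J₀ R) e
  eN := secIso (m.J₁ R) e
  rel := fun i (x : m.secM L) (n : m.secN L) h => by
    have h1 := (m.rel_iff L hL i x n).mp h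
    refine (m.rel_iff L' hL' i (secMap (m.J₀ R) e.hom x) (secMap (m.J₁ R) e.hom n)).mpr ?_
    refine Eq.trans ?_ (resMap_secMap (m.J₁ R) (m.JB R) (m.JB_eq₁ R) e.hom n).symm
    refine Eq.trans ?_ (congrArg (secMap (m.JB R) e.hom) h1)
    refine Eq.trans ?_ ((secMap (m.JB R) e.hom).map_smul _ _).symm
    exact congrArg (algebraMap (m.D.AR₁ R) (m.D.BR R) (m.D.yR R) ^ i • ·)
      (resMap_secMap (m.J₀ R) (m.JB R) (m.JB_eq₀ R) e.hom x)

theorem opensRange_sup : (m.J₀ R).opensRange ⊔ (m.J₁ R).opensRange = ⊤ := by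
  rw [← Scheme.Hom.image_top_eq_opensRange, ← Scheme.Hom.image_top_eq_opensRange]
  exact m.chartOpen_sup R

theorem JB_le₀ : chartOpen (m.JB R) ≤ (m.J₀ R).opensRange := by
  rw [← m.chartOpen_inf R, ← Scheme.Hom.image_top_eq_opensRange]
  exact inf_le_left

theorem JB_le₁ : chartOpen (m.JB R) ≤ (m.J₁ R).opensRange := by
  rw [← m.chartOpen_inf R, ← Scheme.Hom.image_top_eq_opensRange]
  exact inf_le_right

/-- A morphism on a chart acts linearly on the sections of the intersection. -/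
def onB {Z : Scheme.{u}} (J : Z ⟶ pullback c (structMap k R)) [IsOpenImmersion J]
    (φ : L.restrict J ⟶ L'.restrict J) (h : chartOpen (m.JB R) ≤ J.opensRange) :
    m.secB L →ₗ[m.D.BR R] m.secB L' where
  toFun z := secEquiv (m.JB R) L' (appOn J φ (chartOpen (m.JB R)) h ((secEquiv (m.JB R) L).symm z))
  map_add' a b := (congrArg (secEquiv (m.JB R) L') (map_add (appOn J φ (chartOpen (m.JB R)) h)
    ((secEquiv (m.JB R) L).symm a) ((secEquiv (m.JB R) L).symm b))).trans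
    ((secEquiv (m.JB R) L').map_add _ _)
  map_smul' r z := (congrArg (secEquiv (m.JB R) L') (appOn_smul J φ (chartOpen (m.JB R)) h
    (chartRing (m.JB R) r) ((secEquiv (m.JB R) L).symm z))).trans rfl

theorem onB_res₀ (eM : Sec (m.J₀ R) L ≅ Sec (m.J₀ R) L') (x : m.secM L) :
    m.onB (m.J₀ R) (isoOfΓ (isInvertible_restrict _ hL) (isInvertible_restrict _ hL') eM).hom
      m.JB_le₀ (m.res₀ L x) = m.res₀ L' (eM.hom.hom x) := by
  let φ := (isoOfΓ (isInvertible_restrict (m.J₀ R) hL) (isInvertible_restrict (m.J₀ R) hL') eM).hom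
  have hle : chartOpen (m.J₀ R) ≤ (m.J₀ R).opensRange :=
    ((m.J₀ R).image_top_eq_opensRange).le
  refine Eq.trans (congrArg (secEquiv (m.JB R) L') ?_)
    (resMap_apply (m.J₀ R) (m.JB R) (m.JB_eq₀ R) L' ((secEquiv (m.J₀ R) L').symm (eM.hom.hom x))).symm
  refine (map_appOn (m.J₀ R) φ hle m.JB_le₀ (homOfLE (chartOpen_le (m.J₀ R) (m.JB R) (m.JB_eq₀ R)))
    ((secEquiv (m.J₀ R) L).symm x)).symm.trans ?_
  refine congrArg _ ((appOn_chartOpen (m.J₀ R) φ hle _).trans ?_)
  exact isoOfΓ_app_top (isInvertible_restrict (m.J₀ R) hL) (isInvertible_restrict (m.J₀ R) hL') eM x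

theorem onB_res₁ (eN : Sec (m.J₁ R) L ≅ Sec (m.J₁ R) L') (x : m.secN L) :
    m.onB (m.J₁ R) (isoOfΓ (isInvertible_restrict _ hL) (isInvertible_restrict _ hL') eN).hom
      m.JB_le₁ (m.res₁ L x) = m.res₁ L' (eN.hom.hom x) := by
  let φ := (isoOfΓ (isInvertible_restrict (m.J₁ R) hL) (isInvertible_restrict (m.J₁ R) hL') eN).hom
  have hle : chartOpen (m.J₁ R) ≤ (m.J₁ R).opensRange :=
    ((m.J₁ R).image_top_eq_opensRange).le
  refine Eq.trans (congrArg (secEquiv (m.JB R) L') ?_)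
    (resMap_apply (m.J₁ R) (m.JB R) (m.JB_eq₁ R) L' ((secEquiv (m.J₁ R) L').symm (eN.hom.hom x))).symm
  refine (map_appOn (m.J₁ R) φ hle m.JB_le₁ (homOfLE (chartOpen_le (m.J₁ R) (m.JB R) (m.JB_eq₁ R)))
    ((secEquiv (m.J₁ R) L).symm x)).symm.trans ?_
  refine congrArg _ ((appOn_chartOpen (m.J₁ R) φ hle _).trans ?_)
  exact isoOfΓ_app_top (isInvertible_restrict (m.J₁ R) hL) (isInvertible_restrict (m.J₁ R) hL') eN x

/-- An isomorphism of line data comes from an isomorphism of sheaves. -/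
theorem nonempty_iso_of_lineDataIso (E : LineData.Iso (m.toLineData L hL) (m.toLineData L' hL')) :
    Nonempty (L ≅ L') := by
  let eMl : m.secM L ≃ₗ[m.D.AR R] m.secM L' := E.eM
  let eNl : m.secN L ≃ₗ[m.D.AR₁ R] m.secN L' := E.eN
  let eM : Sec (m.J₀ R) L ≅ Sec (m.J₀ R) L' := eMl.toModuleIso
  let eN : Sec (m.J₁ R) L ≅ Sec (m.J₁ R) L' := eNl.toModuleIso
  let φ₀ := isoOfΓ (isInvertible_restrict (m.J₀ R) hL) (isInvertible_restrict (m.J₀ R) hL') eM
  let φ₁ := isoOfΓ (isInvertible_restrict (m.J₁ R) hL) (isInvertible_restrict (m.J₁ R) hL') eN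
  let u := algebraMap (m.D.AR₁ R) (m.D.BR R) (m.D.yR R)
  have hu : IsUnit u := IsLocalization.Away.algebraMap_isUnit (m.D.yR R)
  let ψ₀ := m.onB (m.J₀ R) φ₀.hom m.JB_le₀
  let ψ₁ := m.onB (m.J₁ R) φ₁.hom m.JB_le₁
  have hres : ∀ x : m.secM L, ψ₀ (m.res₀ L x) = ψ₁ (m.res₀ L x) := fun x => by
    obtain ⟨i, n, h⟩ := (m.toLineData L hL).exists_rel x
    let n' : m.secN L := n
    have h' : u ^ i • m.res₀ L x = m.res₁ L n' := (m.rel_iff L hL i x n').mp h
    have h'' : u ^ i • m.res₀ L' (eMl x) = m.res₁ L' (eNl n') :=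
      (m.rel_iff L' hL' i (eMl x) (eNl n')).mp (E.rel i x n h)
    apply (hu.pow i).smul_left_cancel.mp
    calc u ^ i • ψ₀ (m.res₀ L x) = u ^ i • m.res₀ L' (eMl x) :=
          congrArg (u ^ i • ·) (m.onB_res₀ hL hL' eM x)
      _ = m.res₁ L' (eNl n') := h''
      _ = ψ₁ (m.res₁ L n') := (m.onB_res₁ hL hL' eN n').symm
      _ = ψ₁ (u ^ i • m.res₀ L x) := (congrArg ψ₁ h').symm
      _ = u ^ i • ψ₁ (m.res₀ L x) := ψ₁.map_smul _ _
  have hψ : ∀ z, ψ₀ z = ψ₁ z := fun z => by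
    obtain ⟨e, he⟩ := m.exists_equiv₀ L hL
    obtain ⟨w, rfl⟩ := e.surjective z
    induction w using TensorProduct.induction_on with
    | zero => simp
    | add a b ha hb => simp only [map_add, ha, hb]
    | tmul b x =>
      have : e (b ⊗ₜ x) = b • m.res₀ L x := by
        rw [← he x, ← map_smul, TensorProduct.smul_tmul', smul_eq_mul, mul_one]
      rw [this, map_smul, map_smul, hres]
  obtain ⟨f, -⟩ := exists_glue_iso₂ (m.J₀ R) (m.J₁ R) m.opensRange_sup φ₀ φ₁ fun W h₀ h₁ z =>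
    appOn_eq_of_eq_top (m.JB R) hL (m.J₀ R) (m.J₁ R) φ₀.hom φ₁.hom m.JB_le₀ m.JB_le₁
      (fun x => (secEquiv (m.JB R) L').injective (hψ (secEquiv (m.JB R) L x)))
      (W := W) (by rw [← m.chartOpen_inf R]
                   exact le_inf (h₀.trans ((m.J₀ R).image_top_eq_opensRange).ge)
                     (h₁.trans ((m.J₁ R).image_top_eq_opensRange).ge)) z
  exact ⟨f⟩

/-- Sheaves are isomorphic iff their line data are. -/
theorem nonempty_iso_iff :
    Nonempty (L ≅ L') ↔ Nonempty (LineData.Iso (m.toLineData L hL) (m.toLineData L' hL')) :=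
  ⟨fun ⟨e⟩ => ⟨m.lineDataIso hL hL' e⟩, fun ⟨E⟩ => m.nonempty_iso_of_lineDataIso hL hL' E⟩

end Fermat.Agent.Jac.CurveModel
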