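import Fermat.Agent.Jac.Sheaf.PushTilde
import Fermat.Agent.Jac.Sheaf.Compare

/-!
# Every line data comes from an invertible sheaf
-/

set_option autoImplicit false

noncomputable section

universe u

open CategoryTheory CategoryTheory.Limits AlgebraicGeometry TopologicalSpace TensorProduct
  NeronModelInfra AlgebraicGeometry.RelPicard

namespace Fermat.Agent.Jac.CurveModel

variable {k : Type u} [Field k] {C : Scheme.{u}} {c : C ⟶ Spec (CommRingCat.of k)}
  {ε : SchemeHomOver (𝟙 (Spec (CommRingCat.of k))) c}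
variable (m : CurveModel c ε) {R : Type u} [CommRing R] [Algebra k R] (L : LineData m.D R)

/-- The piece of the sheaf on the first chart. -/
def piece₀ : (pullback c (structMap k R)).Modules :=
  pushTilde (m.J₀ R) (ModuleCat.of (CommRingCat.of (m.D.AR R)) L.M)

/-- The piece of the sheaf on the second chart. -/
def piece₁ : (pullback c (structMap k R)).Modules :=
  pushTilde (m.J₁ R) (ModuleCat.of (CommRingCat.of (m.D.AR₁ R)) L.N)

theorem isInvertible_piece₀ : Scheme.Modules.IsInvertible ((m.piece₀ L).restrict (m.J₀ R)) :=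
  haveI : Module.Invertible (CommRingCat.of (m.D.AR R))
      (ModuleCat.of (CommRingCat.of (m.D.AR R)) L.M) := L.invM
  isInvertible_pushTilde_restrict _ _

theorem isInvertible_piece₁ : Scheme.Modules.IsInvertible ((m.piece₁ L).restrict (m.J₁ R)) :=
  haveI : Module.Invertible (CommRingCat.of (m.D.AR₁ R))
      (ModuleCat.of (CommRingCat.of (m.D.AR₁ R)) L.N) := L.invN
  isInvertible_pushTilde_restrict _ _

theorem isInvertible_piece₀B : Scheme.Modules.IsInvertible ((m.piece₀ L).restrict (m.JB R)) :=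
  haveI : Module.Invertible (CommRingCat.of (m.D.AR R))
      (ModuleCat.of (CommRingCat.of (m.D.AR R)) L.M) := L.invM
  isInvertible_pushTilde_restrict_le _ _ _ (m.JB_eq₀ R)

theorem isInvertible_piece₁B : Scheme.Modules.IsInvertible ((m.piece₁ L).restrict (m.JB R)) :=
  haveI : Module.Invertible (CommRingCat.of (m.D.AR₁ R))
      (ModuleCat.of (CommRingCat.of (m.D.AR₁ R)) L.N) := L.invN
  isInvertible_pushTilde_restrict_le _ _ _ (m.JB_eq₁ R)

/-- Sections of the first piece. -/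
def sec₀ : m.secM (m.piece₀ L) ≃ₗ[m.D.AR R] L.M :=
  pushTildeSecEquiv (m.J₀ R) (ModuleCat.of (CommRingCat.of (m.D.AR R)) L.M)

/-- Sections of the second piece. -/
def sec₁ : m.secN (m.piece₁ L) ≃ₗ[m.D.AR₁ R] L.N :=
  pushTildeSecEquiv (m.J₁ R) (ModuleCat.of (CommRingCat.of (m.D.AR₁ R)) L.N)

theorem exists_equivB₀ : ∃ e : m.D.BR R ⊗[m.D.AR R] m.secM (m.piece₀ L) ≃ₗ[m.D.BR R]
    m.secB (m.piece₀ L), ∀ x, e (1 ⊗ₜ x) = m.res₀ (m.piece₀ L) x :=
  exists_baseChange_equiv (m.D.xR R) (m.res₀ (m.piece₀ L))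
    (fun z => exists_resMap_eq (A := CommRingCat.of (m.D.AR R)) (B := CommRingCat.of (m.D.BR R))
      (m.D.xR R) (m.away₀) (m.J₀ R) (m.JB R) (m.JB_eq₀ R) _ (m.isInvertible_piece₀ L) z)
    (fun _ hx => resMap_eq_zero (A := CommRingCat.of (m.D.AR R)) (B := CommRingCat.of (m.D.BR R))
      (m.D.xR R) (m.away₀) (m.J₀ R) (m.JB R) (m.JB_eq₀ R) _ (m.isInvertible_piece₀ L) hx)

theorem exists_equivB₁ : ∃ e : m.D.BR R ⊗[m.D.AR₁ R] m.secN (m.piece₁ L) ≃ₗ[m.D.BR R]
    m.secB (m.piece₁ L), ∀ x, e (1 ⊗ₜ x) = m.res₁ (m.piece₁ L) x :=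
  exists_baseChange_equiv (m.D.yR R) (m.res₁ (m.piece₁ L))
    (fun z => exists_resMap_eq (A := CommRingCat.of (m.D.AR₁ R)) (B := CommRingCat.of (m.D.BR R))
      (m.D.yR R) (m.away₁) (m.J₁ R) (m.JB R) (m.JB_eq₁ R) _ (m.isInvertible_piece₁ L) z)
    (fun _ hx => resMap_eq_zero (A := CommRingCat.of (m.D.AR₁ R)) (B := CommRingCat.of (m.D.BR R))
      (m.D.yR R) (m.away₁) (m.J₁ R) (m.JB R) (m.JB_eq₁ R) _ (m.isInvertible_piece₁ L) hx)

/-- The first piece on the intersection, in terms of `M`. -/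
def secB₀ : m.secB (m.piece₀ L) ≃ₗ[m.D.BR R] m.D.BR R ⊗[m.D.AR R] L.M :=
  (m.exists_equivB₀ L).choose.symm.trans ((m.sec₀ L).baseChange (m.D.AR R) (m.D.BR R) _ _)

/-- The second piece on the intersection, in terms of `N`. -/
def secB₁ : m.secB (m.piece₁ L) ≃ₗ[m.D.BR R] L.P :=
  (m.exists_equivB₁ L).choose.symm.trans ((m.sec₁ L).baseChange (m.D.AR₁ R) (m.D.BR R) _ _)

theorem secB₀_res₀ (x : m.secM (m.piece₀ L)) :
    m.secB₀ L (m.res₀ (m.piece₀ L) x) = 1 ⊗ₜ m.sec₀ L x := by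
  rw [secB₀, LinearEquiv.trans_apply, ← (m.exists_equivB₀ L).choose_spec x,
    LinearEquiv.symm_apply_apply]
  rfl

theorem secB₁_res₁ (x : m.secN (m.piece₁ L)) :
    m.secB₁ L (m.res₁ (m.piece₁ L) x) = 1 ⊗ₜ m.sec₁ L x := by
  rw [secB₁, LinearEquiv.trans_apply, ← (m.exists_equivB₁ L).choose_spec x,
    LinearEquiv.symm_apply_apply]
  rfl

/-- The transition isomorphism on the intersection. -/
def transition : (m.piece₀ L).restrict (m.JB R) ≅ (m.piece₁ L).restrict (m.JB R) :=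
  isoOfΓ (m.isInvertible_piece₀B L) (m.isInvertible_piece₁B L)
    (LinearEquiv.toModuleIso (X₁ := Sec (m.JB R) (m.piece₀ L)) (X₂ := Sec (m.JB R) (m.piece₁ L))
      ((m.secB₀ L).trans (L.glue.trans (m.secB₁ L).symm)))

theorem le_JB {W : (pullback c (structMap k R)).Opens} (h₀ : W ≤ chartOpen (m.J₀ R))
    (h₁ : W ≤ chartOpen (m.J₁ R)) : W ≤ (m.JB R).opensRange :=
  (le_inf h₀ h₁).trans ((m.chartOpen_inf R).trans (m.JB R).image_top_eq_opensRange).le

/-- The gluing data. -/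
def glueSys : GlueSys (pullback c (structMap k R)) where
  ι := ULift.{u} Bool
  U b := match b with | ⟨true⟩ => chartOpen (m.J₀ R) | ⟨false⟩ => chartOpen (m.J₁ R)
  cover x := by
    rcases ((m.chartOpen_sup R).ge : ⊤ ≤ _) (Opens.mem_top x) with h | h
    · exact ⟨⟨true⟩, h⟩
    · exact ⟨⟨false⟩, h⟩
  N b := match b with | ⟨true⟩ => m.piece₀ L | ⟨false⟩ => m.piece₁ L
  g i j W hi hj := match i, j, hi, hj with
    | ⟨true⟩, ⟨true⟩, _, _ => AddMonoidHom.id _
    | ⟨false⟩, ⟨false⟩, _, _ => AddMonoidHom.id _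
    | ⟨true⟩, ⟨false⟩, hi, hj => appOn (m.JB R) (m.transition L).hom W (m.le_JB hi hj)
    | ⟨false⟩, ⟨true⟩, hi, hj => appOn (m.JB R) (m.transition L).inv W (m.le_JB hj hi)
  g_smul := by
    rintro ⟨⟨⟩⟩ ⟨⟨⟩⟩ W hi hj r x
    · rfl
    · exact appOn_smul (m.JB R) (m.transition L).inv W (m.le_JB hj hi) r x
    · exact appOn_smul (m.JB R) (m.transition L).hom W (m.le_JB hi hj) r x
    · rfl
  g_map := by
    rintro ⟨⟨⟩⟩ ⟨⟨⟩⟩ W W' hi hj h x
    · rfl
    · exact map_appOn (m.JB R) (m.transition L).inv (m.le_JB hj hi)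
        (m.le_JB (h.le.trans hj) (h.le.trans hi)) h x
    · exact map_appOn (m.JB R) (m.transition L).hom (m.le_JB hi hj)
        (m.le_JB (h.le.trans hi) (h.le.trans hj)) h x
    · rfl
  g_id := by
    rintro ⟨⟨⟩⟩ W hi x <;> rfl
  g_comp := by
    rintro ⟨⟨⟩⟩ ⟨⟨⟩⟩ ⟨⟨⟩⟩ W hi hj hl x
    · rfl
    · rfl
    · exact (appOn_comp (m.JB R) (m.transition L).inv (m.transition L).hom (m.le_JB hj hi) x).trans
        (by rw [Iso.inv_hom_id]; exact appOn_id _ _ x)
    · rfl
    · rfl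
    · exact (appOn_comp (m.JB R) (m.transition L).hom (m.transition L).inv (m.le_JB hi hj) x).trans
        (by rw [Iso.hom_inv_id]; exact appOn_id _ _ x)
    · rfl
    · rfl

/-- The sheaf of a line data. -/
def toSheaf : (pullback c (structMap k R)).Modules := (m.glueSys L).glued

/-- Projection of sections to the first piece. -/
def proj₀ (W : (pullback c (structMap k R)).Opens) (hW : W ≤ chartOpen (m.J₀ R)) :
    Γ(m.toSheaf L, W) →+ Γ(m.piece₀ L, W) :=
  (m.glueSys L).proj ⟨true⟩ W hW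

/-- Projection of sections to the second piece. -/
def proj₁ (W : (pullback c (structMap k R)).Opens) (hW : W ≤ chartOpen (m.J₁ R)) :
    Γ(m.toSheaf L, W) →+ Γ(m.piece₁ L, W) :=
  (m.glueSys L).proj ⟨false⟩ W hW

/-- Sections on the first chart. -/
def secIso₀ : m.secM (m.toSheaf L) ≃ₗ[m.D.AR R] m.secM (m.piece₀ L) :=
  secEquivOfBijective (m.J₀ R) (m.proj₀ L _ le_rfl)
    (fun r x => (m.glueSys L).proj_smul ⟨true⟩ (W := chartOpen (m.J₀ R)) le_rfl r x)
    ((m.glueSys L).proj_bijective ⟨true⟩ (W := chartOpen (m.J₀ R)) le_rfl)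

/-- Sections on the second chart. -/
def secIso₁ : m.secN (m.toSheaf L) ≃ₗ[m.D.AR₁ R] m.secN (m.piece₁ L) :=
  secEquivOfBijective (m.J₁ R) (m.proj₁ L _ le_rfl)
    (fun r x => (m.glueSys L).proj_smul ⟨false⟩ (W := chartOpen (m.J₁ R)) le_rfl r x)
    ((m.glueSys L).proj_bijective ⟨false⟩ (W := chartOpen (m.J₁ R)) le_rfl)

theorem isInvertible_restrict_chartOpen {X : Scheme.{u}} {A : CommRingCat.{u}} (J : Spec A ⟶ X)
    [IsOpenImmersion J] (N : X.Modules) (hN : Scheme.Modules.IsInvertible (N.restrict J)) :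
    Scheme.Modules.IsInvertible (N.restrict (chartOpen J).ι) := by
  have hr : Set.range (chartOpen J).ι ⊆ Set.range J := by
    rintro _ ⟨y, rfl⟩
    obtain ⟨z, -, hz⟩ := y.2
    exact ⟨z, hz⟩
  let l : (chartOpen J).toScheme ⟶ Spec A := IsOpenImmersion.lift J (chartOpen J).ι hr
  have e : l ≫ J = (chartOpen J).ι := IsOpenImmersion.lift_fac J (chartOpen J).ι hr
  exact isInvertible_congr
    ((Scheme.Modules.pullback l).mapIso (restrictIsoPullback J N) ≪≫
      (Scheme.Modules.pullbackComp l J).app N ≪≫ (Scheme.Modules.pullbackCongr e).app N ≪≫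
      (restrictIsoPullback (chartOpen J).ι N).symm)
    (hN.pullback l)

theorem isInvertible_toSheaf : Scheme.Modules.IsInvertible (m.toSheaf L) := by
  refine (m.glueSys L).isInvertible_glued ?_
  rintro ⟨⟨⟩⟩
  · exact isInvertible_restrict_chartOpen (m.J₁ R) (m.piece₁ L) (m.isInvertible_piece₁ L)
  · exact isInvertible_restrict_chartOpen (m.J₀ R) (m.piece₀ L) (m.isInvertible_piece₀ L)

/-- The line data of the sheaf of `L` is `L`. -/
theorem nonempty_toLineData_toSheaf_iso :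
    Nonempty (LineData.Iso (m.toLineData (m.toSheaf L) (m.isInvertible_toSheaf L)) L) := by
  refine ⟨⟨(m.secIso₀ L).trans (m.sec₀ L), (m.secIso₁ L).trans (m.sec₁ L), fun i x n h => ?_⟩⟩
  let x' : m.secM (m.toSheaf L) := x
  let n' : m.secN (m.toSheaf L) := n
  have hB : chartOpen (m.JB R) ≤ (m.JB R).opensRange := (m.JB R).image_top_eq_opensRange.le
  have hB₀ : chartOpen (m.JB R) ≤ chartOpen (m.J₀ R) := (m.chartOpen_inf R).ge.trans inf_le_left
  have hB₁ : chartOpen (m.JB R) ≤ chartOpen (m.J₁ R) := (m.chartOpen_inf R).ge.trans inf_le_right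
  let u := algebraMap (m.D.AR₁ R) (m.D.BR R) (m.D.yR R) ^ i
  have hrel : u • m.res₀ (m.toSheaf L) x' = m.res₁ (m.toSheaf L) n' :=
    (m.rel_iff _ (m.isInvertible_toSheaf L) i x' n').mp h
  let p₁ : m.secB (m.toSheaf L) → m.secB (m.piece₁ L) := fun z =>
    secEquiv (m.JB R) _ (m.proj₁ L _ hB₁ ((secEquiv (m.JB R) (m.toSheaf L)).symm z))
  have hp₁ : p₁ (u • m.res₀ (m.toSheaf L) x') = u • p₁ (m.res₀ (m.toSheaf L) x') :=
    congrArg (secEquiv (m.JB R) (m.piece₁ L)) ((m.glueSys L).proj_smul ⟨false⟩ hB₁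
      (chartRing (m.JB R) u) ((secEquiv (m.JB R) (m.toSheaf L)).symm (m.res₀ (m.toSheaf L) x')))
  have h1 : p₁ (m.res₁ (m.toSheaf L) n') = m.res₁ (m.piece₁ L) (m.secIso₁ L n') :=
    congrArg (secEquiv (m.JB R) (m.piece₁ L)) ((m.glueSys L).proj_map ⟨false⟩
      (W := chartOpen (m.J₁ R)) (W' := chartOpen (m.JB R)) le_rfl (homOfLE hB₁)
      ((secEquiv (m.J₁ R) (m.toSheaf L)).symm n')).symm
  let T := (m.secB₀ L).trans (L.glue.trans (m.secB₁ L).symm)
  have h0 : p₁ (m.res₀ (m.toSheaf L) x') = T (m.res₀ (m.piece₀ L) (m.secIso₀ L x')) := by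
    refine (congrArg (secEquiv (m.JB R) (m.piece₁ L)) ((m.glueSys L).g_proj ⟨true⟩ ⟨false⟩
      hB₀ hB₁ ((secEquiv (m.JB R) (m.toSheaf L)).symm (m.res₀ (m.toSheaf L) x'))).symm).trans ?_
    refine (congrArg (secEquiv (m.JB R) (m.piece₁ L)) ((appOn_chartOpen (m.JB R)
      (m.transition L).hom hB _))).trans ?_
    refine (isoOfΓ_app_top (m.isInvertible_piece₀B L) (m.isInvertible_piece₁B L) _ _).trans ?_
    refine congrArg T ?_
    exact congrArg (secEquiv (m.JB R) (m.piece₀ L)) ((m.glueSys L).proj_map ⟨true⟩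
      (W := chartOpen (m.J₀ R)) (W' := chartOpen (m.JB R)) le_rfl (homOfLE hB₀)
      ((secEquiv (m.J₀ R) (m.toSheaf L)).symm x')).symm
  show u • L.f₀ (m.sec₀ L (m.secIso₀ L x')) = L.f₁ (m.sec₁ L (m.secIso₁ L n'))
  have key := congrArg (m.secB₁ L) ((congrArg p₁ hrel).symm.trans hp₁)
  rw [h1, h0, map_smul, secB₁_res₁] at key
  rw [LineData.f₀_apply, LineData.f₁_apply, key]
  simp only [T, LinearEquiv.trans_apply, LinearEquiv.apply_symm_apply, secB₀_res₀]

/-- Every line data comes from an invertible sheaf. -/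
theorem exists_toLineData_iso :
    ∃ (L' : (pullback c (structMap k R)).Modules) (hL' : Scheme.Modules.IsInvertible L'),
      Nonempty (LineData.Iso (m.toLineData L' hL') L) :=
  ⟨m.toSheaf L, m.isInvertible_toSheaf L, m.nonempty_toLineData_toSheaf_iso L⟩

end Fermat.Agent.Jac.CurveModel
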