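import Fermat.Agent.Jac.Sheaf.ConstFunctions
import Fermat.Agent.Jac.Rep.ClassAt

/-!
# Rigidified bundles on any base, through their classes at affine points

`nonempty_iso_of_forall_classAt`: the classes at affine points determine the bundle.
`exists_of_family`: a natural family of rigid classes at affine points comes from a bundle.
-/

set_option autoImplicit false
set_option linter.style.haveILetI false

noncomputable section

universe u

open CategoryTheory CategoryTheory.Limits AlgebraicGeometry Opposite TopologicalSpace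
  NeronModelInfra AlgebraicGeometry.RelPicard

namespace Fermat.Agent.Jac

variable {k : Type u} [Field k]

theorem exists_specHomOver_eq {R R' : Type u} [CommRing R] [Algebra k R] [CommRing R']
    [Algebra k R'] (s : SchemeHomOver (structMap k R') (structMap k R)) :
    ∃ φ : R →ₐ[k] R', s = specHomOver φ := by
  obtain ⟨g, hg⟩ := Spec.map_surjective s.1
  have h : CommRingCat.ofHom (algebraMap k R) ≫ g = CommRingCat.ofHom (algebraMap k R') :=
    Spec.map_injective (by rw [Spec.map_comp, hg]; exact s.2)
  exact ⟨{ g.hom with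
    commutes' := fun z => ConcreteCategory.congr_hom h z }, Subtype.ext hg.symm⟩

variable {T : Scheme.{u}} (t : T ⟶ Spec (CommRingCat.of k))

/-- The ring of functions on an open of the base, as a `k`-algebra. -/
def OpenRing (W : T.Opens) : Type u := Γ(T, W)

namespace OpenRing

instance (W : T.Opens) : CommRing (OpenRing W) := inferInstanceAs (CommRing Γ(T, W))

/-- The `k`-algebra structure through `t`. -/
@[reducible] def algebraOver (W : T.Opens) : Algebra k (OpenRing W) :=
  RingHom.toAlgebra
    ((Scheme.ΓSpecIso (CommRingCat.of k)).inv ≫ t.appLE ⊤ W le_top).hom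

theorem fromSpec_comp {W : T.Opens} (hW : IsAffineOpen W) :
    letI := algebraOver t W
    hW.fromSpec ≫ t = structMap k (OpenRing W) := by
  letI := algebraOver t W
  show _ = Spec.map ((Scheme.ΓSpecIso (CommRingCat.of k)).inv ≫ t.appLE ⊤ W le_top)
  rw [Spec.map_comp, ← Scheme.isoSpec_Spec_inv, ← IsAffineOpen.fromSpec_top]
  exact (IsAffineOpen.SpecMap_appLE_fromSpec t (isAffineOpen_top _) hW le_top).symm

end OpenRing

/-- An affine open of the base, as a point with values in its ring. -/
def openPoint {W : T.Opens} (hW : IsAffineOpen W) :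
    letI := OpenRing.algebraOver t W
    SchemeHomOver (structMap k (OpenRing W)) t :=
  ⟨hW.fromSpec, OpenRing.fromSpec_comp t hW⟩

/-- An affine open of the base, to the spectrum of its ring. -/
def toOpenSpec {W : T.Opens} (hW : IsAffineOpen W) :
    letI := OpenRing.algebraOver t W
    SchemeHomOver (W.ι ≫ t) (structMap k (OpenRing W)) :=
  ⟨hW.isoSpec.hom, by
    rw [← OpenRing.fromSpec_comp t hW]
    exact hW.isoSpec_hom_fromSpec_assoc t⟩

/-- The spectrum of the ring of an affine open, to the open. -/
def ofOpenSpec {W : T.Opens} (hW : IsAffineOpen W) :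
    letI := OpenRing.algebraOver t W
    SchemeHomOver (structMap k (OpenRing W)) (W.ι ≫ t) :=
  ⟨hW.isoSpec.inv, by
    rw [← OpenRing.fromSpec_comp t hW]
    exact hW.isoSpec_inv_ι_assoc t⟩

theorem postComp_openPoint {W : T.Opens} (hW : IsAffineOpen W) :
    letI := OpenRing.algebraOver t W
    postComp (openPoint t hW) (toOpenSpec t hW) = inclOpen t W :=
  Subtype.ext hW.isoSpec_hom_fromSpec

theorem postComp_inclOpen {W : T.Opens} (hW : IsAffineOpen W) :
    letI := OpenRing.algebraOver t W
    postComp (inclOpen t W) (ofOpenSpec t hW) = openPoint t hW :=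
  Subtype.ext hW.isoSpec_inv_ι

theorem postComp_ofOpenSpec {W : T.Opens} (hW : IsAffineOpen W) :
    letI := OpenRing.algebraOver t W
    postComp (toOpenSpec t hW) (ofOpenSpec t hW) = CurveModel.idPoint k (OpenRing W) :=
  Subtype.ext hW.isoSpec.inv_hom_id

variable {t}

/-- A point landing in an affine open factors through its ring. -/
theorem exists_specHomOver_openPoint {W : T.Opens} (hW : IsAffineOpen W) {R : Type u} [CommRing R]
    [Algebra k R] (s : SchemeHomOver (structMap k R) t) (hs : Set.range s.1 ⊆ W) :
    letI := OpenRing.algebraOver t W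
    ∃ φ : OpenRing W →ₐ[k] R, postComp (openPoint t hW) (specHomOver φ) = s := by
  letI := OpenRing.algebraOver t W
  have : IsOpenImmersion (openPoint t hW).1 := hW.isOpenImmersion_fromSpec
  have hsub : Set.range s.1 ⊆ Set.range (openPoint t hW).1 := hs.trans hW.range_fromSpec.ge
  let g : SchemeHomOver (structMap k R) (structMap k (OpenRing W)) :=
    ⟨IsOpenImmersion.lift (openPoint t hW).1 s.1 hsub, by
      refine (congrArg (IsOpenImmersion.lift (openPoint t hW).1 s.1 hsub ≫ ·)
        (openPoint t hW).2.symm).trans ?_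
      exact (IsOpenImmersion.lift_fac_assoc (openPoint t hW).1 s.1 hsub t).trans s.2⟩
  obtain ⟨φ, hφ⟩ := exists_specHomOver_eq g
  refine ⟨φ, ?_⟩
  rw [← hφ]
  exact Subtype.ext (IsOpenImmersion.lift_fac (openPoint t hW).1 s.1 hsub)

namespace CurveModel

variable {C : Scheme.{u}} {c : C ⟶ Spec (CommRingCat.of k)}
  {ε : SchemeHomOver (𝟙 (Spec (CommRingCat.of k))) c} (m : CurveModel c ε)

/-- Constant functions on `C × U`, over any base. -/
theorem constFunctions (h : m.D.H0Const) {T : Scheme.{u}} (t : T ⟶ Spec (CommRingCat.of k)) :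
    ConstFunctions c t := fun W hW => by
  letI := OpenRing.algebraOver t W
  have : IsOpenImmersion (openPoint t hW).1 := hW.isOpenImmersion_fromSpec
  have := isOpenImmersion_baseChangeSnd c (openPoint t hW)
  have hr : (openPoint t hW).1.opensRange = W := hW.opensRange_fromSpec
  exact bijective_app_of_square (baseChangeSnd_snd c (openPoint t hW)) hr
    ((opensRange_baseChangeSnd c (openPoint t hW)).trans (by rw [hr]))
    (m.bijective_appTop_snd h)

theorem nonempty_iso_of_classAt_openPoint {M M' : RigidifiedLineBundle c ε t} {W : T.Opens}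
    (hW : IsAffineOpen W)
    (h : letI := OpenRing.algebraOver t W
      m.classAt M (openPoint t hW) = m.classAt M' (openPoint t hW)) :
    Nonempty ((M.pullbackAlong (inclOpen t W)).L ≅ (M'.pullbackAlong (inclOpen t W)).L) := by
  letI := OpenRing.algebraOver t W
  obtain ⟨e⟩ := RigidifiedLineBundle.pullbackAlong_congr (toOpenSpec t hW)
    ((m.picClass_eq_iff _ _).mp h)
  obtain ⟨a⟩ := nonempty_pullbackAlong_comp M (openPoint t hW) (toOpenSpec t hW)
  obtain ⟨b⟩ := nonempty_pullbackAlong_comp M' (openPoint t hW) (toOpenSpec t hW)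
  rw [← postComp_openPoint t hW]
  exact ⟨a.symm ≪≫ e ≪≫ b⟩

/-- The classes at affine points determine a rigidified bundle. -/
theorem nonempty_iso_of_forall_classAt (hH0 : m.D.H0Const) {M M' : RigidifiedLineBundle c ε t}
    (h : ∀ (R : Type u) [CommRing R] [Algebra k R] (s : SchemeHomOver (structMap k R) t),
      m.classAt M s = m.classAt M' s) : Nonempty (M.L ≅ M'.L) :=
  nonempty_iso_of_forall_affine (m.constFunctions hH0 t) M M' fun W hW =>
    m.nonempty_iso_of_classAt_openPoint hW (@h (OpenRing W) _ (OpenRing.algebraOver t W) _)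

/-- A natural family of rigid classes at affine points comes from a rigidified bundle. -/
theorem exists_of_family (hH0 : m.D.H0Const)
    (x : ∀ (R : Type u) [CommRing R] [Algebra k R],
      SchemeHomOver (structMap k R) t → LinePic m.D R)
    (rigid : ∀ (R : Type u) [CommRing R] [Algebra k R] (s : SchemeHomOver (structMap k R) t),
      x R s ∈ LinePic.rigid m.D R)
    (natural : ∀ (R R' : Type u) [CommRing R] [Algebra k R] [CommRing R'] [Algebra k R']
      (φ : R →ₐ[k] R') (s : SchemeHomOver (structMap k R) t),
      LinePic.map φ (x R s) = x R' (postComp s (specHomOver φ))) :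
    ∃ M : RigidifiedLineBundle c ε t,
      ∀ (R : Type u) [CommRing R] [Algebra k R] (s : SchemeHomOver (structMap k R) t),
        m.classAt M s = x R s := by
  letI alg : ∀ W : T.Opens, Algebra k (OpenRing W) := OpenRing.algebraOver t
  have hN : ∀ W : T.affineOpens, ∃ N : RigidifiedLineBundle c ε (structMap k (OpenRing W.1)),
      m.classAt N (idPoint k (OpenRing W.1)) = x _ (openPoint t W.2) := fun W =>
    m.exists_classAt_eq (rigid _ _)
  choose N hN using hN
  have hclass : ∀ (W : T.affineOpens) (R : Type u) [CommRing R] [Algebra k R]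
      (φ : OpenRing W.1 →ₐ[k] R),
      m.classAt (N W) (specHomOver φ) = x R (postComp (openPoint t W.2) (specHomOver φ)) := by
    intro W R _ _ φ
    rw [← natural _ _ φ, ← hN W, m.map_classAt]
    exact congrArg (m.classAt (N W)) (Subtype.ext (Category.comp_id _).symm)
  obtain ⟨G, hG⟩ := exists_glue_rigidified (c := c) (ε := ε) (fun W : T.affineOpens => W.1)
    (fun W => (N W).pullbackAlong (toOpenSpec t W.2)) (m.constFunctions hH0 t)
    (fun q => (exists_affine_le (U := ⊤) (x := q) trivial).elim fun W hW => ⟨⟨W, hW.1⟩, hW.2.1⟩)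
    fun i j V hi hj hV => by
      -- both pieces have the class `x` on `V`
      have key : ∀ (W : T.affineOpens) (hle : V ≤ W.1),
          m.classAt (((N W).pullbackAlong (toOpenSpec t W.2)).pullbackAlong (inclLE t hle))
            (ofOpenSpec t hV) = x _ (openPoint t hV) := by
        intro W hle
        rw [m.classAt_pullbackAlong, m.classAt_pullbackAlong]
        obtain ⟨φ, hφ⟩ := exists_specHomOver_eq
          (postComp (toOpenSpec t W.2) (postComp (inclLE t hle) (ofOpenSpec t hV)))
        rw [hφ, hclass, ← hφ]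
        refine congrArg (x _) (Subtype.ext ?_)
        show ((hV.isoSpec.inv ≫ T.homOfLE hle) ≫ W.2.isoSpec.hom) ≫ W.2.fromSpec = hV.fromSpec
        rw [Category.assoc, W.2.isoSpec_hom_fromSpec, Category.assoc, T.homOfLE_ι,
          hV.isoSpec_inv_ι]
      have hcomp : ∀ (M : RigidifiedLineBundle c ε (V.ι ≫ t)),
          Nonempty (((M.pullbackAlong (ofOpenSpec t hV)).pullbackAlong (toOpenSpec t hV)).L ≅ M.L) :=
        fun M => by
          obtain ⟨a⟩ := nonempty_pullbackAlong_comp M (ofOpenSpec t hV) (toOpenSpec t hV)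
          obtain ⟨b⟩ := nonempty_pullbackAlong_id M
          rw [show postComp (ofOpenSpec t hV) (toOpenSpec t hV) =
            (⟨𝟙 _, Category.id_comp _⟩ : SchemeHomOver (V.ι ≫ t) (V.ι ≫ t)) from
              Subtype.ext hV.isoSpec.hom_inv_id] at a
          exact ⟨a ≪≫ b⟩
      obtain ⟨e⟩ := RigidifiedLineBundle.pullbackAlong_congr (toOpenSpec t hV)
        ((m.picClass_eq_iff _ _).mp ((key i hi).trans (key j hj).symm))
      obtain ⟨a⟩ := hcomp (((N i).pullbackAlong (toOpenSpec t i.2)).pullbackAlong (inclLE t hi))
      obtain ⟨b⟩ := hcomp (((N j).pullbackAlong (toOpenSpec t j.2)).pullbackAlong (inclLE t hj))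
      exact ⟨a.symm ≪≫ e ≪≫ b⟩
  -- the class of `G` at the opens of the cover
  have hGW : ∀ W : T.affineOpens, m.classAt G (openPoint t W.2) = x _ (openPoint t W.2) := fun W => by
    rw [← postComp_inclOpen t W.2, ← m.classAt_pullbackAlong, m.classAt_congr (hG W),
      m.classAt_pullbackAlong]
    exact ((congrArg (m.classAt (N W)) (postComp_ofOpenSpec t W.2)).trans (hN W)).trans
      (congrArg (x _) (postComp_inclOpen t W.2).symm)
  refine ⟨G, fun R _ _ s => ?_⟩
  obtain ⟨N', hN'⟩ := m.exists_classAt_eq (rigid R s)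
  rw [← hN']
  refine (m.picClass_eq_iff _ _).mpr ?_
  obtain ⟨b⟩ := nonempty_pullbackAlong_id N'
  obtain ⟨e⟩ := nonempty_iso_of_forall_affine_le (m.constFunctions hH0 (structMap k R))
    (G.pullbackAlong s) N' (fun W : T.affineOpens => s.1 ⁻¹ᵁ W.1)
    (fun q => (exists_affine_le (U := ⊤) (x := s.1 q) trivial).elim fun W hW =>
      ⟨⟨W, hW.1⟩, hW.2.1⟩)
    fun W V hV hVW => by
      letI := OpenRing.algebraOver (structMap k R) V
      refine m.nonempty_iso_of_classAt_openPoint hV ?_
      obtain ⟨φ, hφ⟩ := exists_specHomOver_openPoint W.2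
        (postComp s (openPoint (structMap k R) hV)) (by
          rintro _ ⟨y, rfl⟩
          exact hVW (hV.range_fromSpec.le ⟨y, rfl⟩))
      rw [m.classAt_pullbackAlong, ← hφ, ← m.map_classAt, hGW W, natural, hφ]
      obtain ⟨ψ, hψ⟩ := exists_specHomOver_eq (openPoint (structMap k R) hV)
      rw [hψ, ← natural, ← hN', m.map_classAt]
      exact congrArg (m.classAt N') (Subtype.ext (Category.comp_id _))
  exact ⟨e ≪≫ b.symm⟩

end CurveModel

end Fermat.Agent.Jac
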