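import Fermat.Agent.Jac.Sheaf.BaseChart

/-!
# The two charts of `C × Spec R` for a curve model
-/

set_option autoImplicit false

noncomputable section

universe u

open CategoryTheory CategoryTheory.Limits AlgebraicGeometry TopologicalSpace TensorProduct
  NeronModelInfra AlgebraicGeometry.RelPicard

namespace Fermat.Agent.Jac

variable {k : Type u} [Field k] {C : Scheme.{u}} {c : C ⟶ Spec (CommRingCat.of k)}
  {ε : SchemeHomOver (𝟙 (Spec (CommRingCat.of k))) c}

namespace CurveModel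

variable (m : CurveModel c ε) (R R' : Type u) [CommRing R] [Algebra k R] [CommRing R'] [Algebra k R']

attribute [instance] CurveModel.open₀ CurveModel.open₁

/-- The chart of the intersection. -/
def jB : Spec (CommRingCat.of m.D.B) ⟶ C :=
  Spec.map (CommRingCat.ofHom m.D.i₀.toRingHom) ≫ m.j₀

theorem jB_over : m.jB ≫ c = structMap k m.D.B := by
  rw [jB, Category.assoc, m.j₀_over, ← Spec.map_comp, ← CommRingCat.ofHom_comp]
  exact congrArg (fun f => Spec.map (CommRingCat.ofHom f)) m.D.i₀.comp_algebraMap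

theorem jB_eq : Spec.map (CommRingCat.ofHom m.D.i₁.toRingHom) ≫ m.j₁ = m.jB := m.inter.w.symm

instance isOpenImmersion_jB : IsOpenImmersion m.jB := by
  have : IsOpenImmersion (Spec.map (CommRingCat.ofHom m.D.i₀.toRingHom)) :=
    MorphismProperty.of_isPullback (P := @IsOpenImmersion) m.inter.flip m.open₁
  unfold jB
  infer_instance

theorem chartOpen_jB : chartOpen m.jB = chartOpen m.j₀ ⊓ chartOpen m.j₁ := by
  have : IsOpenImmersion (Spec.map (CommRingCat.ofHom m.D.i₀.toRingHom)) :=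
    MorphismProperty.of_isPullback (P := @IsOpenImmersion) m.inter.flip m.open₁
  have h := IsOpenImmersion.image_preimage_eq_preimage_image_of_isPullback m.inter.flip ⊤
  have h' : Spec.map (CommRingCat.ofHom m.D.i₀.toRingHom) ''ᵁ ⊤ = m.j₀ ⁻¹ᵁ chartOpen m.j₁ := h
  simp only [chartOpen, jB]
  rw [Scheme.Hom.comp_image, h', Scheme.Hom.image_preimage_eq_opensRange_inf,
    chartOpen, Scheme.Hom.image_top_eq_opensRange m.j₀]

/-- The chart away from `ε`. -/
def J₀ : Spec (CommRingCat.of (m.D.AR R)) ⟶ pullback c (structMap k R) :=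
  baseChart c R m.j₀ m.j₀_over

/-- The chart at `ε`. -/
def J₁ : Spec (CommRingCat.of (m.D.AR₁ R)) ⟶ pullback c (structMap k R) :=
  baseChart c R m.j₁ m.j₁_over

/-- The intersection of the two charts. -/
def JB : Spec (CommRingCat.of (m.D.BR R)) ⟶ pullback c (structMap k R) :=
  baseChart c R m.jB m.jB_over

instance isOpenImmersion_J₀ : IsOpenImmersion (m.J₀ R) := isOpenImmersion_baseChart c R m.j₀ m.j₀_over

instance isOpenImmersion_J₁ : IsOpenImmersion (m.J₁ R) := isOpenImmersion_baseChart c R m.j₁ m.j₁_over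

instance isOpenImmersion_JB : IsOpenImmersion (m.JB R) := isOpenImmersion_baseChart c R m.jB m.jB_over

/-- Restriction of functions from the first chart. -/
abbrev φ₀ : CommRingCat.of (m.D.AR R) ⟶ CommRingCat.of (m.D.BR R) :=
  CommRingCat.ofHom (algebraMap (m.D.AR R) (m.D.BR R))

/-- Restriction of functions from the second chart. -/
abbrev φ₁ : CommRingCat.of (m.D.AR₁ R) ⟶ CommRingCat.of (m.D.BR R) :=
  CommRingCat.ofHom (algebraMap (m.D.AR₁ R) (m.D.BR R))

theorem JB_eq₀ : Spec.map (m.φ₀ R) ≫ m.J₀ R = m.JB R :=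
  baseChart_map c R m.j₀ m.j₀_over m.jB m.jB_over m.D.i₀ rfl

theorem JB_eq₁ : Spec.map (m.φ₁ R) ≫ m.J₁ R = m.JB R :=
  baseChart_map c R m.j₁ m.j₁_over m.jB m.jB_over m.D.i₁ m.jB_eq

theorem chartOpen_sup : chartOpen (m.J₀ R) ⊔ chartOpen (m.J₁ R) = ⊤ := by
  simp only [J₀, J₁]
  rw [chartOpen_baseChart, chartOpen_baseChart, ← Scheme.Hom.preimage_sup, eq_top_iff]
  intro p _
  have := Set.eq_univ_iff_forall.mp m.covers (pullback.fst c (structMap k R) p)
  rcases this with ⟨y, hy⟩ | ⟨y, hy⟩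
  · exact Or.inl ⟨y, trivial, hy⟩
  · exact Or.inr ⟨y, trivial, hy⟩

theorem chartOpen_inf : chartOpen (m.J₀ R) ⊓ chartOpen (m.J₁ R) = chartOpen (m.JB R) := by
  simp only [J₀, J₁, JB]
  rw [chartOpen_baseChart, chartOpen_baseChart, chartOpen_baseChart, chartOpen_jB]
  rfl

theorem sq_rig : 𝟙 (Spec (CommRingCat.of R)) ≫ rigSection c (structMap k R) ε =
    Spec.map (CommRingCat.ofHom (m.D.evR (R := R)).toRingHom) ≫ m.J₁ R := by
  rw [Category.id_comp]
  apply pullback.hom_ext
  · rw [rigSection, pullback.lift_fst, Category.assoc, J₁, baseChart_fst, m.ε_eq,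
      ← Category.assoc, ← Category.assoc]
    congr 1
    simp only [structMap, specSnd, ← Spec.map_comp]
    congr 1
    ext a
    simp [CurveData.evR, Algebra.ofId_apply]
  · rw [rigSection, pullback.lift_snd, Category.assoc, J₁, baseChart_snd]
    simp only [specFst, ← Spec.map_comp, ← Spec.map_id]
    congr 1
    ext r
    simp [CurveData.evR]

variable {R R'}

theorem sq₀ (φ : R →ₐ[k] R') : m.J₀ R' ≫ baseChangeSnd c (specHomOver φ) =
    Spec.map (CommRingCat.ofHom (m.D.mapAR φ).toRingHom) ≫ m.J₀ R :=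
  baseChart_baseChangeSnd c m.j₀ m.j₀_over φ

theorem sq₁ (φ : R →ₐ[k] R') : m.J₁ R' ≫ baseChangeSnd c (specHomOver φ) =
    Spec.map (CommRingCat.ofHom (m.D.mapAR₁ φ).toRingHom) ≫ m.J₁ R :=
  baseChart_baseChangeSnd c m.j₁ m.j₁_over φ

theorem sqB (φ : R →ₐ[k] R') : m.JB R' ≫ baseChangeSnd c (specHomOver φ) =
    Spec.map (CommRingCat.ofHom (m.D.mapBR φ).toRingHom) ≫ m.JB R :=
  baseChart_baseChangeSnd c m.jB m.jB_over φ

end CurveModel

end Fermat.Agent.Jac
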