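import Fermat.Agent.Jac.Sheaf.Descent
import Fermat.Agent.Jac.Sheaf.ModelChart
import Fermat.Agent.Jac.Alg.LineData

/-!
# Functions on `C × U` for affine `U`

`bijective_app_snd`: if the unit line data has only constant global sections, then
`Γ(U, O) ≃ Γ(C × U, O)` for affine opens `U`.
-/

set_option autoImplicit false

noncomputable section

universe u

open CategoryTheory CategoryTheory.Limits AlgebraicGeometry Opposite TopologicalSpace
  NeronModelInfra AlgebraicGeometry.RelPicard

namespace Fermat.Agent.Jac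

section Squares

theorem bijective_app_of_square {X Y X' Y' : Scheme.{u}} {J : X' ⟶ X} {i : Y' ⟶ Y}
    [IsOpenImmersion J] [IsOpenImmersion i] {p : X ⟶ Y} {q : X' ⟶ Y'} (w : J ≫ p = q ≫ i)
    {W : Y.Opens} (hi : i.opensRange = W) (hJ : J.opensRange = p ⁻¹ᵁ W)
    (hq : Function.Bijective q.appTop) : Function.Bijective (p.app W) := by
  have : IsIso (J.app (p ⁻¹ᵁ W)) := J.isIso_app _ hJ.ge
  have : IsIso (i.app W) := i.isIso_app _ hi.ge
  have hpre : i ⁻¹ᵁ W = ⊤ := by
    rw [← hi]
    exact top_unique fun y _ => ⟨y, rfl⟩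
  have : IsIso (q.app (i ⁻¹ᵁ W)) := by
    rw [hpre]
    exact (ConcreteCategory.isIso_iff_bijective _).mpr hq
  have h := Scheme.Hom.congr_app w W
  rw [Scheme.Hom.comp_app, Scheme.Hom.comp_app] at h
  have h' : IsIso (p.app W ≫ J.app (p ⁻¹ᵁ W)) := by
    rw [h]
    exact IsIso.comp_isIso' (IsIso.comp_isIso' ‹IsIso (i.app W)› ‹IsIso (q.app (i ⁻¹ᵁ W))›)
      (((X'.presheaf).mapIso (eqToIso (by rw [w])).op).isIso_hom)
  have : IsIso (p.app W) := IsIso.of_isIso_comp_right _ (J.app (p ⁻¹ᵁ W))
  exact (ConcreteCategory.isIso_iff_bijective (p.app W)).mp this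

variable {R : Type u} [CommRing R] {C T T' : Scheme.{u}} (c : C ⟶ Spec (CommRingCat.of R))
  {t : T ⟶ Spec (CommRingCat.of R)} {t' : T' ⟶ Spec (CommRingCat.of R)}

theorem baseChangeSnd_snd (ψ : SchemeHomOver t' t) :
    baseChangeSnd c ψ ≫ pullback.snd c t = pullback.snd c t' ≫ ψ.1 :=
  pullback.lift_snd _ _ _

theorem isPullback_baseChangeSnd (ψ : SchemeHomOver t' t) :
    IsPullback (baseChangeSnd c ψ) (pullback.snd c t') (pullback.snd c t) ψ.1 := by
  refine IsPullback.of_right ?_ (baseChangeSnd_snd c ψ) (IsPullback.of_hasPullback c t)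
  have h₁ : baseChangeSnd c ψ ≫ pullback.fst c t = pullback.fst c t' :=
    (pullback.lift_fst _ _ _).trans (Category.comp_id _)
  rw [h₁, ψ.2]
  exact IsPullback.of_hasPullback c t'

theorem isOpenImmersion_baseChangeSnd (ψ : SchemeHomOver t' t) [IsOpenImmersion ψ.1] :
    IsOpenImmersion (baseChangeSnd c ψ) :=
  MorphismProperty.of_isPullback (P := @IsOpenImmersion) (isPullback_baseChangeSnd c ψ).flip
    inferInstance

theorem opensRange_baseChangeSnd (ψ : SchemeHomOver t' t) [IsOpenImmersion ψ.1]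
    [IsOpenImmersion (baseChangeSnd c ψ)] :
    (baseChangeSnd c ψ).opensRange = pullback.snd c t ⁻¹ᵁ ψ.1.opensRange := by
  have h := IsOpenImmersion.image_preimage_eq_preimage_image_of_isPullback
    (isPullback_baseChangeSnd c ψ).flip ⊤
  simpa [Scheme.Hom.image_top_eq_opensRange] using h

end Squares

variable {k : Type u} [Field k]

/-- The only global sections of the trivial line data are the constants. -/
def CurveData.H0Const (D : CurveData.{u} k) : Prop :=
  ∀ (R : Type u) [CommRing R] [Algebra k R] (a : D.AR R) (b : D.AR₁ R),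
    algebraMap (D.AR R) (D.BR R) a = algebraMap (D.AR₁ R) (D.BR R) b →
      ∃ r : R, algebraMap R (D.AR R) r = a ∧ algebraMap R (D.AR₁ R) r = b

variable {C : Scheme.{u}} {c : C ⟶ Spec (CommRingCat.of k)}
  {ε : SchemeHomOver (𝟙 (Spec (CommRingCat.of k))) c}

theorem eq_of_appTop_eq {X : Scheme.{u}} {ι : Type u} {Y : ι → Scheme.{u}} (J : ∀ i, Y i ⟶ X)
    [∀ i, IsOpenImmersion (J i)] (hJ : ⨆ i, (J i).opensRange = ⊤) {f g : Γ(X, ⊤)}
    (h : ∀ i, (J i).appTop f = (J i).appTop g) : f = g := by
  refine TopCat.Sheaf.eq_of_locally_eq' X.sheaf (fun i => (J i).opensRange) ⊤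
    (fun i => homOfLE le_top) hJ.ge f g fun i => ?_
  have : IsIso ((J i).app (J i).opensRange) := (J i).isIso_app _ le_rfl
  apply ((ConcreteCategory.isIso_iff_bijective ((J i).app (J i).opensRange)).mp this).1
  have hn := fun z : Γ(X, ⊤) =>
    ConcreteCategory.congr_hom ((J i).naturality (homOfLE (le_top : (J i).opensRange ≤ ⊤)).op) z
  refine (hn f).trans (Eq.trans ?_ (hn g).symm)
  exact congrArg ((Y i).presheaf.map _) (h i)

namespace CurveModel

variable (m : CurveModel c ε) {R : Type u} [CommRing R] [Algebra k R]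

theorem appTop_specMap {A B : CommRingCat.{u}} (φ : A ⟶ B) (z : Γ(Spec A, ⊤)) :
    (Scheme.ΓSpecIso B).hom ((Spec.map φ).appTop z) = φ ((Scheme.ΓSpecIso A).hom z) :=
  ConcreteCategory.congr_hom (Scheme.ΓSpecIso_naturality φ) z

theorem bijective_appTop_snd (h : m.D.H0Const) :
    Function.Bijective (pullback.snd c (structMap k R)).appTop := by
  let X := pullback c (structMap k R)
  let p : X ⟶ Spec (CommRingCat.of R) := pullback.snd c (structMap k R)
  constructor
  · have hs : p.appTop ≫ (rigSection c (structMap k R) ε).appTop = 𝟙 _ := by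
      rw [← Scheme.Hom.comp_appTop]
      exact (congrArg Scheme.Hom.appTop (rigSection_snd c (structMap k R) ε)).trans
        Scheme.Hom.id_appTop
    exact Function.LeftInverse.injective (g := (rigSection c (structMap k R) ε).appTop)
      fun z => ConcreteCategory.congr_hom hs z
  · intro f
    let a : m.D.AR R := (Scheme.ΓSpecIso _).hom ((m.J₀ R).appTop f)
    let b : m.D.AR₁ R := (Scheme.ΓSpecIso _).hom ((m.J₁ R).appTop f)
    have hab : m.φ₀ R a = m.φ₁ R b := by
      rw [← appTop_specMap, ← appTop_specMap]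
      refine congrArg _ ?_
      rw [← CommRingCat.comp_apply, ← CommRingCat.comp_apply, ← Scheme.Hom.comp_appTop,
        ← Scheme.Hom.comp_appTop, m.JB_eq₀ R, m.JB_eq₁ R]
    obtain ⟨r, hra, hrb⟩ := h R a b hab
    let g : Γ(Spec (CommRingCat.of R), ⊤) := (Scheme.ΓSpecIso _).inv r
    have key : ∀ (A : Type u) [CommRing A] [Algebra k A]
        (j : Spec (CommRingCat.of A) ⟶ C) (hj : j ≫ c = structMap k A),
        (Scheme.ΓSpecIso _).hom ((baseChart c R j hj).appTop (p.appTop g)) =
          algebraMap R (TensorProduct k R A) r := by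
      intro A _ _ j hj
      rw [← CommRingCat.comp_apply p.appTop, ← Scheme.Hom.comp_appTop, baseChart_snd, appTop_specMap,
        Iso.inv_hom_id_apply]
      rfl
    refine ⟨g, ?_⟩
    refine @eq_of_appTop_eq X (ULift.{u} Bool)
      (fun i => bif i.down then Spec (CommRingCat.of (m.D.AR R))
        else Spec (CommRingCat.of (m.D.AR₁ R)))
      (fun i => match i with | ⟨true⟩ => m.J₀ R | ⟨false⟩ => m.J₁ R)
      (fun i => match i with
        | ⟨true⟩ => m.isOpenImmersion_J₀ R | ⟨false⟩ => m.isOpenImmersion_J₁ R) ?_ _ _ ?_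
    · apply top_unique
      refine (m.chartOpen_sup R).ge.trans (sup_le ?_ ?_)
      · exact le_trans (Scheme.Hom.image_top_eq_opensRange (m.J₀ R)).le
          (le_iSup_of_le ⟨true⟩ le_rfl)
      · exact le_trans (Scheme.Hom.image_top_eq_opensRange (m.J₁ R)).le
          (le_iSup_of_le ⟨false⟩ le_rfl)
    · rintro ⟨_ | _⟩
      · exact ((ConcreteCategory.isIso_iff_bijective (Scheme.ΓSpecIso _).hom).mp inferInstance).1
          ((key _ m.j₁ m.j₁_over).trans hrb)
      · exact ((ConcreteCategory.isIso_iff_bijective (Scheme.ΓSpecIso _).hom).mp inferInstance).1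
          ((key _ m.j₀ m.j₀_over).trans hra)

end CurveModel

end Fermat.Agent.Jac
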