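import Fermat.Agent.Jac.Sheaf.Basic

/-!
# Invertible sheaves on affine schemes

`pullbackTildeIso`: pullback of `tilde M` is `tilde` of the base change, naturally in `M`.
`tildeΓIso`: an invertible sheaf on `Spec B` is `tilde` of its global sections.
-/

set_option autoImplicit false

noncomputable section

universe u

open CategoryTheory CategoryTheory.Limits AlgebraicGeometry Opposite
open scoped ModuleCat.Algebra

namespace Fermat.Agent.Jac

variable {R S : CommRingCat.{u}} (φ : R ⟶ S)

/-- Global sections commute with pushforward along a morphism of affine schemes. -/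
def pushforwardΓIso : Scheme.Modules.pushforward (Spec.map φ) ⋙ moduleSpecΓFunctor (R := R) ≅
    moduleSpecΓFunctor (R := S) ⋙ ModuleCat.restrictScalars φ.hom :=
  (Functor.associator _ _ _).symm ≪≫
    Functor.isoWhiskerRight (pushforwardCompModulesSpecToSheafIso φ) _

/-- The adjunction computing the pullback of `tilde`. -/
def pullbackTildeAdj : tilde.functor R ⋙ Scheme.Modules.pullback (Spec.map φ) ⊣
    moduleSpecΓFunctor (R := S) ⋙ ModuleCat.restrictScalars φ.hom :=
  ((tilde.adjunction (R := R)).comp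
    (Scheme.Modules.pullbackPushforwardAdjunction (Spec.map φ))).ofNatIsoRight (pushforwardΓIso φ)

/-- `pullback (Spec.map φ)` of `tilde` is `tilde` of the extension of scalars. -/
def pullbackTildeNatIso : tilde.functor R ⋙ Scheme.Modules.pullback (Spec.map φ) ≅
    ModuleCat.extendScalars φ.hom ⋙ tilde.functor S :=
  (pullbackTildeAdj φ).leftAdjointUniq
    ((ModuleCat.extendRestrictScalarsAdj φ.hom).comp (tilde.adjunction (R := S)))

/-- Component of `pullbackTildeNatIso`. -/
def pullbackTildeIso (M : ModuleCat.{u} R) :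
    (Scheme.Modules.pullback (Spec.map φ)).obj (tilde M) ≅
      tilde ((ModuleCat.extendScalars φ.hom).obj M) :=
  (pullbackTildeNatIso φ).app M

theorem pullbackTildeIso_naturality {M N : ModuleCat.{u} R} (f : M ⟶ N) :
    (Scheme.Modules.pullback (Spec.map φ)).map ((tilde.functor R).map f) ≫
      (pullbackTildeIso φ N).hom =
    (pullbackTildeIso φ M).hom ≫ (tilde.functor S).map ((ModuleCat.extendScalars φ.hom).map f) :=
  (pullbackTildeNatIso φ).hom.naturality f

/-- The module of global sections of a sheaf of modules on `Spec B`. -/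
def ΓMod {B : CommRingCat.{u}} (L : (Spec B).Modules) : ModuleCat.{u} B :=
  (moduleSpecΓFunctor (R := B)).obj L

/-- An invertible sheaf on `Spec B` is `tilde` of its global sections. -/
def tildeΓIso {B : CommRingCat.{u}} {L : (Spec B).Modules}
    (h : Scheme.Modules.IsInvertible L) : tilde (ΓMod L) ≅ L :=
  haveI := isQuasicoherent_of_isInvertible h
  @asIso _ _ _ _ (Scheme.Modules.fromTildeΓ (R := B) L)
    (Scheme.Modules.isIso_fromTildeΓ_of_isQuasicoherent L)

theorem tildeΓIso_naturality {B : CommRingCat.{u}} {L L' : (Spec B).Modules}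
    (h : Scheme.Modules.IsInvertible L) (h' : Scheme.Modules.IsInvertible L') (f : L ⟶ L') :
    (tilde.functor B).map ((moduleSpecΓFunctor (R := B)).map f) ≫ (tildeΓIso h').hom =
      (tildeΓIso h).hom ≫ f :=
  (Scheme.Modules.fromTildeΓNatTrans (R := B)).naturality f

/-- Global sections of `tilde M`. -/
def ΓTildeIso {B : CommRingCat.{u}} (M : ModuleCat.{u} B) : ΓMod (tilde M) ≅ M :=
  (tilde.isoTop M).symm

theorem nonempty_tilde_iso_iff {B : CommRingCat.{u}} (M N : ModuleCat.{u} B) :
    Nonempty (tilde M ≅ tilde N) ↔ Nonempty (M ≅ N) :=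
  ⟨fun ⟨e⟩ => ⟨tilde.fullyFaithfulFunctor.preimageIso e⟩,
    fun ⟨e⟩ => ⟨(tilde.functor B).mapIso e⟩⟩

theorem nonempty_tilde_iso_unit_iff {B : CommRingCat.{u}} (M : ModuleCat.{u} B) :
    Nonempty (tilde M ≅ SheafOfModules.unit (Spec B).ringCatSheaf) ↔
      Nonempty (M ≅ ModuleCat.of B B) :=
  ⟨fun ⟨e⟩ => (nonempty_tilde_iso_iff _ _).mp ⟨e ≪≫ tildeSelf.symm⟩,
    fun h => ((nonempty_tilde_iso_iff _ _).mpr h).map (fun e => e ≪≫ tildeSelf)⟩

/-- An invertible sheaf on `Spec B` is trivial on the members of a basic cover. -/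
theorem exists_span_eq_top_trivial {B : CommRingCat.{u}} {L : (Spec B).Modules}
    (h : Scheme.Modules.IsInvertible L) :
    ∃ s : Set B, Ideal.span s = ⊤ ∧ ∀ f ∈ s, Nonempty
      ((Scheme.Modules.pullback
          (Spec.map (CommRingCat.ofHom (algebraMap B (Localization.Away f))))).obj L ≅
        SheafOfModules.unit (Spec (CommRingCat.of (Localization.Away f))).ringCatSheaf) := by
  refine ⟨{f | Nonempty ((Scheme.Modules.pullback
      (Spec.map (CommRingCat.ofHom (algebraMap B (Localization.Away f))))).obj L ≅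
        SheafOfModules.unit (Spec (CommRingCat.of (Localization.Away f))).ringCatSheaf)},
    ?_, fun f hf => hf⟩
  rw [← PrimeSpectrum.zeroLocus_empty_iff_eq_top, PrimeSpectrum.zeroLocus_span,
    Set.eq_empty_iff_forall_notMem]
  intro p hp
  obtain ⟨U, hpU, hU⟩ := h.1 p
  obtain ⟨_, ⟨_, ⟨f, rfl⟩, rfl⟩, hpf, hfU⟩ :=
    PrimeSpectrum.isBasis_basic_opens.exists_subset_of_mem_open hpU U.2
  refine hpf (hp ?_)
  refine nonempty_pullback_iso_unit_of_range_le hU _ ?_
  exact (PrimeSpectrum.localization_away_comap_range (Localization.Away f) f).trans_subset hfU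

end Fermat.Agent.Jac
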