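import Fermat.Agent.Jac.Sheaf.Restrict
import Fermat.Agent.Jac.CurveModel
import Fermat.Agent.Jac.Alg.Hom
import Fermat.Prelude.Def_AlgebraicGeometry_RelativePicardFunctor

/-!
# The charts of `C × Spec R`

For an affine chart `j : Spec A ⟶ C` over `k`, `baseChart c j hj R` is the chart
`Spec (R ⊗ A) ⟶ C ×ₖ Spec R`.
-/

set_option autoImplicit false

noncomputable section

universe u

open CategoryTheory CategoryTheory.Limits AlgebraicGeometry TopologicalSpace TensorProduct
  NeronModelInfra AlgebraicGeometry.RelPicard

namespace Fermat.Agent.Jac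

variable {k : Type u} [Field k]

/-- The structure map of `Spec R`. -/
abbrev structMap (k R : Type u) [Field k] [CommRing R] [Algebra k R] :
    Spec (CommRingCat.of R) ⟶ Spec (CommRingCat.of k) :=
  Spec.map (CommRingCat.ofHom (algebraMap k R))

variable {C : Scheme.{u}} (c : C ⟶ Spec (CommRingCat.of k))
variable {A A' : Type u} [CommRing A] [Algebra k A] [CommRing A'] [Algebra k A']
variable (R R' : Type u) [CommRing R] [Algebra k R] [CommRing R'] [Algebra k R']
variable (j : Spec (CommRingCat.of A) ⟶ C)

/-- The inclusion of `A` in `R ⊗ A`, on spectra. -/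
abbrev specSnd (A : Type u) [CommRing A] [Algebra k A] :
    Spec (CommRingCat.of (R ⊗[k] A)) ⟶ Spec (CommRingCat.of A) :=
  Spec.map (CommRingCat.ofHom (Algebra.TensorProduct.includeRight (R := k) (A := R) (B := A)).toRingHom)

/-- The inclusion of `R` in `R ⊗ A`, on spectra. -/
abbrev specFst (A : Type u) [CommRing A] [Algebra k A] :
    Spec (CommRingCat.of (R ⊗[k] A)) ⟶ Spec (CommRingCat.of R) :=
  Spec.map (CommRingCat.ofHom (Algebra.TensorProduct.includeLeftRingHom (R := k) (A := R) (B := A)))

theorem specFst_structMap :
    specFst (k := k) R A ≫ structMap k R = specSnd (k := k) R A ≫ structMap k A := by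
  simp only [specFst, specSnd, structMap, ← Spec.map_comp]
  congr 1
  ext r
  exact ((Algebra.TensorProduct.includeRight (R := k) (A := R) (B := A)).commutes r).symm

variable (hj : j ≫ c = structMap k A)

/-- The base change of an affine chart to `C ×ₖ Spec R`. -/
def baseChart : Spec (CommRingCat.of (R ⊗[k] A)) ⟶ pullback c (structMap k R) :=
  pullback.lift (specSnd R A ≫ j) (specFst R A)
    (by rw [Category.assoc, hj, specFst_structMap])

@[reassoc (attr := simp)]
theorem baseChart_fst : baseChart c R j hj ≫ pullback.fst _ _ = specSnd R A ≫ j :=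
  pullback.lift_fst _ _ _

@[reassoc (attr := simp)]
theorem baseChart_snd : baseChart c R j hj ≫ pullback.snd _ _ = specFst R A :=
  pullback.lift_snd _ _ _

theorem isPullback_baseChart :
    IsPullback (specSnd R A) (baseChart c R j hj) j (pullback.fst c (structMap k R)) := by
  have h : IsPullback (baseChart c R j hj ≫ pullback.snd c (structMap k R)) (specSnd R A)
      (structMap k R) (j ≫ c) := by
    rw [hj, baseChart_snd]
    exact isPullback_SpecMap_of_isPushout _ _ _ _ (CommRingCat.isPushout_tensorProduct k R A)
  exact (IsPullback.of_right h (baseChart_fst c R j hj) (IsPullback.of_hasPullback c _).flip).flip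

instance isOpenImmersion_baseChart [IsOpenImmersion j] : IsOpenImmersion (baseChart c R j hj) :=
  MorphismProperty.of_isPullback (P := @IsOpenImmersion) (isPullback_baseChart c R j hj) ‹_›

theorem chartOpen_baseChart [IsOpenImmersion j] :
    chartOpen (baseChart c R j hj) = pullback.fst c (structMap k R) ⁻¹ᵁ chartOpen j :=
  IsOpenImmersion.image_preimage_eq_preimage_image_of_isPullback (isPullback_baseChart c R j hj) ⊤

theorem baseChart_map (j' : Spec (CommRingCat.of A') ⟶ C) (hj' : j' ≫ c = structMap k A')
    (g : A →ₐ[k] A') (hg : Spec.map (CommRingCat.ofHom g.toRingHom) ≫ j = j') :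
    Spec.map (CommRingCat.ofHom (Algebra.TensorProduct.map (AlgHom.id R R) g).toRingHom) ≫
      baseChart c R j hj = baseChart c R j' hj' := by
  apply pullback.hom_ext
  · rw [Category.assoc, baseChart_fst, baseChart_fst, ← hg, ← Category.assoc, ← Category.assoc]
    congr 1
    simp only [specSnd, ← Spec.map_comp]
    congr 1
  · rw [Category.assoc, baseChart_snd, baseChart_snd]
    simp only [specFst, ← Spec.map_comp]
    congr 1
    ext r
    simp

variable {R R'}

/-- `Spec` of an algebra map, over `Spec k`. -/
def specHomOver (φ : R →ₐ[k] R') : SchemeHomOver (structMap k R') (structMap k R) :=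
  ⟨Spec.map (CommRingCat.ofHom φ.toRingHom), by
    rw [← Spec.map_comp, ← CommRingCat.ofHom_comp]
    exact congrArg (fun f => Spec.map (CommRingCat.ofHom f)) φ.comp_algebraMap⟩

theorem baseChart_baseChangeSnd (φ : R →ₐ[k] R') :
    baseChart c R' j hj ≫ baseChangeSnd c (specHomOver φ) =
      Spec.map (CommRingCat.ofHom (Algebra.TensorProduct.map φ (AlgHom.id k A)).toRingHom) ≫
        baseChart c R j hj := by
  apply pullback.hom_ext
  · simp only [baseChangeSnd, Category.assoc, pullback.lift_fst, baseChart_fst, Category.comp_id]
    rw [← Category.assoc]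
    congr 1
    simp only [specSnd, ← Spec.map_comp]
    congr 1
    ext a
    simp
  · simp only [baseChangeSnd, Category.assoc, pullback.lift_snd, baseChart_snd,
      baseChart_snd_assoc]
    simp only [specFst, specHomOver, ← Spec.map_comp]
    congr 1

end Fermat.Agent.Jac
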