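import Mathlib
import Fermat.Prelude.Def_AlgebraicGeometry_RelativePicardFunctor

/-!
# Invertible sheaves of modules: restriction, isomorphism invariance, quasi-coherence
-/

set_option autoImplicit false

noncomputable section

universe u

open CategoryTheory CategoryTheory.Limits AlgebraicGeometry

namespace Fermat.Agent.Jac

variable {X Y : Scheme.{u}}

/-- Restriction along an open immersion is the pullback. -/
def restrictIsoPullback (f : X ⟶ Y) [IsOpenImmersion f] (L : Y.Modules) :
    L.restrict f ≅ (Scheme.Modules.pullback f).obj L :=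
  (Scheme.Modules.restrictFunctorIsoPullback f).app L

theorem isInvertible_congr {L L' : X.Modules} (e : L ≅ L')
    (h : Scheme.Modules.IsInvertible L) : Scheme.Modules.IsInvertible L' := by
  refine ⟨fun x => ?_⟩
  obtain ⟨U, hx, ⟨eU⟩⟩ := h.1 x
  exact ⟨U, hx, ⟨((Scheme.Modules.pullback U.ι).mapIso e).symm ≪≫ eU⟩⟩

theorem isInvertible_restrict (f : X ⟶ Y) [IsOpenImmersion f] {L : Y.Modules}
    (h : Scheme.Modules.IsInvertible L) : Scheme.Modules.IsInvertible (L.restrict f) :=
  isInvertible_congr (restrictIsoPullback f L).symm (h.pullback f)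

/-- A trivialisation on an open restricts to every morphism which factors through it. -/
theorem nonempty_pullback_iso_unit_of_range_le {L : Y.Modules} {U : Y.Opens}
    (h : Nonempty ((Scheme.Modules.pullback U.ι).obj L ≅
      SheafOfModules.unit U.toScheme.ringCatSheaf))
    (f : X ⟶ Y) (hf : Set.range f ⊆ (U : Set Y)) :
    Nonempty ((Scheme.Modules.pullback f).obj L ≅ SheafOfModules.unit X.ringCatSheaf) := by
  obtain ⟨e⟩ := h
  have hf' : Set.range f ⊆ Set.range U.ι := by simpa using hf
  exact ⟨(Scheme.Modules.pullbackCongr (IsOpenImmersion.lift_fac U.ι f hf')).symm.app L ≪≫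
    ((Scheme.Modules.pullbackComp (IsOpenImmersion.lift U.ι f hf') U.ι).app L).symm ≪≫
    (Scheme.Modules.pullback _).mapIso e ≪≫ Scheme.Modules.pullbackUnitIso _⟩

/-- Trivialisations along jointly surjective open immersions give invertibility. -/
theorem isInvertible_of_forall_exists {L : X.Modules}
    (h : ∀ x : X, ∃ (Z : Scheme.{u}) (ψ : Z ⟶ X), IsOpenImmersion ψ ∧ x ∈ Set.range ψ ∧
      Nonempty ((Scheme.Modules.pullback ψ).obj L ≅ SheafOfModules.unit Z.ringCatSheaf)) :
    Scheme.Modules.IsInvertible L := by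
  refine ⟨fun x => ?_⟩
  obtain ⟨Z, ψ, hψ, hx, ⟨e⟩⟩ := h x
  refine ⟨ψ.opensRange, hx, ⟨?_⟩⟩
  exact ((Scheme.Modules.pullbackCongr (ψ.isoOpensRange_inv_comp).symm).app L) ≪≫
    ((Scheme.Modules.pullbackComp ψ.isoOpensRange.inv ψ).app L).symm ≪≫
    (Scheme.Modules.pullback ψ.isoOpensRange.inv).mapIso e ≪≫ Scheme.Modules.pullbackUnitIso _

theorem isQuasicoherent_of_isInvertible {L : X.Modules} (h : Scheme.Modules.IsInvertible L) :
    L.IsQuasicoherent := by
  choose U hx e using h.1
  have hU : (Opens.grothendieckTopology X).CoversTop U := by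
    rw [Opens.coversTop_iff]
    exact eq_top_iff.mpr fun x _ => TopologicalSpace.Opens.mem_iSup.mpr ⟨x, hx x⟩
  refine (SheafOfModules.QuasicoherentData.isQuasicoherent (R := X.ringCatSheaf) (M := L)
    ({ I := X, X := U, coversTop := hU, presentation := fun x => ?_ } :
      SheafOfModules.QuasicoherentData (R := X.ringCatSheaf) L))
  have a : (Scheme.Modules.overEquiv (U x)).functor.obj (L.over (U x)) ≅
      SheafOfModules.unit (U x).toScheme.ringCatSheaf :=
    (Scheme.Modules.overFunctorEquiv (U x)).app L ≪≫ restrictIsoPullback _ L ≪≫ (e x).some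
  have b : (Scheme.Modules.overEquiv (U x)).functor.obj
      ((SheafOfModules.unit X.ringCatSheaf).over (U x)) ≅
      SheafOfModules.unit (U x).toScheme.ringCatSheaf :=
    (Scheme.Modules.overFunctorEquiv (U x)).app _ ≪≫ Scheme.Modules.restrictUnitIso _
  let c : L.over (U x) ≅ (SheafOfModules.unit X.ringCatSheaf).over (U x) :=
    (Scheme.Modules.overEquiv (U x)).fullyFaithfulFunctor.preimageIso (a ≪≫ b.symm)
  let d : SheafOfModules.free (R := X.ringCatSheaf.over (U x)) PUnit.{u + 1} ≅ L.over (U x) :=
    coproductUniqueIso (fun _ : PUnit.{u + 1} => SheafOfModules.unit (X.ringCatSheaf.over (U x))) ≪≫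
      c.symm
  exact SheafOfModules.Presentation.ofIsIso d.hom
    { generators := SheafOfModules.free.generatingSections PUnit
      relations :=
        { I := ULift Empty
          s := fun j => Empty.rec _ j.down
          epi := IsZero.epi (IsZero.of_iso (isZero_zero _) (kernel.ofMono _)) _ } }

end Fermat.Agent.Jac
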