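import Fermat.Agent.Jac.Sheaf.Invertible

/-!
# Affine charts and the pullback map on sections

For an open immersion `J : Spec A ⟶ X`, `Sec J L` is the `A`-module of sections of `L` on the
image of `J`.  `pullMap` is the semilinear map to the sections of the pullback.
-/

set_option autoImplicit false

noncomputable section

universe u

open CategoryTheory CategoryTheory.Limits AlgebraicGeometry Opposite TopologicalSpace

namespace Fermat.Agent.Jac

variable {X X' : Scheme.{u}} {A A' : CommRingCat.{u}}

/-- The image of a chart. -/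
abbrev chartOpen (J : Spec A ⟶ X) [IsOpenImmersion J] : X.Opens := J ''ᵁ (⊤ : (Spec A).Opens)

/-- The coordinate functions of a chart, as functions on its image. -/
def chartRing (J : Spec A ⟶ X) [IsOpenImmersion J] : A ⟶ Γ(X, chartOpen J) :=
  (Scheme.ΓSpecIso A).inv ≫ (J.appIso ⊤).inv

/-- Sections of `L` on a chart, as a module over the coordinate ring. -/
def Sec (J : Spec A ⟶ X) [IsOpenImmersion J] (L : X.Modules) : ModuleCat.{u} A :=
  ΓMod (L.restrict J)

/-- The identification of `Sec` with sections on the image. -/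
def secEquiv (J : Spec A ⟶ X) [IsOpenImmersion J] (L : X.Modules) :
    Γ(L, chartOpen J) ≃+ Sec J L :=
  AddEquiv.refl _

theorem secEquiv_smul (J : Spec A ⟶ X) [IsOpenImmersion J] (L : X.Modules) (a : A)
    (x : Γ(L, chartOpen J)) :
    secEquiv J L (chartRing J a • x) = a • secEquiv J L x := rfl

theorem secEquiv_symm_smul (J : Spec A ⟶ X) [IsOpenImmersion J] (L : X.Modules) (a : A)
    (x : Sec J L) :
    (secEquiv J L).symm (a • x) = chartRing J a • (secEquiv J L).symm x := rfl

section Pull

variable {φ : A ⟶ A'} (ψ : X' ⟶ X) (J : Spec A ⟶ X) (J' : Spec A' ⟶ X') [IsOpenImmersion J]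
  [IsOpenImmersion J'] (sq : J' ≫ ψ = Spec.map φ ≫ J)

include sq in
theorem chartOpen_le_preimage : chartOpen J' ≤ ψ ⁻¹ᵁ chartOpen J := by
  rintro _ ⟨y, -, rfl⟩
  refine ⟨Spec.map φ y, trivial, ?_⟩
  show (Spec.map φ ≫ J) y = (J' ≫ ψ) y
  rw [sq]

include sq in
theorem chartRing_comp_appLE :
    chartRing J ≫ ψ.appLE (chartOpen J) (chartOpen J') (chartOpen_le_preimage ψ J J' sq) =
      φ ≫ chartRing J' := by
  rw [← cancel_mono (J'.appIso ⊤).hom]
  simp only [chartRing, Category.assoc, Iso.inv_hom_id, Category.comp_id]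
  rw [Scheme.Hom.appIso_hom', Scheme.Hom.appLE_comp_appLE,
    Scheme.ΓSpecIso_inv_naturality φ, Iso.cancel_iso_inv_left, Iso.inv_comp_eq]
  simp only [sq]
  rw [← Scheme.Hom.appLE_comp_appLE (Spec.map φ) J _ ⊤ _ (by simp) (by simp),
    Scheme.Hom.appIso_hom']
  simp [Scheme.Hom.appTop, Scheme.Hom.app_eq_appLE]

/-- The pullback of sections, additively. -/
def pullHom (L : X.Modules) :
    Sec J L →+ Sec J' ((Scheme.Modules.pullback ψ).obj L) :=
  (secEquiv J' _).toAddMonoidHom.comp ((((Scheme.Modules.pullback ψ).obj L).presheaf.map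
    (homOfLE (chartOpen_le_preimage ψ J J' sq)).op).hom.comp
    ((((Scheme.Modules.pullbackPushforwardAdjunction ψ).unit.app L).app (chartOpen J)).hom.comp
      (secEquiv J L).symm.toAddMonoidHom))

/-- The pullback of sections, from a chart to a chart. -/
def pullMap (L : X.Modules) :
    Sec J L →ₛₗ[φ.hom] Sec J' ((Scheme.Modules.pullback ψ).obj L) where
  toFun x := pullHom ψ J J' sq L x
  map_add' := map_add _
  map_smul' a x := by
    have h := congr($(chartRing_comp_appLE ψ J J' sq).hom a)
    have h1 := Scheme.Modules.Hom.app_smul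
      ((Scheme.Modules.pullbackPushforwardAdjunction ψ).unit.app L)
      (chartRing J a) ((secEquiv J L).symm x)
    have h2 := Scheme.Modules.map_smul ((Scheme.Modules.pullback ψ).obj L)
      (homOfLE (chartOpen_le_preimage ψ J J' sq)) (ψ.app (chartOpen J) (chartRing J a))
      (((Scheme.Modules.pullbackPushforwardAdjunction ψ).unit.app L).app (chartOpen J)
        ((secEquiv J L).symm x))
    refine ((congrArg (fun z => secEquiv J' _ (((Scheme.Modules.pullback ψ).obj L).presheaf.map
      (homOfLE (chartOpen_le_preimage ψ J J' sq)).op z)) h1).trans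
      (congrArg (secEquiv J' _) h2)).trans ?_
    exact congrArg (fun r => secEquiv J' ((Scheme.Modules.pullback ψ).obj L) (r •
      (((Scheme.Modules.pullback ψ).obj L).presheaf.map
        (homOfLE (chartOpen_le_preimage ψ J J' sq)).op)
        (((Scheme.Modules.pullbackPushforwardAdjunction ψ).unit.app L).app (chartOpen J)
          ((secEquiv J L).symm x)))) h

theorem pullMap_apply (L : X.Modules) (x : Sec J L) :
    pullMap ψ J J' sq L x = secEquiv J' _ (((Scheme.Modules.pullback ψ).obj L).presheaf.map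
      (homOfLE (chartOpen_le_preimage ψ J J' sq)).op
      (((Scheme.Modules.pullbackPushforwardAdjunction ψ).unit.app L).app (chartOpen J)
        ((secEquiv J L).symm x))) := rfl

end Pull

/-- A morphism out of an invertible sheaf on an affine scheme is determined by global sections. -/
theorem hom_ext_of_app_top {L T : (Spec A).Modules} (h : Scheme.Modules.IsInvertible L)
    {f g : L ⟶ T} (hfg : ∀ x, f.app ⊤ x = g.app ⊤ x) : f = g := by
  have hΓ : (moduleSpecΓFunctor (R := A)).map f = (moduleSpecΓFunctor (R := A)).map g :=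
    ModuleCat.hom_ext (LinearMap.ext fun x => hfg x)
  exact (cancel_epi (tildeΓIso h).hom).mp
    (((Scheme.Modules.fromTildeΓNatTrans (R := A)).naturality f).symm.trans
      ((congrArg (fun m => (tilde.functor A).map m ≫
        (Scheme.Modules.fromTildeΓNatTrans (R := A)).app T) hΓ).trans
        ((Scheme.Modules.fromTildeΓNatTrans (R := A)).naturality g)))

theorem tildeΓIso_hom_app_top {L : (Spec A).Modules} (h : Scheme.Modules.IsInvertible L)
    (z : ΓMod L) : (tildeΓIso h).hom.app ⊤ ((tilde.isoTop (ΓMod L)).hom.hom z) = z :=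
  congr($((tilde.adjunction (R := A)).right_triangle_components L).hom z)

theorem tilde_map_app_top {M N : ModuleCat.{u} A} (q : M ⟶ N) (z : M) :
    ((tilde.functor A).map q).app ⊤ ((tilde.isoTop M).hom.hom z) =
      (tilde.isoTop N).hom.hom (q.hom z) :=
  congr($(tilde.toOpen_map_app q ⊤).hom z)

/-- A morphism from an invertible sheaf with prescribed global sections. -/
def homOfΓ {L : (Spec A).Modules} (h : Scheme.Modules.IsInvertible L) {T : ModuleCat.{u} A}
    (q : ΓMod L ⟶ T) : L ⟶ tilde T :=
  (tildeΓIso h).inv ≫ (tilde.functor A).map q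

theorem homOfΓ_app_top {L : (Spec A).Modules} (h : Scheme.Modules.IsInvertible L)
    {T : ModuleCat.{u} A} (q : ΓMod L ⟶ T) (z : ΓMod L) :
    (homOfΓ h q).app ⊤ z = (tilde.isoTop T).hom.hom (q.hom z) := by
  have h1 : (tildeΓIso h).inv.app ⊤ ((tildeΓIso h).hom.app ⊤ ((tilde.isoTop (ΓMod L)).hom.hom z)) =
      (tilde.isoTop (ΓMod L)).hom.hom z :=
    congr(($((tildeΓIso h).hom_inv_id).app ⊤) ((tilde.isoTop (ΓMod L)).hom.hom z))
  refine Eq.trans ?_ (tilde_map_app_top q z)
  exact congrArg (((tilde.functor A).map q).app ⊤)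
    ((congrArg ((tildeΓIso h).inv.app ⊤) (tildeΓIso_hom_app_top h z).symm).trans h1)

theorem eq_zero_of_homOfΓ_eq_zero {L : (Spec A).Modules} (h : Scheme.Modules.IsInvertible L)
    {T : ModuleCat.{u} A} (q : ΓMod L ⟶ T) (hq : homOfΓ h q = 0) (z : ΓMod L) : q.hom z = 0 := by
  have h0 : (tilde.isoTop T).hom.hom (q.hom z) = 0 :=
    (homOfΓ_app_top h q z).symm.trans (congr(($hq).app ⊤ z))
  exact (tilde.isoTop T).toLinearEquiv.injective (h0.trans (map_zero _).symm)

theorem submodule_eq_top_of_forall {M : ModuleCat.{u} A} (S : Submodule A M)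
    (h : ∀ (T : ModuleCat.{u} A) (q : M ⟶ T), (∀ s ∈ S, q.hom s = 0) → ∀ z, q.hom z = 0) :
    S = ⊤ :=
  eq_top_iff.mpr fun z _ => (Submodule.Quotient.mk_eq_zero S).mp
    (h (ModuleCat.of A (M ⧸ S)) (ModuleCat.ofHom S.mkQ)
      (fun _ hs => (Submodule.Quotient.mk_eq_zero S).mpr hs) z)

theorem restrict_homEquiv_symm_app_top (J : Spec A ⟶ X) [IsOpenImmersion J] {L : X.Modules}
    {T : (Spec A).Modules} (f : L ⟶ (Scheme.Modules.pushforward J).obj T)
    (x : Γ(L, chartOpen J)) (hx : f.app (chartOpen J) x = 0) :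
    (((Scheme.Modules.restrictAdjunction J).homEquiv _ _).symm f).app ⊤ x = 0 := by
  rw [Adjunction.homEquiv_counit]
  show ((Scheme.Modules.restrictAdjunction J).counit.app T).app ⊤ (f.app (chartOpen J) x) = 0
  rw [hx]
  exact map_zero _

set_option maxHeartbeats 1000000 in
/-- The pullback of sections spans. -/
theorem span_range_pullMap {φ : A ⟶ A'} (ψ : X' ⟶ X) (J : Spec A ⟶ X) (J' : Spec A' ⟶ X')
    [IsOpenImmersion J] [IsOpenImmersion J'] (sq : J' ≫ ψ = Spec.map φ ≫ J) (L : X.Modules)
    (hL : Scheme.Modules.IsInvertible L) :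
    Submodule.span A' (Set.range (pullMap ψ J J' sq L)) = ⊤ := by
  refine submodule_eq_top_of_forall _ fun T₀ q hq => ?_
  have hL' : Scheme.Modules.IsInvertible (((Scheme.Modules.pullback ψ).obj L).restrict J') :=
    isInvertible_restrict J' (hL.pullback ψ)
  suffices hρ : homOfΓ hL' q = 0 from eq_zero_of_homOfΓ_eq_zero hL' q hρ
  let T : (Spec A').Modules := tilde T₀
  let ρ : ((Scheme.Modules.pullback ψ).obj L).restrict J' ⟶ T := homOfΓ hL' q
  let g := (Scheme.Modules.restrictAdjunction J').homEquiv _ _ ρ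
  let h := (Scheme.Modules.pullbackPushforwardAdjunction ψ).homEquiv _ _ g
  let e := Scheme.Modules.pushforwardComp J' ψ ≪≫ Scheme.Modules.pushforwardCongr sq ≪≫
      (Scheme.Modules.pushforwardComp (Spec.map φ) J).symm
  have hWtop : J' ⁻¹ᵁ ψ ⁻¹ᵁ chartOpen J = ⊤ :=
    eq_top_iff.mpr fun z _ => chartOpen_le_preimage ψ J J' sq ⟨z, trivial, rfl⟩
  have hh : ∀ x, h.app (chartOpen J) x = 0 := fun x => by
    let W : X'.Opens := ψ ⁻¹ᵁ chartOpen J
    let L' := (Scheme.Modules.pullback ψ).obj L
    let y : Γ(L', W) :=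
      ((Scheme.Modules.pullbackPushforwardAdjunction ψ).unit.app L).app (chartOpen J) x
    show g.app W y = 0
    let y' : Γ(L', J' ''ᵁ (J' ⁻¹ᵁ W)) := L'.presheaf.map (homOfLE (J'.image_preimage_le W)).op y
    show ρ.app (J' ⁻¹ᵁ W) y' = 0
    refine (ConcreteCategory.injective_of_mono_of_preservesPullback
      (T.presheaf.map (eqToHom hWtop.symm).op)) ?_
    refine Eq.trans ?_ (map_zero _).symm
    refine (congr($(ρ.mapPresheaf.naturality (eqToHom hWtop.symm).op).hom y')).symm.trans ?_
    refine (homOfΓ_app_top hL' q _).trans ?_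
    refine (congrArg _ (hq _ ?_)).trans (map_zero _)
    refine Submodule.subset_span ⟨secEquiv J L x, ?_⟩
    show (L'.presheaf.map (homOfLE _).op) y = (L'.presheaf.map _) ((L'.presheaf.map _) y)
    rw [← ConcreteCategory.comp_apply, ← Functor.map_comp]
    rfl
  let h' : L ⟶ (Scheme.Modules.pushforward J).obj ((Scheme.Modules.pushforward (Spec.map φ)).obj T) :=
    h ≫ e.hom.app T
  have hk : ((Scheme.Modules.restrictAdjunction J).homEquiv _ _).symm h' = 0 :=
    hom_ext_of_app_top (isInvertible_restrict J hL) fun x =>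
      (restrict_homEquiv_symm_app_top J h' x
        ((congrArg ((e.hom.app T).app (chartOpen J)) (hh x)).trans (map_zero _))).trans rfl
  have h1 : h' = 0 := by
    refine ((Scheme.Modules.restrictAdjunction J).homEquiv _ _).symm.injective (hk.trans ?_)
    rw [Adjunction.homEquiv_counit, Functor.map_zero, zero_comp]
  have h2 : h = 0 := (cancel_mono (e.hom.app T)).mp (h1.trans zero_comp.symm)
  have h3 : g = 0 := by
    refine ((Scheme.Modules.pullbackPushforwardAdjunction ψ).homEquiv _ _).injective (h2.trans ?_)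
    rw [Adjunction.homEquiv_unit, Functor.map_zero, comp_zero]
  refine ((Scheme.Modules.restrictAdjunction J').homEquiv _ _).injective (h3.trans ?_)
  rw [Adjunction.homEquiv_unit, Functor.map_zero, comp_zero]

end Fermat.Agent.Jac
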