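import Fermat.Agent.Jac.Sheaf.RigPush
import Fermat.Prelude.Def_AlgebraicGeometry_RelativePicardFunctor

/-!
# Rigidified line bundles are a Zariski sheaf on the base

`nonempty_iso_of_forall_affine`: two rigidified bundles which are isomorphic over every affine open
of the base are isomorphic.  `exists_glue_rigidified`: classes on an open cover which agree on the
affine opens of the overlaps glue.  Both use `Γ(C × W, O) = Γ(W, O)` for affine `W` as a hypothesis.
-/

set_option autoImplicit false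

noncomputable section

universe u

open CategoryTheory CategoryTheory.Limits AlgebraicGeometry Opposite TopologicalSpace
  NeronModelInfra AlgebraicGeometry.RelPicard

namespace Fermat.Agent.Jac

variable {R : Type u} [CommRing R] {C T : Scheme.{u}} (c : C ⟶ Spec (CommRingCat.of R))
  (t : T ⟶ Spec (CommRingCat.of R)) (ε : SchemeHomOver (𝟙 (Spec (CommRingCat.of R))) c)

/-- An open of the base, over the base. -/
def inclOpen (U : T.Opens) : SchemeHomOver (U.ι ≫ t) t := ⟨U.ι, rfl⟩

/-- A smaller open in a bigger one, over the base. -/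
def inclLE {U W : T.Opens} (h : W ≤ U) : SchemeHomOver (W.ι ≫ t) (U.ι ≫ t) :=
  ⟨T.homOfLE h, by rw [Scheme.homOfLE_ι_assoc]⟩

theorem isPullback_inclOpen (U : T.Opens) :
    IsPullback (baseChangeSnd c (inclOpen t U)) (pullback.snd c (U.ι ≫ t)) (pullback.snd c t) U.ι := by
  have h₂ : baseChangeSnd c (inclOpen t U) ≫ pullback.snd c t = pullback.snd c (U.ι ≫ t) ≫ U.ι :=
    pullback.lift_snd _ _ _
  refine IsPullback.of_right ?_ h₂ (IsPullback.of_hasPullback c t)
  have h₁ : baseChangeSnd c (inclOpen t U) ≫ pullback.fst c t = pullback.fst c (U.ι ≫ t) :=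
    (pullback.lift_fst _ _ _).trans (Category.comp_id _)
  rw [h₁]
  exact IsPullback.of_hasPullback c (U.ι ≫ t)

instance isOpenImmersion_inclOpen (U : T.Opens) :
    IsOpenImmersion (baseChangeSnd c (inclOpen t U)) :=
  MorphismProperty.of_isPullback (P := @IsOpenImmersion) (isPullback_inclOpen c t U).flip inferInstance

theorem opensRange_inclOpen (U : T.Opens) :
    (baseChangeSnd c (inclOpen t U)).opensRange = pullback.snd c t ⁻¹ᵁ U := by
  have h := IsOpenImmersion.image_preimage_eq_preimage_image_of_isPullback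
    (isPullback_inclOpen c t U).flip ⊤
  simpa [Scheme.Hom.image_top_eq_opensRange] using h

theorem baseChangeSnd_inclLE {U W : T.Opens} (h : W ≤ U) :
    baseChangeSnd c (inclLE t h) ≫ baseChangeSnd c (inclOpen t U) =
      baseChangeSnd c (inclOpen t W) := by
  rw [baseChangeSnd_comp]
  exact congrArg (baseChangeSnd c) (Subtype.ext (T.homOfLE_ι h))

instance isOpenImmersion_inclLE {U W : T.Opens} (h : W ≤ U) :
    IsOpenImmersion (baseChangeSnd c (inclLE t h)) := by
  have : IsOpenImmersion (baseChangeSnd c (inclLE t h) ≫ baseChangeSnd c (inclOpen t U)) := by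
    rw [baseChangeSnd_inclLE]
    infer_instance
  exact IsOpenImmersion.of_comp _ (baseChangeSnd c (inclOpen t U))

theorem rigSection_snd : rigSection c t ε ≫ pullback.snd c t = 𝟙 T := pullback.lift_snd _ _ _

variable {c t ε}

/-- The rigidification of a rigidified bundle, on sections. -/
def bundleRig (M : RigidifiedLineBundle c ε t) (U : T.Opens) :
    RigOn (rigSection c t ε) (pullback.snd c t) M.L U :=
  rigOnOfIso (rigSection c t ε) (pullback.snd c t) M.isInvertible M.rigidified.some U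

/-- Isomorphic pullbacks give isomorphisms of restrictions. -/
theorem nonempty_restrict_iso (M M' : RigidifiedLineBundle c ε t) (U : T.Opens)
    (h : Nonempty ((M.pullbackAlong (inclOpen t U)).L ≅ (M'.pullbackAlong (inclOpen t U)).L)) :
    Nonempty (M.L.restrict (baseChangeSnd c (inclOpen t U)) ≅
      M'.L.restrict (baseChangeSnd c (inclOpen t U))) :=
  h.map fun e => restrictIsoPullback _ M.L ≪≫ e ≪≫ (restrictIsoPullback _ M'.L).symm

/-- Normalised isomorphisms over `W`. -/
def NormIso {N N' : (pullback c t).Modules} {W : T.Opens}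
    (r : RigOn (rigSection c t ε) (pullback.snd c t) N W)
    (r' : RigOn (rigSection c t ε) (pullback.snd c t) N' W)
    (f : SecHom N N' (pullback.snd c t ⁻¹ᵁ W)) : Prop :=
  r.Compat r' f ∧ ∃ g : SecHom N' N (pullback.snd c t ⁻¹ᵁ W),
    (∀ V hV x, g.app V hV (f.app V hV x) = x) ∧ ∀ V hV x, f.app V hV (g.app V hV x) = x

theorem exists_normIso {N N' : (pullback c t).Modules} {W : T.Opens}
    (r : RigOn (rigSection c t ε) (pullback.snd c t) N W)
    (r' : RigOn (rigSection c t ε) (pullback.snd c t) N' W)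
    (e : N.restrict (baseChangeSnd c (inclOpen t W)) ≅ N'.restrict (baseChangeSnd c (inclOpen t W))) :
    ∃ f, NormIso r r' f := by
  obtain ⟨f, g, hgf, hfg, hc⟩ := r.exists_compat (rigSection_snd c t ε) r'
    (SecHom.ofAppOn _ e.hom (opensRange_inclOpen c t W).ge)
    (SecHom.ofAppOn _ e.inv (opensRange_inclOpen c t W).ge)
    (SecHom.appOn_hom_inv _ e _) (SecHom.appOn_inv_hom _ e _)
  exact ⟨f, hc, g, hgf, hfg⟩

variable (c t) in
/-- Global functions on `C × W` come from `W`, for affine `W`. -/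
def ConstFunctions : Prop :=
  ∀ W : T.Opens, IsAffineOpen W → Function.Bijective ((pullback.snd c t).app W)

theorem NormIso.unique (hΓ : ConstFunctions c t) {N N' : (pullback c t).Modules} {W : T.Opens}
    (hW : IsAffineOpen W)
    {r : RigOn (rigSection c t ε) (pullback.snd c t) N W}
    {r' : RigOn (rigSection c t ε) (pullback.snd c t) N' W}
    {f f' : SecHom N N' (pullback.snd c t ⁻¹ᵁ W)} (hf : NormIso r r' f) (hf' : r.Compat r' f') :
    f' = f := by
  obtain ⟨hc, g, -, hfg⟩ := hf
  exact (r.compat_unique (rigSection_snd c t ε) (hΓ W hW) r' f f' g hfg hc hf').symm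

theorem exists_affine_le {U : T.Opens} {x : T} (hx : x ∈ U) :
    ∃ W : T.Opens, IsAffineOpen W ∧ x ∈ W ∧ W ≤ U := by
  obtain ⟨_, ⟨W, hW, rfl⟩, hxW, hWU⟩ := T.isBasis_affineOpens.exists_subset_of_mem_open hx U.2
  exact ⟨W, hW, hxW, hWU⟩

/-- Rigidified bundles isomorphic over the affine opens inside a cover are isomorphic. -/
theorem nonempty_iso_of_forall_affine_le (hΓ : ConstFunctions c t)
    (M M' : RigidifiedLineBundle c ε t) {ι : Type*} (U : ι → T.Opens) (hU : ∀ x : T, ∃ i, x ∈ U i)
    (h : ∀ (i : ι) (W : T.Opens), IsAffineOpen W → W ≤ U i →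
      Nonempty ((M.pullbackAlong (inclOpen t W)).L ≅ (M'.pullbackAlong (inclOpen t W)).L)) :
    Nonempty (M.L ≅ M'.L) := by
  have hex : ∀ W : {W : T.affineOpens // ∃ i, W.1 ≤ U i},
      ∃ f, NormIso (bundleRig M W.1.1) (bundleRig M' W.1.1) f := fun W => by
    obtain ⟨i, hi⟩ := W.2
    obtain ⟨e⟩ := nonempty_restrict_iso M M' W.1.1 (h i W.1.1 W.1.2 hi)
    exact exists_normIso _ _ e
  choose f hc g hgf hfg using hex
  have hres : ∀ (W W' : {W : T.affineOpens // ∃ i, W.1 ≤ U i}) (hle : W.1.1 ≤ W'.1.1),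
      (f W').res ((pullback.snd c t).preimage_mono hle) = f W := fun W W' hle =>
    NormIso.unique hΓ W.1.2 ⟨hc W, g W, hgf W, hfg W⟩ fun V _ x => hc W' V _ x
  have hagree : ∀ (W W' : {W : T.affineOpens // ∃ i, W.1 ≤ U i}) (V : (pullback c t).Opens)
      (hV : V ≤ pullback.snd c t ⁻¹ᵁ W.1.1) (hV' : V ≤ pullback.snd c t ⁻¹ᵁ W'.1.1)
      (x : Γ(M.L, V)),
      (f W).app V hV x = (f W').app V hV' x := by
    intro W W' V hV hV' x
    have h0 : (f W).res hV = (f W').res hV' := SecHom.eq_of_locally fun q hq => by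
      obtain ⟨W'', hW'', hqW, hle⟩ := exists_affine_le (U := W.1.1 ⊓ W'.1.1)
        (show (pullback.snd c t) q ∈ W.1.1 ⊓ W'.1.1 from ⟨hV hq, hV' hq⟩)
      let A : {W : T.affineOpens // ∃ i, W.1 ≤ U i} := ⟨⟨W'', hW''⟩,
        W.2.imp fun _ hi => (hle.trans inf_le_left).trans hi⟩
      refine ⟨pullback.snd c t ⁻¹ᵁ W'', hqW, fun V₁ _ hV₁ x₁ => ?_⟩
      have h1 := congrArg (fun F : SecHom M.L M'.L _ => F.app V₁ hV₁ x₁)
        ((hres A W (hle.trans inf_le_left)).trans (hres A W' (hle.trans inf_le_right)).symm)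
      exact h1
    exact congrArg (fun F : SecHom M.L M'.L V => F.app V le_rfl x) h0
  have hr : ∀ W : {W : T.affineOpens // ∃ i, W.1 ≤ U i},
      (pullback.snd c t ⁻¹ᵁ W.1.1).ι.opensRange ≤ pullback.snd c t ⁻¹ᵁ W.1.1 := fun W =>
    (Scheme.Opens.opensRange_ι _).le
  obtain ⟨F, -⟩ := exists_glue_iso (L := M.L) (L' := M'.L)
    (fun W : {W : T.affineOpens // ∃ i, W.1 ≤ U i} => (pullback.snd c t ⁻¹ᵁ W.1.1).ι)
    (fun q => by
      obtain ⟨i, hi⟩ := hU (pullback.snd c t q)
      obtain ⟨W, hW, hqW, hle⟩ := exists_affine_le hi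
      exact ⟨⟨⟨W, hW⟩, i, hle⟩, ⟨⟨q, hqW⟩, rfl⟩⟩)
    (fun W => SecHom.toRestrictIso _ (f W) (g W) (hgf W) (hfg W) (hr W))
    fun W W' V hV hV' x => by
      refine (SecHom.appOn_toRestrict _ (f W) (hr W) hV x).trans ?_
      refine Eq.trans ?_ (SecHom.appOn_toRestrict _ (f W') (hr W') hV' x).symm
      exact hagree W W' V _ _ x
  exact ⟨F⟩

/-- Rigidified bundles isomorphic over every affine open are isomorphic. -/
theorem nonempty_iso_of_forall_affine (hΓ : ConstFunctions c t) (M M' : RigidifiedLineBundle c ε t)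
    (h : ∀ W : T.Opens, IsAffineOpen W →
      Nonempty ((M.pullbackAlong (inclOpen t W)).L ≅ (M'.pullbackAlong (inclOpen t W)).L)) :
    Nonempty (M.L ≅ M'.L) :=
  nonempty_iso_of_forall_affine_le hΓ M M' (fun _ : Unit => (⊤ : T.Opens))
    (fun _ => ⟨(), trivial⟩) fun _ W hW _ => h W hW

section Glue

variable {ι : Type u} (U : ι → T.Opens) (M : ∀ i, RigidifiedLineBundle c ε ((U i).ι ≫ t))

/-- The `i`-th bundle, on the whole scheme. -/
def descPiece (i : ι) : (pullback c t).Modules :=
  (Scheme.Modules.pushforward (baseChangeSnd c (inclOpen t (U i)))).obj (M i).L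

/-- Its rigidification. -/
def descRig (i : ι) :
    RigOn (rigSection c t ε) (pullback.snd c t) (descPiece U M i) (U i).ι.opensRange :=
  RigOn.push (baseChangeSnd c (inclOpen t (U i))) (U i).ι
    (rigSection_baseChangeSnd c ε (inclOpen t (U i))) (rigSection_snd c t ε)
    (by rw [Scheme.Opens.opensRange_ι, opensRange_inclOpen])
    (bundleRig (M i) ⊤) (M i).isInvertible

/-- The `i`-th bundle on its own chart. -/
def descPieceIso (i : ι) :
    (descPiece U M i).restrict (baseChangeSnd c (inclOpen t (U i))) ≅ (M i).L :=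
  (asIso (Scheme.Modules.restrictAdjunction (baseChangeSnd c (inclOpen t (U i)))).counit).app (M i).L

theorem nonempty_descPiece_restrict (i : ι) {W : T.Opens} (hi : W ≤ U i) :
    Nonempty ((descPiece U M i).restrict (baseChangeSnd c (inclOpen t W)) ≅
      ((M i).pullbackAlong (inclLE t hi)).L) := by
  exact ⟨restrictIsoPullback _ _ ≪≫
    (Scheme.Modules.pullbackCongr (baseChangeSnd_inclLE c t hi)).symm.app _ ≪≫
    ((Scheme.Modules.pullbackComp _ _).app _).symm ≪≫
    (Scheme.Modules.pullback _).mapIso ((restrictIsoPullback _ _).symm ≪≫ descPieceIso U M i)⟩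

/-- Classes on an open cover agreeing on the affine opens of the overlaps glue. -/
theorem exists_glue_rigidified (hΓ : ConstFunctions c t) (hU : ∀ x : T, ∃ i, x ∈ U i)
    (h : ∀ (i j : ι) (W : T.Opens) (hi : W ≤ U i) (hj : W ≤ U j), IsAffineOpen W →
      Nonempty (((M i).pullbackAlong (inclLE t hi)).L ≅ ((M j).pullbackAlong (inclLE t hj)).L)) :
    ∃ G : RigidifiedLineBundle c ε t, ∀ i,
      Nonempty ((G.pullbackAlong (inclOpen t (U i))).L ≅ (M i).L) := by
  let p := pullback.snd c t
  let σ := rigSection c t ε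
  let N := descPiece U M
  let P : ι → (pullback c t).Opens := fun i => p ⁻¹ᵁ U i
  have hUι : ∀ i, (U i).ι.opensRange = U i := fun i => Scheme.Opens.opensRange_ι _
  let ρ : ∀ i, RigOn σ p (N i) (U i) := fun i => (descRig U M i).res (hUι i).ge
  -- the normalised transition maps on affine opens
  have hex : ∀ (i j : ι) (W : T.affineOpens) (hi : W.1 ≤ U i) (hj : W.1 ≤ U j),
      ∃ f, NormIso ((ρ i).res hi) ((ρ j).res hj) f := fun i j W hi hj => by
    obtain ⟨e⟩ := h i j W.1 hi hj W.2
    obtain ⟨ei⟩ := nonempty_descPiece_restrict U M i hi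
    obtain ⟨ej⟩ := nonempty_descPiece_restrict U M j hj
    exact exists_normIso _ _ (ei ≪≫ e ≪≫ ej.symm)
  choose f hc g hgf hfg using hex
  have huniq : ∀ (i j : ι) (W : T.affineOpens) (hi : W.1 ≤ U i) (hj : W.1 ≤ U j)
      (f' : SecHom (N i) (N j) (p ⁻¹ᵁ W.1)), ((ρ i).res hi).Compat ((ρ j).res hj) f' →
      f' = f i j W hi hj := fun i j W hi hj f' hf' =>
    NormIso.unique hΓ W.2 ⟨hc i j W hi hj, g i j W hi hj, hgf i j W hi hj, hfg i j W hi hj⟩ hf'
  -- glue them on the overlaps
  have hF : ∀ i j, ∃ F : SecHom (N i) (N j) (P i ⊓ P j),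
      ∀ (W : T.affineOpens) (hi : W.1 ≤ U i) (hj : W.1 ≤ U j) (V : (pullback c t).Opens)
        (hV : V ≤ p ⁻¹ᵁ W.1) (x : Γ(N i, V)),
        F.app V (le_inf (hV.trans (p.preimage_mono hi)) (hV.trans (p.preimage_mono hj))) x =
          (f i j W hi hj).app V hV x := by
    intro i j
    obtain ⟨F, hF⟩ := SecHom.exists_glue (M := N i) (M' := N j) (P := P i ⊓ P j)
      (ι := {W : T.affineOpens // W.1 ≤ U i ∧ W.1 ≤ U j}) (fun W => p ⁻¹ᵁ W.1.1)
      (fun W => le_inf (p.preimage_mono W.2.1) (p.preimage_mono W.2.2))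
      (fun q hq => by
        obtain ⟨W, hW, hqW, hle⟩ := exists_affine_le (U := U i ⊓ U j) (x := p q) hq
        exact ⟨⟨⟨W, hW⟩, hle.trans inf_le_left, hle.trans inf_le_right⟩, hqW⟩)
      (fun W => f i j W.1 W.2.1 W.2.2) fun W W' V hV hV' x => by
        have h0 : (f i j W.1 W.2.1 W.2.2).res hV = (f i j W'.1 W'.2.1 W'.2.2).res hV' :=
          SecHom.eq_of_locally fun q hq => by
            obtain ⟨W'', hW'', hqW, hle⟩ := exists_affine_le (U := W.1.1 ⊓ W'.1.1) (x := p q)
              ⟨hV hq, hV' hq⟩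
            let A : T.affineOpens := ⟨W'', hW''⟩
            refine ⟨p ⁻¹ᵁ W'', hqW, fun V₁ _ hV₁ x₁ => ?_⟩
            have hA : ∀ (B : {W : T.affineOpens // W.1 ≤ U i ∧ W.1 ≤ U j}) (hAB : W'' ≤ B.1.1),
                (f i j B.1 B.2.1 B.2.2).res (p.preimage_mono hAB) =
                  f i j A (hAB.trans B.2.1) (hAB.trans B.2.2) := fun B hAB =>
              huniq i j A _ _ _ fun V₂ _ x₂ => hc i j B.1 B.2.1 B.2.2 V₂ _ x₂
            exact congrArg (fun F : SecHom (N i) (N j) (p ⁻¹ᵁ W'') => F.app V₁ hV₁ x₁)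
              ((hA W (hle.trans inf_le_left)).trans (hA W' (hle.trans inf_le_right)).symm)
        exact congrArg (fun F : SecHom (N i) (N j) V => F.app V le_rfl x) h0
    exact ⟨F, fun W hi hj V hV x => hF ⟨W, hi, hj⟩ V hV x⟩
  choose F hF using hF
  have hFc : ∀ (i j : ι) (V : (pullback c t).Opens) (hV : V ≤ P i ⊓ P j) (x : Γ(N i, V)),
      (ρ j).hom.app V (hV.trans inf_le_right) ((F i j).app V hV x) =
        (ρ i).hom.app V (hV.trans inf_le_left) x := by
    intro i j V hV x
    have h0 : ((F i j).res hV).comp ((ρ j).hom.res (hV.trans inf_le_right)) =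
        (ρ i).hom.res (hV.trans inf_le_left) := SecHom.eq_of_locally fun q hq => by
      obtain ⟨W, hW, hqW, hle⟩ := exists_affine_le (U := U i ⊓ U j) (x := p q) (hV hq)
      refine ⟨p ⁻¹ᵁ W, hqW, fun V₁ _ hV₁ x₁ => ?_⟩
      refine Eq.trans ?_ (hc i j ⟨W, hW⟩ (hle.trans inf_le_left) (hle.trans inf_le_right) V₁ hV₁ x₁)
      exact congrArg ((ρ j).hom.app V₁ (hV₁.trans (p.preimage_mono (hle.trans inf_le_right))))
        (hF i j ⟨W, hW⟩ (hle.trans inf_le_left) (hle.trans inf_le_right) V₁ hV₁ x₁)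
    exact congrArg (fun G : SecHom (N i) (pushUnit σ) V => G.app V le_rfl x) h0
  have hid : ∀ (i : ι) (V : (pullback c t).Opens) (hV : V ≤ P i ⊓ P i) (x : Γ(N i, V)),
      (F i i).app V hV x = x := by
    intro i V hV x
    have h0 : (F i i).res hV = SecHom.idHom (N i) V := SecHom.eq_of_locally fun q hq => by
      obtain ⟨W, hW, hqW, hle⟩ := exists_affine_le (U := U i) (x := p q) (hV hq).1
      refine ⟨p ⁻¹ᵁ W, hqW, fun V₁ _ hV₁ x₁ => ?_⟩
      refine (hF i i ⟨W, hW⟩ hle hle V₁ hV₁ x₁).trans ?_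
      exact (congrArg (fun G : SecHom (N i) (N i) (p ⁻¹ᵁ W) => G.app V₁ hV₁ x₁)
        (huniq i i ⟨W, hW⟩ hle hle (SecHom.idHom (N i) _) fun _ _ _ => rfl)).symm
    exact congrArg (fun G : SecHom (N i) (N i) V => G.app V le_rfl x) h0
  have hcomp : ∀ (i j l : ι) (V : (pullback c t).Opens) (hij : V ≤ P i ⊓ P j) (hjl : V ≤ P j ⊓ P l)
      (hil : V ≤ P i ⊓ P l) (x : Γ(N i, V)),
      (F j l).app V hjl ((F i j).app V hij x) = (F i l).app V hil x := by
    intro i j l V hij hjl hil x
    have h0 : ((F i j).res hij).comp ((F j l).res hjl) = (F i l).res hil :=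
      SecHom.eq_of_locally fun q hq => by
        obtain ⟨W, hW, hqW, hle⟩ := exists_affine_le (U := U i ⊓ U j ⊓ U l) (x := p q)
          ⟨hij hq, (hjl hq).2⟩
        have hi : W ≤ U i := hle.trans (inf_le_left.trans inf_le_left)
        have hj : W ≤ U j := hle.trans (inf_le_left.trans inf_le_right)
        have hl : W ≤ U l := hle.trans inf_le_right
        let A : T.affineOpens := ⟨W, hW⟩
        refine ⟨p ⁻¹ᵁ W, hqW, fun V₁ _ hV₁ x₁ => ?_⟩
        refine Eq.trans ?_ (hF i l A hi hl V₁ hV₁ x₁).symm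
        have h1 := huniq i l A hi hl ((f i j A hi hj).comp (f j l A hj hl)) fun V₂ hV₂ x₂ =>
          (hc j l A hj hl V₂ hV₂ _).trans (hc i j A hi hj V₂ hV₂ x₂)
        refine Eq.trans ?_ (congrArg (fun G : SecHom (N i) (N l) (p ⁻¹ᵁ W) => G.app V₁ hV₁ x₁) h1)
        exact (hF j l A hj hl V₁ hV₁ _).trans
          (congrArg ((f j l A hj hl).app V₁ hV₁) (hF i j A hi hj V₁ hV₁ x₁))
    exact congrArg (fun G : SecHom (N i) (N l) V => G.app V le_rfl x) h0
  let G : GlueSys (pullback c t) :=
    { ι := ι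
      U := P
      cover := fun q => hU (p q)
      N := N
      g := fun i j V hi hj => (F i j).app V (le_inf hi hj)
      g_smul := fun i j V hi hj => (F i j).app_smul V (le_inf hi hj)
      g_map := fun i j V V' hi hj => (F i j).app_map V V' (le_inf hi hj)
      g_id := fun i V hi => hid i V (le_inf hi hi)
      g_comp := fun i j l V hi hj hl => hcomp i j l V (le_inf hi hj) (le_inf hj hl) (le_inf hi hl) }
  let π : ∀ i, SecHom G.glued (N i) (P i) := fun i =>
    { app := fun V hV => G.proj i V hV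
      app_smul := fun _ hV => G.proj_smul i hV
      app_map := fun _ _ hV h' => G.proj_map i hV h' }
  have hπb : ∀ i V hV, Function.Bijective ((π i).app V hV) := fun i _ hV => G.proj_bijective i hV
  have hPJ : ∀ i, (baseChangeSnd c (inclOpen t (U i))).opensRange = P i := fun i =>
    opensRange_inclOpen c t (U i)
  let chart : ∀ i, G.glued.restrict (baseChangeSnd c (inclOpen t (U i))) ≅ (M i).L := fun i =>
    SecHom.toRestrictIso _ (π i) ((π i).inverse (hπb i))
      (SecHom.inverse_app _ _) (SecHom.app_inverse _ _) (hPJ i).le ≪≫ descPieceIso U M i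
  have hinv : Scheme.Modules.IsInvertible G.glued := by
    refine isInvertible_of_forall_exists fun q => ?_
    obtain ⟨i, hi⟩ := hU (p q)
    have hq : q ∈ (baseChangeSnd c (inclOpen t (U i))).opensRange := (hPJ i).ge hi
    obtain ⟨q', rfl⟩ := hq
    obtain ⟨Z, hq', ⟨e⟩⟩ := (isInvertible_congr (chart i).symm (M i).isInvertible).1 q'
    exact ⟨_, Z.ι ≫ baseChangeSnd c (inclOpen t (U i)), inferInstance, ⟨⟨q', hq'⟩, rfl⟩,
      ⟨((Scheme.Modules.pullbackComp Z.ι _).app _).symm ≪≫
        (Scheme.Modules.pullback Z.ι).mapIso (restrictIsoPullback _ _).symm ≪≫ e⟩⟩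
  obtain ⟨r, hr⟩ := SecHom.exists_glue (M := G.glued) (M' := pushUnit σ) (P := p ⁻¹ᵁ ⊤) P
    (fun i => p.preimage_mono le_top) (fun q _ => hU (p q))
    (fun i => (π i).comp (ρ i).hom) fun i j V hi hj x => by
      refine ((hFc i j V (le_inf hi hj) (G.proj i V hi x)).symm).trans ?_
      exact congrArg ((ρ j).hom.app V hj) (G.g_proj i j hi hj x)
  let rG : RigOn σ p G.glued ⊤ :=
    { hom := r
      frames := fun q hq => exists_frame (p ⁻¹ᵁ (⊤ : T.Opens)).ι (isInvertible_restrict _ hinv)
        (by rwa [Scheme.Opens.opensRange_ι]) _ hq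
      unit := fun V hV e he => by
        refine T.toRingedSpace.isUnit_of_isUnit_germ _ _ fun s hs => ?_
        obtain ⟨i, hi⟩ := hU (p (σ s))
        let V' := V ⊓ P i
        let e' := G.glued.presheaf.map (homOfLE (inf_le_left : V' ≤ V)).op e
        have he' : IsFrame e' := he.res inf_le_left
        have hfr : IsFrame ((π i).app V' inf_le_right e') := fun W hW => by
          have h2 : (fun a : Γ(pullback c t, W) => a •
              (N i).presheaf.map (homOfLE hW).op ((π i).app V' inf_le_right e')) =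
              (π i).app W (hW.trans inf_le_right) ∘ fun a =>
                a • G.glued.presheaf.map (homOfLE hW).op e' := by
            funext a
            rw [Function.comp_apply, (π i).app_smul]
            exact congrArg (a • ·) ((π i).app_map _ _ _ (homOfLE hW) e')
          rw [h2]
          exact (hπb i W _).comp (he' W hW)
        have hu := (ρ i).unit V' inf_le_right _ hfr
        have hre : pushVal σ (r.app V' (inf_le_left.trans hV) e') =
            T.presheaf.map (homOfLE (σ.preimage_mono inf_le_left)).op (pushVal σ (r.app V hV e)) :=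
          (congrArg (pushVal σ) (r.app_map V V' hV (homOfLE inf_le_left) e)).symm.trans
            (pushVal_map σ inf_le_left _)
        have hre' : r.app V' (inf_le_left.trans hV) e' =
            (ρ i).hom.app V' inf_le_right ((π i).app V' inf_le_right e') :=
          hr i V' inf_le_right e'
        rw [← hre', hre] at hu
        have hu' := hu.map (T.presheaf.germ (σ ⁻¹ᵁ V') s ⟨hs, hi⟩).hom
        erw [T.presheaf.germ_res_apply] at hu'
        exact hu' }
  obtain ⟨rig⟩ := exists_iso_of_rigOn p (rigSection_snd c t ε) hinv rG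
  exact ⟨⟨G.glued, hinv, ⟨rig⟩⟩, fun i => ⟨(restrictIsoPullback _ G.glued).symm ≪≫ chart i⟩⟩

end Glue

end Fermat.Agent.Jac
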