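import Fermat.Agent.Jac.Sheaf.ModelChart

/-!
# From invertible sheaves on `C × Spec R` to line data
-/

set_option autoImplicit false

noncomputable section

universe u

open CategoryTheory CategoryTheory.Limits AlgebraicGeometry TopologicalSpace TensorProduct
  NeronModelInfra AlgebraicGeometry.RelPicard

namespace Fermat.Agent.Jac

/-- A semilinear map which is a localisation gives the base change. -/
theorem exists_baseChange_equiv {A B : Type u} [CommRing A] [CommRing B] [Algebra A B] (a : A)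
    [IsLocalization.Away a B] {M P : Type u} [AddCommGroup M] [Module A M] [AddCommGroup P]
    [Module B P] (f : M →ₛₗ[algebraMap A B] P)
    (hsurj : ∀ z, ∃ (n : ℕ) (x : M), f x = algebraMap A B a ^ n • z)
    (hzero : ∀ x, f x = 0 → ∃ n : ℕ, a ^ n • x = 0) :
    ∃ e : B ⊗[A] M ≃ₗ[B] P, ∀ x, e (1 ⊗ₜ x) = f x := by
  let _ : Module A P := Module.compHom P (algebraMap A B)
  have : IsScalarTower A B P := IsScalarTower.of_compHom A B P
  let g : M →ₗ[A] P :=
    { toFun := f, map_add' := map_add f, map_smul' := fun r x => f.map_smulₛₗ r x }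
  have hpow : ∀ (n : ℕ) (z : P), a ^ n • z = algebraMap A B a ^ n • z := fun n z => by
    rw [← algebraMap_smul B (a ^ n) z, map_pow]
  have : IsLocalizedModule (Submonoid.powers a) g := IsLocalizedModule.Away.mk_of_addCommGroup
    (by
      rw [Module.End.isUnit_iff]
      have hu : IsUnit (algebraMap A B a) := IsLocalization.Away.algebraMap_isUnit a
      have hfun : ⇑(algebraMap A (Module.End A P) a) = fun z : P => algebraMap A B a • z :=
        funext fun z => (algebraMap_smul B a z).symm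
      rw [hfun]
      exact IsUnit.smul_bijective hu)
    (fun z => by
      obtain ⟨n, x, hx⟩ := hsurj z
      exact ⟨n, x, (hpow n z).trans hx.symm⟩)
    (fun x hx => hzero x hx)
  have hb : IsBaseChange B g := (isLocalizedModule_iff_isBaseChange (Submonoid.powers a) B g).mp this
  exact ⟨hb.equiv, fun x => by rw [IsBaseChange.equiv_tmul, one_smul]; rfl⟩

variable {k : Type u} [Field k] {C : Scheme.{u}} {c : C ⟶ Spec (CommRingCat.of k)}
  {ε : SchemeHomOver (𝟙 (Spec (CommRingCat.of k))) c}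

namespace CurveModel

variable (m : CurveModel c ε) {R : Type u} [CommRing R] [Algebra k R]
  (L : (pullback c (structMap k R)).Modules) (hL : Scheme.Modules.IsInvertible L)

/-- Sections on the first chart. -/
abbrev secM : Type u := Sec (m.J₀ R) L

/-- Sections on the second chart. -/
abbrev secN : Type u := Sec (m.J₁ R) L

/-- Sections on the intersection. -/
abbrev secB : Type u := Sec (m.JB R) L

/-- Restriction from the first chart. -/
def res₀ : m.secM L →ₛₗ[algebraMap (m.D.AR R) (m.D.BR R)] m.secB L :=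
  resMap (m.J₀ R) (m.JB R) (m.JB_eq₀ R) L

/-- Restriction from the second chart. -/
def res₁ : m.secN L →ₛₗ[algebraMap (m.D.AR₁ R) (m.D.BR R)] m.secB L :=
  resMap (m.J₁ R) (m.JB R) (m.JB_eq₁ R) L

theorem away₀ : @IsLocalization.Away (m.D.AR R) _ (m.D.xR R) (m.D.BR R) _
    (CommRingCat.Hom.hom (m.φ₀ R)).toAlgebra := by
  have h : (CommRingCat.Hom.hom (m.φ₀ R)).toAlgebra = m.D.algebraRes₀ R := Algebra.algebra_ext _ _ fun _ => rfl
  rw [h]
  exact m.D.awayXR R

theorem away₁ : @IsLocalization.Away (m.D.AR₁ R) _ (m.D.yR R) (m.D.BR R) _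
    (CommRingCat.Hom.hom (m.φ₁ R)).toAlgebra := by
  have h : (CommRingCat.Hom.hom (m.φ₁ R)).toAlgebra = m.D.algebraRes₁ R := Algebra.algebra_ext _ _ fun _ => rfl
  rw [h]
  exact m.D.awayYR R

include hL in
theorem exists_equiv₀ : ∃ e : m.D.BR R ⊗[m.D.AR R] m.secM L ≃ₗ[m.D.BR R] m.secB L,
    ∀ x, e (1 ⊗ₜ x) = m.res₀ L x :=
  exists_baseChange_equiv (m.D.xR R) (m.res₀ L)
    (fun z => exists_resMap_eq (A := CommRingCat.of (m.D.AR R)) (B := CommRingCat.of (m.D.BR R))
      (m.D.xR R) (m.away₀) (m.J₀ R) (m.JB R) (m.JB_eq₀ R) L (isInvertible_restrict (m.J₀ R) hL) z)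
    (fun _ hx => resMap_eq_zero (A := CommRingCat.of (m.D.AR R)) (B := CommRingCat.of (m.D.BR R))
      (m.D.xR R) (m.away₀) (m.J₀ R) (m.JB R) (m.JB_eq₀ R) L (isInvertible_restrict (m.J₀ R) hL) hx)

include hL in
theorem exists_equiv₁ : ∃ e : m.D.BR R ⊗[m.D.AR₁ R] m.secN L ≃ₗ[m.D.BR R] m.secB L,
    ∀ x, e (1 ⊗ₜ x) = m.res₁ L x :=
  exists_baseChange_equiv (m.D.yR R) (m.res₁ L)
    (fun z => exists_resMap_eq (A := CommRingCat.of (m.D.AR₁ R)) (B := CommRingCat.of (m.D.BR R))
      (m.D.yR R) (m.away₁) (m.J₁ R) (m.JB R) (m.JB_eq₁ R) L (isInvertible_restrict (m.J₁ R) hL) z)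
    (fun _ hx => resMap_eq_zero (A := CommRingCat.of (m.D.AR₁ R)) (B := CommRingCat.of (m.D.BR R))
      (m.D.yR R) (m.away₁) (m.J₁ R) (m.JB R) (m.JB_eq₁ R) L (isInvertible_restrict (m.J₁ R) hL) hx)

/-- The line data of an invertible sheaf. -/
def toLineData : LineData m.D R where
  M := m.secM L
  N := m.secN L
  modRM := Module.compHom _ (algebraMap R (m.D.AR R))
  modRN := Module.compHom _ (algebraMap R (m.D.AR₁ R))
  towerM := IsScalarTower.of_compHom R (m.D.AR R) (m.secM L)
  towerN := IsScalarTower.of_compHom R (m.D.AR₁ R) (m.secN L)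
  invM := moduleInvertible_ΓMod (isInvertible_restrict (m.J₀ R) hL)
  invN := moduleInvertible_ΓMod (isInvertible_restrict (m.J₁ R) hL)
  glue := (m.exists_equiv₀ L hL).choose.trans (m.exists_equiv₁ L hL).choose.symm

/-- The sections on the intersection, as `P`. -/
def equivP : (m.toLineData L hL).P ≃ₗ[m.D.BR R] m.secB L := (m.exists_equiv₁ L hL).choose

theorem equivP_f₁ (n : m.secN L) :
    m.equivP L hL ((m.toLineData L hL).f₁ n) = m.res₁ L n :=
  (m.exists_equiv₁ L hL).choose_spec n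

theorem equivP_f₀ (x : m.secM L) :
    m.equivP L hL ((m.toLineData L hL).f₀ x) = m.res₀ L x :=
  ((m.exists_equiv₁ L hL).choose.apply_symm_apply _).trans ((m.exists_equiv₀ L hL).choose_spec x)

theorem rel_iff (i : ℕ) (x : m.secM L) (n : m.secN L) :
    (m.toLineData L hL).Rel i x n ↔
      algebraMap (m.D.AR₁ R) (m.D.BR R) (m.D.yR R) ^ i • m.res₀ L x = m.res₁ L n := by
  have h : m.equivP L hL
      (algebraMap (m.D.AR₁ R) (m.D.BR R) (m.D.yR R) ^ i • (m.toLineData L hL).f₀ x) =
        algebraMap (m.D.AR₁ R) (m.D.BR R) (m.D.yR R) ^ i • m.res₀ L x := by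
    rw [map_smul, equivP_f₀]
  rw [← m.equivP_f₁ L hL n, ← h]
  exact (m.equivP L hL).injective.eq_iff.symm

end CurveModel

end Fermat.Agent.Jac
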