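import Fermat.Agent.Jac.Sheaf.Restrict

/-!
# Morphisms of sheaves of modules glue

`appOn J φ` is the action on opens inside `range J` of a morphism `φ` between restrictions along
`J`; a family of such morphisms which agrees on overlaps comes from a unique global morphism.
-/

set_option autoImplicit false

noncomputable section

universe u

open CategoryTheory CategoryTheory.Limits AlgebraicGeometry Opposite TopologicalSpace

namespace Fermat.Agent.Jac

variable {X Z : Scheme.{u}} {L L' L'' : X.Modules}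

theorem image_preimage_of_le (J : Z ⟶ X) [IsOpenImmersion J] {W : X.Opens}
    (hW : W ≤ J.opensRange) : J ''ᵁ (J ⁻¹ᵁ W) = W := by
  rw [J.image_preimage_eq_opensRange_inf, inf_eq_right.mpr hW]

/-- A morphism of restrictions, acting on sections over an open inside the image. -/
def appOn (J : Z ⟶ X) [IsOpenImmersion J] (φ : L.restrict J ⟶ L'.restrict J) (W : X.Opens)
    (hW : W ≤ J.opensRange) : Γ(L, W) →+ Γ(L', W) :=
  (L'.presheaf.map (homOfLE (image_preimage_of_le J hW).ge).op).hom.comp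
    ((φ.app (J ⁻¹ᵁ W)).hom.comp (L.presheaf.map (homOfLE (image_preimage_of_le J hW).le).op).hom)

theorem appOn_smul (J : Z ⟶ X) [IsOpenImmersion J] (φ : L.restrict J ⟶ L'.restrict J) (W : X.Opens)
    (hW : W ≤ J.opensRange) (r : Γ(X, W)) (x : Γ(L, W)) :
    appOn J φ W hW (r • x) = r • appOn J φ W hW x := by
  let i := homOfLE (image_preimage_of_le J hW).le
  let j := homOfLE (image_preimage_of_le J hW).ge
  have h1 : L.presheaf.map i.op (r • x) =
      (J.appIso (J ⁻¹ᵁ W)).inv ((J.appIso (J ⁻¹ᵁ W)).hom (X.presheaf.map i.op r)) •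
        L.presheaf.map i.op x :=
    (Scheme.Modules.map_smul L i r x).trans (congrArg (· • L.presheaf.map i.op x)
      (congr($((J.appIso (J ⁻¹ᵁ W)).hom_inv_id).hom (X.presheaf.map i.op r))).symm)
  refine (congrArg (fun z => L'.presheaf.map j.op (φ.app (J ⁻¹ᵁ W) z)) h1).trans ?_
  refine (congrArg (L'.presheaf.map j.op) (Scheme.Modules.Hom.app_smul φ
    ((J.appIso (J ⁻¹ᵁ W)).hom (X.presheaf.map i.op r)) (L.presheaf.map i.op x))).trans ?_
  refine (Scheme.Modules.map_smul L' j _ _).trans ?_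
  refine congrArg (· • appOn J φ W hW x) ?_
  refine (congrArg (X.presheaf.map j.op)
    (congr($((J.appIso (J ⁻¹ᵁ W)).hom_inv_id).hom (X.presheaf.map i.op r)))).trans ?_
  show (X.presheaf.map i.op ≫ X.presheaf.map j.op) r = r
  rw [← Functor.map_comp, Subsingleton.elim (i.op ≫ j.op) (𝟙 _),
    CategoryTheory.Functor.map_id]
  rfl

theorem map_appOn (J : Z ⟶ X) [IsOpenImmersion J] (φ : L.restrict J ⟶ L'.restrict J)
    {W W' : X.Opens} (hW : W ≤ J.opensRange) (hW' : W' ≤ J.opensRange) (h : W' ⟶ W)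
    (x : Γ(L, W)) :
    L'.presheaf.map h.op (appOn J φ W hW x) = appOn J φ W' hW' (L.presheaf.map h.op x) := by
  let h' : J ⁻¹ᵁ W' ⟶ J ⁻¹ᵁ W := (Opens.map J.base).map h
  have hh : J ''ᵁ (J ⁻¹ᵁ W') ≤ J ''ᵁ (J ⁻¹ᵁ W) := J.image_mono h'.le
  have h1 := congr($(φ.mapPresheaf.naturality h'.op).hom
    (L.presheaf.map (homOfLE (image_preimage_of_le J hW).le).op x))
  refine (map_map_apply L' _ _ (homOfLE ((image_preimage_of_le J hW').ge.trans hh)) _).trans ?_
  refine (map_map_apply L' (homOfLE hh) (homOfLE (image_preimage_of_le J hW').ge) _ _).symm.trans ?_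
  refine congrArg (L'.presheaf.map (homOfLE (image_preimage_of_le J hW').ge).op) ?_
  refine h1.symm.trans (congrArg (φ.app (J ⁻¹ᵁ W')) ?_)
  exact (map_map_apply L _ _ (homOfLE (hh.trans (image_preimage_of_le J hW).le)) _).trans
    (map_map_apply L _ _ _ _).symm

theorem appOn_id (J : Z ⟶ X) [IsOpenImmersion J] {W : X.Opens} (hW : W ≤ J.opensRange)
    (x : Γ(L, W)) : appOn J (𝟙 (L.restrict J)) W hW x = x := by
  refine (map_map_apply L (homOfLE (image_preimage_of_le J hW).le)
    (homOfLE (image_preimage_of_le J hW).ge) (𝟙 W) x).trans ?_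
  rw [op_id, CategoryTheory.Functor.map_id]
  rfl

theorem appOn_comp (J : Z ⟶ X) [IsOpenImmersion J] (φ : L.restrict J ⟶ L'.restrict J)
    (φ' : L'.restrict J ⟶ L''.restrict J) {W : X.Opens} (hW : W ≤ J.opensRange) (x : Γ(L, W)) :
    appOn J φ' W hW (appOn J φ W hW x) = appOn J (φ ≫ φ') W hW x := by
  refine congrArg (L''.presheaf.map (homOfLE (image_preimage_of_le J hW).ge).op) ?_
  refine congrArg (φ'.app (J ⁻¹ᵁ W)) ?_
  refine (map_map_apply L' (homOfLE (image_preimage_of_le J hW).ge)
    (homOfLE (image_preimage_of_le J hW).le) (𝟙 _) _).trans ?_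
  rw [op_id, CategoryTheory.Functor.map_id]
  rfl

theorem appOn_restrict_map (J : Z ⟶ X) [IsOpenImmersion J] (f : L ⟶ L') {W : X.Opens}
    (hW : W ≤ J.opensRange) (x : Γ(L, W)) :
    appOn J ((Scheme.Modules.restrictFunctor J).map f) W hW x = f.app W x :=
  (congr($(f.mapPresheaf.naturality (homOfLE (image_preimage_of_le J hW).ge).op).hom
    (L.presheaf.map (homOfLE (image_preimage_of_le J hW).le).op x))).symm.trans
    (congrArg (f.app W) ((map_map_apply L _ _ (𝟙 W) x).trans
      (by rw [op_id, CategoryTheory.Functor.map_id]; rfl)))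

theorem hom_ext_of_cover {ι : Type u} (U : ι → X.Opens) (hU : ∀ x : X, ∃ i, x ∈ U i)
    {f g : L ⟶ L'} (h : ∀ (i : ι) (W : X.Opens), W ≤ U i → ∀ x, f.app W x = g.app W x) :
    f = g := by
  refine Scheme.Modules.hom_ext _ _ fun V => ?_
  ext x
  refine TopCat.Sheaf.eq_of_locally_eq' ⟨_, L'.isSheaf⟩ (fun i => V ⊓ U i) V
    (fun i => homOfLE inf_le_left)
    (fun p hp => Opens.mem_iSup.mpr ((hU p).imp fun _ hi => ⟨hp, hi⟩)) _ _ fun i => ?_
  exact (congr($(f.mapPresheaf.naturality (homOfLE (inf_le_left : V ⊓ U i ≤ V)).op).hom x)).symm.trans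
    ((h i _ inf_le_right _).trans
      (congr($(g.mapPresheaf.naturality (homOfLE (inf_le_left : V ⊓ U i ≤ V)).op).hom x)))

section Glue

variable {ι : Type u} {Y : ι → Scheme.{u}} (J : ∀ i, Y i ⟶ X) [∀ i, IsOpenImmersion (J i)]

/-- Morphisms glue along a cover. -/
theorem existsUnique_glue_hom (hJ : ∀ x : X, ∃ i, x ∈ Set.range (J i))
    (φ : ∀ i, L.restrict (J i) ⟶ L'.restrict (J i))
    (hφ : ∀ (i j : ι) (W : X.Opens) (hi : W ≤ (J i).opensRange) (hj : W ≤ (J j).opensRange) x,
      appOn (J i) (φ i) W hi x = appOn (J j) (φ j) W hj x) :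
    ∃! f : L ⟶ L', ∀ (i : ι) (W : X.Opens) (hi : W ≤ (J i).opensRange) x,
      f.app W x = appOn (J i) (φ i) W hi x := by
  let F : TopCat.Sheaf AddCommGrpCat X := ⟨L'.presheaf, L'.isSheaf⟩
  have hex : ∀ (V : X.Opens) (x : Γ(L, V)), ∃! y : Γ(L', V),
      ∀ i, L'.presheaf.map (homOfLE (inf_le_left : V ⊓ (J i).opensRange ≤ V)).op y =
        appOn (J i) (φ i) _ inf_le_right (L.presheaf.map (homOfLE inf_le_left).op x) := by
    intro V x
    refine F.existsUnique_gluing' (fun i => V ⊓ (J i).opensRange) V (fun i => homOfLE inf_le_left)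
      (fun p hp => Opens.mem_iSup.mpr ((hJ p).imp fun _ hi => ⟨hp, hi⟩))
      (fun i => appOn (J i) (φ i) _ inf_le_right (L.presheaf.map (homOfLE inf_le_left).op x)) ?_
    intro i j
    refine (map_appOn (J i) (φ i) _ (inf_le_left.trans inf_le_right) _ _).trans ?_
    refine Eq.trans ?_ (map_appOn (J j) (φ j) _ (inf_le_right.trans inf_le_right) _ _).symm
    refine (hφ i j _ _ (inf_le_right.trans inf_le_right) _).trans ?_
    exact congrArg _ ((map_map_apply L _ _ (homOfLE (inf_le_left.trans inf_le_left)) x).trans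
      (map_map_apply L _ _ _ x).symm)
  choose a ha hu using hex
  have haW : ∀ (i : ι) (W : X.Opens) (hi : W ≤ (J i).opensRange) (x : Γ(L, W)),
      a W x = appOn (J i) (φ i) W hi x := fun i W hi x => (hu W x _ fun j => by
    refine (map_appOn (J i) (φ i) hi (inf_le_left.trans hi) _ x).trans ?_
    exact hφ i j _ _ inf_le_right _).symm
  let app : ∀ V : X.Opens, Γ(L, V) →+ Γ(L', V) := fun V =>
    AddMonoidHom.mk' (a V) fun x y => (hu V (x + y) _ fun i => by
      simp only [map_add, ha]).symm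
  let nat : L.presheaf ⟶ L'.presheaf :=
    { app := fun V => AddCommGrpCat.ofHom (app V.unop)
      naturality := fun V V' h => by
        ext x
        refine (hu V'.unop (L.presheaf.map h x) (L'.presheaf.map h (a V.unop x)) fun i => ?_).symm
        refine (map_map_apply L' h.unop _ (homOfLE (inf_le_left.trans h.unop.le)) _).trans ?_
        refine ((map_map_apply L' (homOfLE (inf_le_left : V.unop ⊓ (J i).opensRange ≤ V.unop))
          (homOfLE (inf_le_inf_right _ h.unop.le)) _ (a V.unop x)).symm.trans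
          ((congrArg _ (ha V.unop x i)).trans (map_appOn (J i) (φ i) _ inf_le_right _ _))).trans ?_
        exact congrArg _ ((map_map_apply L _ _ (homOfLE (inf_le_left.trans h.unop.le)) x).trans
          (map_map_apply L h.unop _ _ x).symm) }
  refine ⟨⟨PresheafOfModules.homMk (M₁ := L.val) (M₂ := L'.val) nat fun V r x => ?_⟩,
    fun i W hi x => haW i W hi x, fun g hg => ?_⟩
  · refine (hu V.unop _ (HSMul.hSMul (α := Γ(X, V.unop)) (β := Γ(L', V.unop)) r (a V.unop x))
      fun i => ?_).symm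
    refine (Scheme.Modules.map_smul L' (homOfLE (inf_le_left : V.unop ⊓ (J i).opensRange ≤ V.unop))
      r (a V.unop x)).trans ?_
    refine (congrArg _ (ha V.unop x i)).trans ?_
    refine ((appOn_smul (J i) (φ i) _ inf_le_right _ _).symm).trans ?_
    exact congrArg _ (Scheme.Modules.map_smul L _ r x).symm
  · refine Scheme.Modules.hom_ext _ _ fun V => ?_
    ext x
    refine hu V x (g.app V x) fun i => ?_
    exact (congr($(g.mapPresheaf.naturality
      (homOfLE (inf_le_left : V ⊓ (J i).opensRange ≤ V)).op).hom x)).symm.trans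
      (hg i _ inf_le_right _)

/-- Isomorphisms glue along a cover. -/
theorem exists_glue_iso (hJ : ∀ x : X, ∃ i, x ∈ Set.range (J i))
    (φ : ∀ i, L.restrict (J i) ≅ L'.restrict (J i))
    (hφ : ∀ (i j : ι) (W : X.Opens) (hi : W ≤ (J i).opensRange) (hj : W ≤ (J j).opensRange) x,
      appOn (J i) (φ i).hom W hi x = appOn (J j) (φ j).hom W hj x) :
    ∃ f : L ≅ L', ∀ (i : ι) (W : X.Opens) (hi : W ≤ (J i).opensRange) x,
      f.hom.app W x = appOn (J i) (φ i).hom W hi x := by
  have cancel : ∀ (i : ι) (W : X.Opens) (hi : W ≤ (J i).opensRange) (x : Γ(L, W)),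
      appOn (J i) (φ i).inv W hi (appOn (J i) (φ i).hom W hi x) = x := fun i W hi x => by
    rw [appOn_comp, Iso.hom_inv_id, appOn_id]
  have cancel' : ∀ (i : ι) (W : X.Opens) (hi : W ≤ (J i).opensRange) (x : Γ(L', W)),
      appOn (J i) (φ i).hom W hi (appOn (J i) (φ i).inv W hi x) = x := fun i W hi x => by
    rw [appOn_comp, Iso.inv_hom_id, appOn_id]
  obtain ⟨f, hf, -⟩ := existsUnique_glue_hom J hJ (fun i => (φ i).hom) hφ
  obtain ⟨g, hg, -⟩ := existsUnique_glue_hom J hJ (fun i => (φ i).inv) fun i j W hi hj x => by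
    calc appOn (J i) (φ i).inv W hi x
        = appOn (J j) (φ j).inv W hj
            (appOn (J j) (φ j).hom W hj (appOn (J i) (φ i).inv W hi x)) := (cancel j W hj _).symm
      _ = appOn (J j) (φ j).inv W hj
            (appOn (J i) (φ i).hom W hi (appOn (J i) (φ i).inv W hi x)) := by rw [hφ i j W hi hj]
      _ = appOn (J j) (φ j).inv W hj x := by rw [cancel']
  refine ⟨⟨f, g, ?_, ?_⟩, hf⟩
  · refine hom_ext_of_cover (fun i => (J i).opensRange) hJ fun i W hi x => ?_
    show g.app W (f.app W x) = x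
    rw [hf i W hi, hg i W hi, cancel]
  · refine hom_ext_of_cover (fun i => (J i).opensRange) hJ fun i W hi x => ?_
    show f.app W (g.app W x) = x
    rw [hg i W hi, hf i W hi, cancel']

end Glue

end Fermat.Agent.Jac
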