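import Fermat.Agent.Jac.Sheaf.GlueHom

/-!
# Gluing sheaves of modules along transition maps

`GlueSys` is a family `N i` of modules on `X` with transition maps on sections over opens inside
`U i ⊓ U j`; `GlueSys.glued` is the glued module and `GlueSys.chartIso i` its identification with
`N i` on `U i`.
-/

set_option autoImplicit false

noncomputable section

universe u

open CategoryTheory CategoryTheory.Limits AlgebraicGeometry Opposite TopologicalSpace

namespace Fermat.Agent.Jac

variable {X : Scheme.{u}}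

theorem map_self_apply (M : X.Modules) {U : X.Opens} (i : U ⟶ U) (x : Γ(M, U)) :
    M.presheaf.map i.op x = x := by
  rw [Subsingleton.elim i (𝟙 U), op_id, CategoryTheory.Functor.map_id]
  rfl

/-- Gluing data for sheaves of modules, on sections. -/
structure GlueSys (X : Scheme.{u}) where
  ι : Type u
  U : ι → X.Opens
  cover : ∀ x : X, ∃ i, x ∈ U i
  N : ι → X.Modules
  g : ∀ (i j : ι) (W : X.Opens), W ≤ U i → W ≤ U j → (Γ(N i, W) →+ Γ(N j, W))
  g_smul : ∀ (i j : ι) (W : X.Opens) (hi : W ≤ U i) (hj : W ≤ U j) (r : Γ(X, W)) (x : Γ(N i, W)),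
    g i j W hi hj (r • x) = r • g i j W hi hj x
  g_map : ∀ (i j : ι) (W W' : X.Opens) (hi : W ≤ U i) (hj : W ≤ U j) (h : W' ⟶ W) (x : Γ(N i, W)),
    (N j).presheaf.map h.op (g i j W hi hj x) =
      g i j W' (h.le.trans hi) (h.le.trans hj) ((N i).presheaf.map h.op x)
  g_id : ∀ (i : ι) (W : X.Opens) (hi : W ≤ U i) (x : Γ(N i, W)), g i i W hi hi x = x
  g_comp : ∀ (i j l : ι) (W : X.Opens) (hi : W ≤ U i) (hj : W ≤ U j) (hl : W ≤ U l)
    (x : Γ(N i, W)), g j l W hj hl (g i j W hi hj x) = g i l W hi hl x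

namespace GlueSys

variable (G : GlueSys X)

theorem g_congr {i j : G.ι} {W W' : X.Opens} (hi : W ≤ G.U i) (hj : W ≤ G.U j) (e : W' = W)
    (x : Γ(G.N i, W)) :
    G.g i j W' (e ▸ hi) (e ▸ hj) ((G.N i).presheaf.map (homOfLE e.le).op x) =
      (G.N j).presheaf.map (homOfLE e.le).op (G.g i j W hi hj x) :=
  (G.g_map i j W W' hi hj (homOfLE e.le) x).symm

/-- Families of sections compatible with the transition maps. -/
def sub (V : X.Opens) : AddSubgroup (∀ i, Γ(G.N i, V ⊓ G.U i)) where
  carrier := {s | ∀ (i j : G.ι) (W : X.Opens) (hi : W ≤ V ⊓ G.U i) (hj : W ≤ V ⊓ G.U j),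
    (G.N j).presheaf.map (homOfLE hj).op (s j) =
      G.g i j W (hi.trans inf_le_right) (hj.trans inf_le_right)
        ((G.N i).presheaf.map (homOfLE hi).op (s i))}
  add_mem' := fun {a b} ha hb i j W hi hj => by simp only [Pi.add_apply, map_add, ha i j W hi hj,
    hb i j W hi hj]
  zero_mem' := fun i j W hi hj => by simp
  neg_mem' := fun {a} ha i j W hi hj => by simp only [Pi.neg_apply, map_neg, ha i j W hi hj]

/-- Restriction of a compatible family. -/
def resFun {V V' : X.Opens} (h : V' ⟶ V) : G.sub V →+ G.sub V' where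
  toFun s := ⟨fun i => (G.N i).presheaf.map (homOfLE (inf_le_inf_right _ h.le)).op (s.1 i),
    fun i j W hi hj =>
      (map_map_apply (G.N j) _ _ (homOfLE (hj.trans (inf_le_inf_right _ h.le))) _).trans
        ((s.2 i j W (hi.trans (inf_le_inf_right _ h.le)) _).trans
          (congrArg _ (map_map_apply (G.N i) _ _ _ _).symm))⟩
  map_zero' := Subtype.ext (funext fun _ => map_zero _)
  map_add' _ _ := Subtype.ext (funext fun _ => map_add _ _ _)

/-- The presheaf of compatible families. -/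
def psh : TopCat.Presheaf AddCommGrpCat.{u} X where
  obj V := AddCommGrpCat.of (G.sub V.unop)
  map h := AddCommGrpCat.ofHom (G.resFun h.unop)
  map_id V := by
    refine AddCommGrpCat.hom_ext (AddMonoidHom.ext fun s => ?_)
    exact Subtype.ext (funext fun i => map_self_apply (G.N i) _ _)
  map_comp h h' := by
    refine AddCommGrpCat.hom_ext (AddMonoidHom.ext fun s => ?_)
    exact Subtype.ext (funext fun i => (map_map_apply (G.N i) _ _ _ _).symm)

/-- The scalar action on compatible families. -/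
def smulFun (V : X.Opens) (r : Γ(X, V)) (s : G.sub V) : G.sub V :=
  ⟨fun i => X.presheaf.map (homOfLE (inf_le_left : V ⊓ G.U i ≤ V)).op r • s.1 i, fun i j W hi hj => by
    refine (Scheme.Modules.map_smul _ _ _ _).trans ?_
    refine Eq.trans ?_ (congrArg _ (Scheme.Modules.map_smul _ _ _ _).symm)
    refine Eq.trans ?_ (G.g_smul _ _ _ _ _ _ _).symm
    rw [s.2 i j W hi hj]
    refine congrArg (· • G.g i j W _ _ _) ?_
    show (X.presheaf.map _ ≫ X.presheaf.map _) r = (X.presheaf.map _ ≫ X.presheaf.map _) r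
    rw [← Functor.map_comp, ← Functor.map_comp]
    rfl⟩

instance moduleSub (V : X.Opens) : Module Γ(X, V) (G.sub V) where
  smul := G.smulFun V
  one_smul s := Subtype.ext (funext fun i => by
    show X.presheaf.map (homOfLE (inf_le_left : V ⊓ G.U i ≤ V)).op 1 • s.1 i = s.1 i
    rw [map_one, one_smul])
  mul_smul r r' s := Subtype.ext (funext fun i => by
    show X.presheaf.map (homOfLE (inf_le_left : V ⊓ G.U i ≤ V)).op (r * r') • s.1 i = X.presheaf.map (homOfLE (inf_le_left : V ⊓ G.U i ≤ V)).op r • (X.presheaf.map (homOfLE (inf_le_left : V ⊓ G.U i ≤ V)).op r' • s.1 i)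
    rw [map_mul, mul_smul])
  smul_zero r := Subtype.ext (funext fun i => smul_zero _)
  smul_add r s t := Subtype.ext (funext fun i => smul_add _ _ _)
  add_smul r r' s := Subtype.ext (funext fun i => by
    show X.presheaf.map (homOfLE (inf_le_left : V ⊓ G.U i ≤ V)).op (r + r') • s.1 i = X.presheaf.map (homOfLE (inf_le_left : V ⊓ G.U i ≤ V)).op r • s.1 i + X.presheaf.map (homOfLE (inf_le_left : V ⊓ G.U i ≤ V)).op r' • s.1 i
    rw [map_add, add_smul])
  zero_smul s := Subtype.ext (funext fun i => by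
    show X.presheaf.map (homOfLE (inf_le_left : V ⊓ G.U i ≤ V)).op 0 • s.1 i = 0
    rw [map_zero, zero_smul])

theorem smul_val (V : X.Opens) (r : Γ(X, V)) (s : G.sub V) (i : G.ι) :
    (r • s).1 i = X.presheaf.map (homOfLE (inf_le_left : V ⊓ G.U i ≤ V)).op r • s.1 i := rfl

theorem isSheaf_psh : TopCat.Presheaf.IsSheaf G.psh := by
  rw [TopCat.Presheaf.isSheaf_iff_isSheafUniqueGluing]
  intro κ V sf hsf
  let sf' : ∀ a, G.sub (V a) := sf
  have hcomp : ∀ a b, G.resFun (Opens.infLELeft (V a) (V b)) (sf' a) =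
      G.resFun (Opens.infLERight (V a) (V b)) (sf' b) := fun a b => hsf a b
  have key : ∀ i, ∃! s : Γ(G.N i, iSup V ⊓ G.U i), ∀ a, (G.N i).presheaf.map
      (homOfLE (inf_le_inf_right (G.U i) (le_iSup V a))).op s = (sf' a).1 i := fun i => by
    refine TopCat.Sheaf.existsUnique_gluing' ⟨_, (G.N i).isSheaf⟩ (fun a => V a ⊓ G.U i)
      (iSup V ⊓ G.U i) (fun a => homOfLE (inf_le_inf_right (G.U i) (le_iSup V a))) ?_
      (fun a => (sf' a).1 i) fun a b => ?_
    · rintro p ⟨hp, hpi⟩
      obtain ⟨a, ha⟩ := Opens.mem_iSup.mp hp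
      exact Opens.mem_iSup.mpr ⟨a, ha, hpi⟩
    · have hle : (V a ⊓ G.U i) ⊓ (V b ⊓ G.U i) ≤ (V a ⊓ V b) ⊓ G.U i :=
        le_inf (inf_le_inf inf_le_left inf_le_left) (inf_le_left.trans inf_le_right)
      have h1 := congrArg ((G.N i).presheaf.map (homOfLE hle).op)
        (congrFun (congrArg Subtype.val (hcomp a b)) i)
      exact ((map_map_apply (G.N i) _ (homOfLE hle) _ _).symm.trans h1).trans
        (map_map_apply (G.N i) _ _ _ _)
  choose s hs hu using key
  have hmem : s ∈ G.sub (iSup V) := fun i j W hi hj => by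
    refine TopCat.Sheaf.eq_of_locally_eq' ⟨_, (G.N j).isSheaf⟩ (fun a => W ⊓ V a) W
      (fun a => homOfLE inf_le_left) ?_ _ _ fun a => ?_
    · intro p hp
      obtain ⟨a, ha⟩ := Opens.mem_iSup.mp (hj hp).1
      exact Opens.mem_iSup.mpr ⟨a, hp, ha⟩
    · have hi' : W ⊓ V a ≤ V a ⊓ G.U i :=
        le_inf inf_le_right (inf_le_left.trans (hi.trans inf_le_right))
      have hj' : W ⊓ V a ≤ V a ⊓ G.U j :=
        le_inf inf_le_right (inf_le_left.trans (hj.trans inf_le_right))
      refine Eq.trans ?_ (G.g_map i j W _ _ _ (homOfLE inf_le_left) _).symm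
      refine (map_map_apply (G.N j) _ _ (homOfLE (inf_le_left.trans hj)) _).trans ?_
      refine ((map_map_apply (G.N j) (homOfLE (inf_le_inf_right (G.U j) (le_iSup V a)))
        (homOfLE hj') _ (s j)).symm.trans (congrArg _ (hs j a))).trans ?_
      refine ((sf' a).2 i j _ hi' hj').trans ?_
      refine congrArg _ ?_
      rw [← hs i a]
      exact (map_map_apply (G.N i) _ _ (homOfLE (inf_le_left.trans hi)) (s i)).trans
        (map_map_apply (G.N i) _ _ _ (s i)).symm
  exact ⟨(⟨s, hmem⟩ : G.sub (iSup V)), fun a => Subtype.ext (funext fun i => hs i a),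
    fun t ht => Subtype.ext (funext fun i => hu i ((t : G.sub (iSup V)).1 i) fun a =>
      congrFun (congrArg Subtype.val (ht a)) i)⟩

instance modulePsh (V : X.Opensᵒᵖ) : Module (X.ringCatSheaf.obj.obj V) (G.psh.obj V) :=
  G.moduleSub V.unop

theorem psh_map_smul ⦃V V' : X.Opensᵒᵖ⦄ (h : V ⟶ V') (r : X.ringCatSheaf.obj.obj V)
    (s : G.psh.obj V) : G.psh.map h (r • s) = X.ringCatSheaf.obj.map h r • G.psh.map h s := by
  refine Subtype.ext (funext fun i => ?_)
  refine (Scheme.Modules.map_smul (G.N i) (homOfLE (inf_le_inf_right (G.U i) h.unop.le))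
    (X.presheaf.map (homOfLE inf_le_left).op (r : Γ(X, V.unop))) _).trans ?_
  refine congrArg (fun w : Γ(X, V'.unop ⊓ G.U i) => w • (G.resFun h.unop s).1 i) ?_
  show (X.presheaf.map _ ≫ X.presheaf.map _) r = (X.presheaf.map h ≫ X.presheaf.map _) r
  rw [← Functor.map_comp, ← Functor.map_comp]
  rfl

/-- The glued sheaf of modules. -/
def glued : X.Modules where
  val := PresheafOfModules.ofPresheaf G.psh G.psh_map_smul
  isSheaf := G.isSheaf_psh

/-- The comparison with the `i`-th piece, on sections. -/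
def proj (i : G.ι) (W : X.Opens) (hW : W ≤ G.U i) : Γ(G.glued, W) →+ Γ(G.N i, W) where
  toFun s := (G.N i).presheaf.map (homOfLE (le_inf le_rfl hW)).op ((s : G.sub W).1 i)
  map_zero' := map_zero _
  map_add' _ _ := map_add _ _ _

theorem proj_map (i : G.ι) {W W' : X.Opens} (hW : W ≤ G.U i) (h : W' ⟶ W) (s : Γ(G.glued, W)) :
    (G.N i).presheaf.map h.op (G.proj i W hW s) =
      G.proj i W' (h.le.trans hW) (G.glued.presheaf.map h.op s) :=
  (map_map_apply (G.N i) _ _ (homOfLE (le_inf h.le (h.le.trans hW))) _).trans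
    (map_map_apply (G.N i) _ _ _ _).symm

theorem proj_smul (i : G.ι) {W : X.Opens} (hW : W ≤ G.U i) (r : Γ(X, W)) (s : Γ(G.glued, W)) :
    G.proj i W hW (r • s) = r • G.proj i W hW s := by
  refine (Scheme.Modules.map_smul (G.N i) _ _ _).trans ?_
  refine congrArg (fun w : Γ(X, W) => w • G.proj i W hW s) ?_
  show (X.presheaf.map _ ≫ X.presheaf.map _) r = r
  rw [← Functor.map_comp, Subsingleton.elim ((homOfLE inf_le_left).op ≫ _) (𝟙 (op W)),
    CategoryTheory.Functor.map_id]
  rfl

theorem g_proj (i j : G.ι) {W : X.Opens} (hi : W ≤ G.U i) (hj : W ≤ G.U j) (s : Γ(G.glued, W)) :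
    G.g i j W hi hj (G.proj i W hi s) = G.proj j W hj s :=
  ((s : G.sub W).2 i j W (le_inf le_rfl hi) (le_inf le_rfl hj)).symm

theorem proj_bijective (i : G.ι) {W : X.Opens} (hW : W ≤ G.U i) :
    Function.Bijective (G.proj i W hW) := by
  refine ⟨fun s t hst => Subtype.ext (funext fun j => ?_), fun x => ?_⟩
  · have h1 : ∀ s : Γ(G.glued, W), (s : G.sub W).1 j =
        G.g i j _ (inf_le_left.trans hW) inf_le_right
          ((G.N i).presheaf.map (homOfLE inf_le_left).op (G.proj i W hW s)) := fun s => by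
      refine Eq.trans ?_ (((s : G.sub W).2 i j (W ⊓ G.U j)
        (le_inf inf_le_left (inf_le_left.trans hW)) le_rfl).trans
          (congrArg _ (map_map_apply (G.N i) _ (homOfLE inf_le_left) _ _).symm))
      exact (map_self_apply (G.N j) _ _).symm
    rw [h1 s, h1 t, hst]
  · refine ⟨(⟨fun j => G.g i j _ (inf_le_left.trans hW) inf_le_right
      ((G.N i).presheaf.map (homOfLE inf_le_left).op x), fun j l W' hj hl => ?_⟩ : G.sub W), ?_⟩
    · refine (G.g_map _ _ _ _ _ _ (homOfLE hl) _).trans ?_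
      refine Eq.trans ?_ (congrArg _ (G.g_map _ _ _ _ _ _ (homOfLE hj) _).symm)
      refine Eq.trans ?_ (G.g_comp i j l W' _ _ _ _).symm
      exact congrArg _ ((map_map_apply (G.N i) _ _ (homOfLE (hl.trans inf_le_left)) x).trans
        (map_map_apply (G.N i) _ _ _ x).symm)
    · refine (G.g_map _ _ _ _ _ _ (homOfLE (le_inf le_rfl hW)) _).trans ?_
      refine (G.g_id _ _ _ _).trans ?_
      exact (map_map_apply (G.N i) _ _ (𝟙 W) x).trans (map_self_apply _ _ _)

theorem ι_image_le (i : G.ι) (V : (G.U i).toScheme.Opens) : (G.U i).ι ''ᵁ V ≤ G.U i :=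
  Scheme.Hom.image_le_opensRange _ V |>.trans_eq (Scheme.Opens.opensRange_ι _)

/-- The glued module restricts to the pieces. -/
def chartHom (i : G.ι) : G.glued.restrict (G.U i).ι ⟶ (G.N i).restrict (G.U i).ι :=
  ⟨PresheafOfModules.homMk (M₁ := (G.glued.restrict (G.U i).ι).val)
    (M₂ := ((G.N i).restrict (G.U i).ι).val)
    { app := fun V => AddCommGrpCat.ofHom (G.proj i _ (G.ι_image_le i V.unop))
      naturality := fun V V' h => by
        ext s
        exact (G.proj_map i (G.ι_image_le i V.unop)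
          ((G.U i).ι.opensFunctor.map h.unop) s).symm }
    fun V r s => G.proj_smul i (G.ι_image_le i V.unop) (((G.U i).ι.appIso V.unop).inv r) s⟩

theorem isIso_chartHom (i : G.ι) : IsIso (G.chartHom i) := by
  rw [Scheme.Modules.Hom.isIso_iff_isIso_app]
  intro V
  rw [ConcreteCategory.isIso_iff_bijective]
  exact G.proj_bijective i (G.ι_image_le i V)

/-- The identification of the glued module with a piece. -/
def chartIso (i : G.ι) : G.glued.restrict (G.U i).ι ≅ (G.N i).restrict (G.U i).ι :=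
  @asIso _ _ _ _ (G.chartHom i) (G.isIso_chartHom i)

theorem appOn_chartIso (i : G.ι) {W : X.Opens} (hW : W ≤ (G.U i).ι.opensRange)
    (s : Γ(G.glued, W)) :
    appOn (G.U i).ι (G.chartIso i).hom W hW s =
      G.proj i W (hW.trans_eq (Scheme.Opens.opensRange_ι _)) s := by
  refine (G.proj_map i (G.ι_image_le i _) (homOfLE (image_preimage_of_le _ hW).ge) _).trans ?_
  exact congrArg _ ((map_map_apply G.glued _ _ (𝟙 W) s).trans (map_self_apply _ _ _))

theorem appOn_chartIso_compat (i j : G.ι) {W : X.Opens} (hi : W ≤ (G.U i).ι.opensRange)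
    (hj : W ≤ (G.U j).ι.opensRange) (s : Γ(G.glued, W)) :
    G.g i j W (hi.trans_eq (Scheme.Opens.opensRange_ι _)) (hj.trans_eq (Scheme.Opens.opensRange_ι _))
        (appOn (G.U i).ι (G.chartIso i).hom W hi s) =
      appOn (G.U j).ι (G.chartIso j).hom W hj s := by
  rw [appOn_chartIso, appOn_chartIso, g_proj]

theorem isInvertible_glued (h : ∀ i, Scheme.Modules.IsInvertible ((G.N i).restrict (G.U i).ι)) :
    Scheme.Modules.IsInvertible G.glued := by
  refine isInvertible_of_forall_exists fun y => ?_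
  obtain ⟨j, hy⟩ := G.cover y
  obtain ⟨W, hyW, ⟨e⟩⟩ := (isInvertible_congr (G.chartIso j).symm (h j)).1 ⟨y, hy⟩
  refine ⟨_, W.ι ≫ (G.U j).ι, inferInstance, ⟨⟨⟨y, hy⟩, hyW⟩, rfl⟩, ⟨?_⟩⟩
  exact ((Scheme.Modules.pullbackComp W.ι (G.U j).ι).app _).symm ≪≫
    (Scheme.Modules.pullback W.ι).mapIso (restrictIsoPullback (G.U j).ι G.glued).symm ≪≫ e

end GlueSys

end Fermat.Agent.Jac
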