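import Fermat.Agent.Jac.Sheaf.Affine

/-!
# Invertible sheaves on affine schemes and invertible modules
-/

set_option autoImplicit false

noncomputable section

universe u

open CategoryTheory CategoryTheory.Limits AlgebraicGeometry TensorProduct
open scoped ModuleCat.Algebra

namespace Fermat.Agent.Jac

section Algebra

variable {R : Type*} [CommRing R] {M : Type*} [AddCommGroup M] [Module R M]

/-- A module which is free of rank one on a basic cover is invertible. -/
theorem moduleInvertible_of_span (s : Set R) (hs : Ideal.span s = ⊤)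
    (g : ∀ f : s, M →ₗ[R] Localization.Away f.1)
    [inst : ∀ f : s, IsLocalizedModule (Submonoid.powers f.1) (g f)] :
    Module.Invertible R M := by
  have : Module.FinitePresentation R M :=
    Module.FinitePresentation.of_localizationSpan' s hs (Rₚ := fun f => Localization.Away f.1) g
      (fun f => inferInstance)
  -- sections are detected locally
  have hzero : ∀ m : M, (∀ f : s, g f m = 0) → m = 0 := fun m hm => by
    have h1 : s ⊆ ((Submodule.span R {m}).annihilator.radical : Set R) := fun f hf => by
      have : IsLocalizedModule (Submonoid.powers f) (g ⟨f, hf⟩) := inst ⟨f, hf⟩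
      obtain ⟨⟨_, n, rfl⟩, hn⟩ :=
        (IsLocalizedModule.eq_zero_iff (Submonoid.powers f) (g ⟨f, hf⟩)).mp (hm ⟨f, hf⟩)
      exact ⟨n, (Submodule.mem_annihilator_span_singleton _ _).mpr hn⟩
    have h2 : (Submodule.span R {m}).annihilator = ⊤ :=
      Ideal.radical_eq_top.mp (top_le_iff.mp (hs ▸ Ideal.span_le.mpr h1))
    simpa using (Submodule.mem_annihilator_span_singleton m (1 : R)).mp (h2 ▸ Submodule.mem_top)
  -- the module has rank one
  have hrank : ∀ (φ : M →ₗ[R] R) (m n : M), φ m • n = φ n • m := fun φ m n => by
    rw [← sub_eq_zero]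
    refine hzero _ fun f => ?_
    have hu : ∀ x : Submonoid.powers f.1,
        IsUnit (algebraMap R (Module.End R (Localization.Away f.1)) x) :=
      IsLocalizedModule.map_units (g f)
    have e : IsLocalizedModule.lift (Submonoid.powers f.1) (g f)
        ((Algebra.linearMap R (Localization.Away f.1)) ∘ₗ φ) hu ∘ₗ g f = _ :=
      IsLocalizedModule.lift_comp _ _ _ hu
    generalize IsLocalizedModule.lift (Submonoid.powers f.1) (g f)
        ((Algebra.linearMap R (Localization.Away f.1)) ∘ₗ φ) hu = l at e
    have hl : ∀ x, l x = x * l 1 := fun x => by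
      have h := (IsLocalization.linearMap_compatibleSMul (Submonoid.powers f.1)
        (Localization.Away f.1) (Localization.Away f.1)
        (Localization.Away f.1)).map_smul l x 1
      simpa [smul_eq_mul] using h
    have hφ : ∀ x, algebraMap R (Localization.Away f.1) (φ x) = g f x * l 1 := fun x => by
      rw [← hl]; exact (LinearMap.congr_fun e x).symm
    simp only [map_sub, map_smul, Algebra.smul_def, hφ]
    ring
  -- functionals take unit values
  obtain ⟨t, ht⟩ : ∃ t, contractLeft R M t = 1 := by
    suffices h : LinearMap.range (contractLeft R M) = ⊤ from LinearMap.range_eq_top.mp h 1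
    refine Ideal.radical_eq_top.mp (top_le_iff.mp (hs ▸ Ideal.span_le.mpr fun f hf => ?_))
    have : IsLocalizedModule (Submonoid.powers f) (g ⟨f, hf⟩) := inst ⟨f, hf⟩
    obtain ⟨φ, ⟨_, c, rfl⟩, hφ⟩ := Module.FinitePresentation.exists_lift_of_isLocalizedModule
      (Submonoid.powers f) (Algebra.linearMap R (Localization.Away f)) (g ⟨f, hf⟩)
    obtain ⟨⟨m, ⟨_, k, rfl⟩⟩, hm⟩ :=
      IsLocalizedModule.surj (Submonoid.powers f) (g ⟨f, hf⟩) (1 : Localization.Away f)
    have h1 : algebraMap R (Localization.Away f) (φ m) =
        algebraMap R (Localization.Away f) (f ^ (c + k)) := by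
      have := LinearMap.congr_fun hφ m
      simp only [LinearMap.comp_apply, Algebra.linearMap_apply, LinearMap.smul_apply] at this
      rw [this, ← hm]
      simp [Algebra.smul_def, Submonoid.smul_def, pow_add]
    obtain ⟨⟨_, j, rfl⟩, hj⟩ :=
      (IsLocalization.eq_iff_exists (Submonoid.powers f) (Localization.Away f)).mp h1
    refine ⟨j + (c + k), (f ^ j • φ) ⊗ₜ m, ?_⟩
    simpa [contractLeft_apply, pow_add] using hj
  refine ⟨⟨fun x y hxy => ?_, fun r => ⟨r • t, by rw [map_smul, ht, smul_eq_mul, mul_one]⟩⟩⟩
  have key : ∀ x y : Module.Dual R M ⊗[R] M,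
      contractLeft R M y • x = contractLeft R M x • y := fun x y => by
    induction x using TensorProduct.induction_on with
    | zero => simp
    | add x x' hx hx' => simp [add_smul, hx, hx']
    | tmul ψ n =>
      induction y using TensorProduct.induction_on with
      | zero => simp
      | add y y' hy hy' => simp [add_smul, hy, hy']
      | tmul φ m =>
        have hd : φ m • ψ = ψ m • φ := LinearMap.ext fun x => by
          have h := congrArg ψ (hrank φ m x)
          simp only [map_smul, smul_eq_mul] at h
          simp only [LinearMap.smul_apply, smul_eq_mul]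
          rw [h]; ring
        rw [contractLeft_apply, contractLeft_apply, TensorProduct.smul_tmul', hd,
          TensorProduct.smul_tmul, ← hrank ψ n m, ← TensorProduct.smul_tmul,
          ← TensorProduct.smul_tmul']
  have hx := key x t
  have hy := key y t
  rw [ht, one_smul] at hx hy
  rw [hx, hy, hxy]

end Algebra

/-- Extension of scalars along an algebra map is the tensor product. -/
theorem nonempty_extendScalars_linearEquiv (R : CommRingCat.{u}) (M : ModuleCat.{u} R)
    (A : Type u) [CommRing A] [Algebra R A] :
    Nonempty ((ModuleCat.extendScalars (algebraMap R A)).obj M ≃ₗ[A] A ⊗[R] M) := by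
  let i : (ModuleCat.restrictScalars (algebraMap R A)).obj (ModuleCat.of A A) ≃ₗ[R] A :=
    { AddEquiv.refl A with map_smul' := fun r (x : A) => (Algebra.smul_def r x).symm }
  let X : ModuleCat.{u} A := (ModuleCat.extendScalars (algebraMap R A)).obj M
  let e : X ≃+ A ⊗[R] M :=
    (TensorProduct.congr i (LinearEquiv.refl R M)).toAddEquiv
  refine ⟨{ e with map_smul' := ?_ }⟩
  intro a x
  change e (a • (x : X)) = a • e x
  induction x using TensorProduct.induction_on with
  | zero =>
    exact (congrArg e (smul_zero (A := X) a)).trans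
      (e.map_zero.trans ((congrArg (a • ·) e.map_zero).trans (smul_zero a)).symm)
  | tmul s m => rfl
  | add x y hx hy =>
    exact (congrArg e (smul_add (A := X) a x y)).trans ((e.map_add _ _).trans
      ((congrArg₂ (· + ·) hx hy).trans
        ((smul_add a (e x) (e y)).symm.trans (congrArg (a • ·) (e.map_add x y).symm))))

/-- A `tilde` is trivial along `B → A` iff the base change is free of rank one. -/
theorem nonempty_pullback_tilde_iso_unit_iff {B : CommRingCat.{u}} (M : ModuleCat.{u} B)
    (A : Type u) [CommRing A] [Algebra B A] :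
    Nonempty ((Scheme.Modules.pullback (Spec.map (CommRingCat.ofHom (algebraMap B A)))).obj
        (tilde M) ≅ SheafOfModules.unit (Spec (CommRingCat.of A)).ringCatSheaf) ↔
      Nonempty (A ⊗[B] M ≃ₗ[A] A) := by
  obtain ⟨ε⟩ := nonempty_extendScalars_linearEquiv B M A
  let φ : B ⟶ CommRingCat.of A := CommRingCat.ofHom (algebraMap B A)
  constructor
  · rintro ⟨e⟩
    obtain ⟨e'⟩ := (nonempty_tilde_iso_unit_iff ((ModuleCat.extendScalars φ.hom).obj M)).mp
      ⟨(pullbackTildeIso φ M).symm ≪≫ e⟩
    exact ⟨ε.symm.trans e'.toLinearEquiv⟩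
  · rintro ⟨e⟩
    obtain ⟨e'⟩ := (nonempty_tilde_iso_unit_iff ((ModuleCat.extendScalars φ.hom).obj M)).mpr
      ⟨(ε.trans e).toModuleIso⟩
    exact ⟨pullbackTildeIso φ M ≪≫ e'⟩

/-- Global sections of an invertible sheaf on `Spec B` form an invertible module. -/
theorem moduleInvertible_ΓMod {B : CommRingCat.{u}} {L : (Spec B).Modules}
    (h : Scheme.Modules.IsInvertible L) : Module.Invertible B (ΓMod L) := by
  obtain ⟨s, hs, hf⟩ := exists_span_eq_top_trivial h
  have he : ∀ f : s, Nonempty (Localization.Away f.1 ⊗[B] ΓMod L ≃ₗ[Localization.Away f.1]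
      Localization.Away f.1) := fun f =>
    (nonempty_pullback_tilde_iso_unit_iff (ΓMod L) (Localization.Away f.1)).mp
      ((hf f.1 f.2).map fun e =>
        (Scheme.Modules.pullback _).mapIso (tildeΓIso h) ≪≫ e)
  let g : ∀ f : s, ΓMod L →ₗ[B] Localization.Away f.1 := fun f =>
    ((he f).some.restrictScalars B).toLinearMap ∘ₗ
      TensorProduct.mk B (Localization.Away f.1) (ΓMod L) 1
  have : ∀ f : s, IsLocalizedModule (Submonoid.powers f.1) (g f) := fun f =>
    IsLocalizedModule.of_linearEquiv _ _ _
  exact moduleInvertible_of_span s hs g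

/-- `tilde` of an invertible module is an invertible sheaf. -/
theorem isInvertible_tilde {B : CommRingCat.{u}} (M : ModuleCat.{u} B) [Module.Invertible B M] :
    Scheme.Modules.IsInvertible (tilde M) := by
  obtain ⟨s, hs, hfree⟩ := Module.Invertible.exists_finset_free_localization (R := B) (M := M)
  refine isInvertible_of_forall_exists fun p => ?_
  obtain ⟨f, hf, hpf⟩ : ∃ f ∈ s, f ∉ p.asIdeal := by
    by_contra hc
    push Not at hc
    exact p.2.ne_top (top_le_iff.mp (hs ▸ Ideal.span_le.mpr hc))
  refine ⟨_, Spec.map (CommRingCat.ofHom (algebraMap B (Localization.Away f))),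
    IsOpenImmersion.of_isLocalization f, ?_, ?_⟩
  · exact (PrimeSpectrum.localization_away_comap_range (Localization.Away f) f).symm.subset hpf
  · refine (nonempty_pullback_tilde_iso_unit_iff M (Localization.Away f)).mpr ?_
    have := hfree f hf
    obtain ⟨e⟩ := (Module.Invertible.free_iff_linearEquiv
      (R := Localization.Away f) (M := LocalizedModule.Away f M)).mp inferInstance
    exact ⟨(LocalizedModule.equivTensorProduct _ M).symm.trans e⟩

/-- An invertible sheaf on `Spec B` is trivial iff its module of sections is. -/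
theorem nonempty_iso_iff_ΓMod {B : CommRingCat.{u}} {L L' : (Spec B).Modules}
    (h : Scheme.Modules.IsInvertible L) (h' : Scheme.Modules.IsInvertible L') :
    Nonempty (L ≅ L') ↔ Nonempty (ΓMod L ≅ ΓMod L') :=
  ⟨fun ⟨e⟩ => ⟨(moduleSpecΓFunctor (R := B)).mapIso e⟩,
    fun ⟨e⟩ => ⟨(tildeΓIso h).symm ≪≫ (tilde.functor B).mapIso e ≪≫ tildeΓIso h'⟩⟩

/-- An invertible sheaf on `Spec B` and its pullback, in terms of modules. -/
def ΓPullbackIso {B B' : CommRingCat.{u}} (φ : B ⟶ B') {L : (Spec B).Modules}
    (h : Scheme.Modules.IsInvertible L) :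
    ΓMod ((Scheme.Modules.pullback (Spec.map φ)).obj L) ≅
      (ModuleCat.extendScalars φ.hom).obj (ΓMod L) :=
  (moduleSpecΓFunctor (R := B')).mapIso
      ((Scheme.Modules.pullback (Spec.map φ)).mapIso (tildeΓIso h).symm ≪≫
        pullbackTildeIso φ (ΓMod L)) ≪≫ ΓTildeIso _

end Fermat.Agent.Jac
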