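import Fermat.Agent.Jac.Sheaf.Restrict
import Fermat.Agent.Jac.Sheaf.GlueObj

/-!
# Modules on a chart as sheaves on the whole scheme
-/

set_option autoImplicit false

noncomputable section

universe u

open CategoryTheory CategoryTheory.Limits AlgebraicGeometry Opposite TopologicalSpace

namespace Fermat.Agent.Jac

variable {X : Scheme.{u}} {A B : CommRingCat.{u}}

/-- `tilde M` on a chart, pushed forward. -/
def pushTilde (J : Spec A ⟶ X) (M : ModuleCat.{u} A) : X.Modules :=
  (Scheme.Modules.pushforward J).obj (tilde M)

variable (J : Spec A ⟶ X) [IsOpenImmersion J] (M : ModuleCat.{u} A)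

/-- On its chart it is `tilde M`. -/
def pushTildeRestrictIso : (pushTilde J M).restrict J ≅ tilde M :=
  (asIso (Scheme.Modules.restrictAdjunction J).counit).app (tilde M)

theorem isInvertible_pushTilde_restrict [Module.Invertible A M] :
    Scheme.Modules.IsInvertible ((pushTilde J M).restrict J) :=
  isInvertible_congr (pushTildeRestrictIso J M).symm (isInvertible_tilde M)

theorem isInvertible_pushTilde_restrict_le [Module.Invertible A M] {φ : A ⟶ B}
    (K : Spec B ⟶ X) [IsOpenImmersion K] (h : Spec.map φ ≫ J = K) :
    Scheme.Modules.IsInvertible ((pushTilde J M).restrict K) := by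
  have hφ : IsOpenImmersion (Spec.map φ) := by
    have : IsOpenImmersion (Spec.map φ ≫ J) := h ▸ inferInstance
    exact IsOpenImmersion.of_comp (Spec.map φ) J
  subst h
  exact isInvertible_congr ((Scheme.Modules.restrictFunctorComp (Spec.map φ) J).app _).symm
    (isInvertible_restrict (Spec.map φ) (isInvertible_pushTilde_restrict J M))

/-- The sections of `pushTilde` on its chart. -/
def pushTildeSecEquiv : Sec J (pushTilde J M) ≃ₗ[A] M :=
  ((moduleSpecΓFunctor (R := A)).mapIso (pushTildeRestrictIso J M) ≪≫ ΓTildeIso M).toLinearEquiv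

/-- A semilinear bijection on sections gives a linear equivalence on `Sec`. -/
def secEquivOfBijective {L L' : X.Modules} (f : Γ(L, chartOpen J) →+ Γ(L', chartOpen J))
    (hf : ∀ (r : Γ(X, chartOpen J)) (x : Γ(L, chartOpen J)), f (r • x) = r • f x)
    (hb : Function.Bijective f) : Sec J L ≃ₗ[A] Sec J L' :=
  LinearEquiv.ofBijective
    ({ toFun := fun x => secEquiv J L' (f ((secEquiv J L).symm x))
       map_add' := fun x y => (congrArg (secEquiv J L')
         (map_add f ((secEquiv J L).symm x) ((secEquiv J L).symm y))).trans
           ((secEquiv J L').map_add _ _)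
       map_smul' := fun r x => congrArg (secEquiv J L') (hf (chartRing J r) ((secEquiv J L).symm x)) } :
      Sec J L →ₗ[A] Sec J L')
    hb

theorem secEquivOfBijective_apply {L L' : X.Modules} (f : Γ(L, chartOpen J) →+ Γ(L', chartOpen J))
    (hf : ∀ (r : Γ(X, chartOpen J)) (x : Γ(L, chartOpen J)), f (r • x) = r • f x)
    (hb : Function.Bijective f) (x : Sec J L) :
    secEquivOfBijective J f hf hb x = secEquiv J L' (f ((secEquiv J L).symm x)) := rfl

end Fermat.Agent.Jac
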