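import Fermat.Agent.Jac.Sheaf.Chart

/-!
# Restriction between nested charts, and its compatibilities
-/

set_option autoImplicit false

noncomputable section

universe u

open CategoryTheory CategoryTheory.Limits AlgebraicGeometry Opposite TopologicalSpace

namespace Fermat.Agent.Jac

variable {X X' : Scheme.{u}} {A B A' B' : CommRingCat.{u}}

theorem map_map_apply (M : X.Modules) {U V W : X.Opens} (i : V ⟶ U) (j : W ⟶ V) (k : W ⟶ U)
    (x : Γ(M, U)) : M.presheaf.map j.op (M.presheaf.map i.op x) = M.presheaf.map k.op x := by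
  rw [← ConcreteCategory.comp_apply, ← Functor.map_comp]
  rfl

theorem sq_id {φ : A ⟶ B} {J : Spec A ⟶ X} {J' : Spec B ⟶ X} (h : Spec.map φ ≫ J = J') :
    J' ≫ 𝟙 X = Spec.map φ ≫ J := by
  rw [Category.comp_id, h]

section Res

variable {φ : A ⟶ B} (J : Spec A ⟶ X) (J' : Spec B ⟶ X) [IsOpenImmersion J] [IsOpenImmersion J']
  (h : Spec.map φ ≫ J = J')

include h in
theorem chartOpen_le : chartOpen J' ≤ chartOpen J :=
  (chartOpen_le_preimage (𝟙 X) J J' (sq_id h))

include h in
theorem map_chartRing (a : A) :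
    X.presheaf.map (homOfLE (chartOpen_le J J' h)).op (chartRing J a) = chartRing J' (φ a) := by
  have e : chartRing J ≫ X.presheaf.map (homOfLE (chartOpen_le J J' h)).op =
      φ ≫ chartRing J' := by
    rw [← chartRing_comp_appLE (𝟙 X) J J' (sq_id h)]
    simp only [Scheme.Hom.appLE, Scheme.Hom.id_app]
    exact congrArg (chartRing J ≫ ·) (Category.id_comp _).symm
  exact congr(($e).hom a)

/-- Restriction of sections to a smaller chart. -/
def resMap (L : X.Modules) : Sec J L →ₛₗ[φ.hom] Sec J' L where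
  toFun x := secEquiv J' L
    (L.presheaf.map (homOfLE (chartOpen_le J J' h)).op ((secEquiv J L).symm x))
  map_add' x y := (congrArg (secEquiv J' L) (map_add (L.presheaf.map
    (homOfLE (chartOpen_le J J' h)).op).hom ((secEquiv J L).symm x) ((secEquiv J L).symm y))).trans
    ((secEquiv J' L).map_add _ _)
  map_smul' a x :=
    (congrArg (secEquiv J' L) (Scheme.Modules.map_smul L (homOfLE (chartOpen_le J J' h))
      (chartRing J a) ((secEquiv J L).symm x))).trans
    (congrArg (fun r => secEquiv J' L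
      (r • L.presheaf.map (homOfLE (chartOpen_le J J' h)).op ((secEquiv J L).symm x)))
      (map_chartRing J J' h a))

theorem resMap_apply (L : X.Modules) (x : Γ(L, chartOpen J)) :
    resMap J J' h L (secEquiv J L x) =
      secEquiv J' L (L.presheaf.map (homOfLE (chartOpen_le J J' h)).op x) := rfl

/-- A morphism of sheaves on the sections of a chart. -/
def secMap {L L' : X.Modules} (f : L ⟶ L') : Sec J L →ₗ[A] Sec J L' :=
  ((moduleSpecΓFunctor (R := A)).map ((Scheme.Modules.restrictFunctor J).map f)).hom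

theorem secMap_apply {L L' : X.Modules} (f : L ⟶ L') (x : Γ(L, chartOpen J)) :
    secMap J f (secEquiv J L x) = secEquiv J L' (f.app (chartOpen J) x) := rfl

theorem secMap_id (L : X.Modules) (x : Sec J L) : secMap J (𝟙 L) x = x := rfl

theorem secMap_comp {L L' L'' : X.Modules} (f : L ⟶ L') (g : L' ⟶ L'') (x : Sec J L) :
    secMap J (f ≫ g) x = secMap J g (secMap J f x) := rfl

/-- An isomorphism of sheaves on the sections of a chart. -/
def secIso {L L' : X.Modules} (f : L ≅ L') : Sec J L ≃ₗ[A] Sec J L' :=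
  (((Scheme.Modules.restrictFunctor J) ⋙ moduleSpecΓFunctor (R := A)).mapIso f).toLinearEquiv

theorem secIso_apply {L L' : X.Modules} (f : L ≅ L') (x : Sec J L) :
    secIso J f x = secMap J f.hom x := rfl

theorem resMap_secMap {L L' : X.Modules} (f : L ⟶ L') (x : Sec J L) :
    resMap J J' h L' (secMap J f x) = secMap J' f (resMap J J' h L x) :=
  (congr($(f.mapPresheaf.naturality (homOfLE (chartOpen_le J J' h)).op).hom
    ((secEquiv J L).symm x))).symm

end Res

theorem resMap_resMap {C : CommRingCat.{u}} {φ : A ⟶ B} {φ' : B ⟶ C} {φ'' : A ⟶ C}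
    (J : Spec A ⟶ X) (J' : Spec B ⟶ X) (J'' : Spec C ⟶ X) [IsOpenImmersion J] [IsOpenImmersion J']
    [IsOpenImmersion J''] (h : Spec.map φ ≫ J = J') (h' : Spec.map φ' ≫ J' = J'')
    (h'' : Spec.map φ'' ≫ J = J'') (L : X.Modules) (x : Sec J L) :
    resMap J' J'' h' L (resMap J J' h L x) = resMap J J'' h'' L x := by
  show (L.presheaf.map _) ((L.presheaf.map _) _) = (L.presheaf.map _) _
  rw [← ConcreteCategory.comp_apply, ← Functor.map_comp]
  rfl

theorem pullMap_secMap {φ : A ⟶ A'} (ψ : X' ⟶ X) (J : Spec A ⟶ X) (J' : Spec A' ⟶ X')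
    [IsOpenImmersion J] [IsOpenImmersion J'] (sq : J' ≫ ψ = Spec.map φ ≫ J) {L L₂ : X.Modules}
    (f : L ⟶ L₂) (x : Sec J L) :
    pullMap ψ J J' sq L₂ (secMap J f x) =
      secMap J' ((Scheme.Modules.pullback ψ).map f) (pullMap ψ J J' sq L x) := by
  have h1 := congr(($((Scheme.Modules.pullbackPushforwardAdjunction ψ).unit.naturality f)).app
    (chartOpen J) ((secEquiv J L).symm x))
  exact (congrArg (((Scheme.Modules.pullback ψ).obj L₂).presheaf.map
      (homOfLE (chartOpen_le_preimage ψ J J' sq)).op) h1).trans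
    (congr($(((Scheme.Modules.pullback ψ).map f).mapPresheaf.naturality
      (homOfLE (chartOpen_le_preimage ψ J J' sq)).op).hom
      (((Scheme.Modules.pullbackPushforwardAdjunction ψ).unit.app L).app (chartOpen J)
        ((secEquiv J L).symm x)))).symm

theorem pullMap_resMap {φ₀ : A ⟶ B} {φ₀' : A' ⟶ B'} {φ : A ⟶ A'} {φ₁ : B ⟶ B'}
    (ψ : X' ⟶ X) (J : Spec A ⟶ X) (K : Spec B ⟶ X) (J' : Spec A' ⟶ X') (K' : Spec B' ⟶ X')
    [IsOpenImmersion J] [IsOpenImmersion K] [IsOpenImmersion J'] [IsOpenImmersion K']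
    (h : Spec.map φ₀ ≫ J = K) (h' : Spec.map φ₀' ≫ J' = K')
    (sq : J' ≫ ψ = Spec.map φ ≫ J) (sq₁ : K' ≫ ψ = Spec.map φ₁ ≫ K) (L : X.Modules)
    (x : Sec J L) :
    pullMap ψ K K' sq₁ L (resMap J K h L x) = resMap J' K' h' _ (pullMap ψ J J' sq L x) := by
  let L' := (Scheme.Modules.pullback ψ).obj L
  let η := (Scheme.Modules.pullbackPushforwardAdjunction ψ).unit.app L
  have h1 := congr($(η.mapPresheaf.naturality (homOfLE (chartOpen_le J K h)).op).hom
    ((secEquiv J L).symm x))
  refine (congrArg (L'.presheaf.map (homOfLE (chartOpen_le_preimage ψ K K' sq₁)).op) h1).trans ?_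
  exact (map_map_apply L' _ _ (homOfLE ((chartOpen_le_preimage ψ K K' sq₁).trans
    (fun _ hp => chartOpen_le J K h hp))) _).trans (map_map_apply L' _ _ _ _).symm

section Localization

variable {φ : A ⟶ B} (a : A) (hloc : @IsLocalization.Away A _ a B _ φ.hom.toAlgebra)
  (J : Spec A ⟶ X) (J' : Spec B ⟶ X) [IsOpenImmersion J] [IsOpenImmersion J']
  (h : Spec.map φ ≫ J = J') (L : X.Modules) (hL : Scheme.Modules.IsInvertible (L.restrict J))

include hloc h in
theorem image_basicOpen_eq : J ''ᵁ PrimeSpectrum.basicOpen a = chartOpen J' := by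
  let _ := φ.hom.toAlgebra
  have hr := PrimeSpectrum.localization_away_comap_range B a
  ext x
  constructor
  · rintro ⟨p, hp, rfl⟩
    obtain ⟨q, hq⟩ := hr.symm.subset hp
    refine ⟨q, trivial, ?_⟩
    subst h
    exact congrArg J hq
  · rintro ⟨q, -, rfl⟩
    refine ⟨Spec.map φ q, hr.subset ⟨q, rfl⟩, ?_⟩
    subst h
    rfl

include hL in
theorem isLocalizing_restrict :
    IsLocalizing ((modulesSpecToSheaf (R := A)).obj (L.restrict J)) :=
  (isIso_fromTildeΓ_iff_isLocalizing _).mp
    (by
      have := isQuasicoherent_of_isInvertible hL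
      exact Scheme.Modules.isIso_fromTildeΓ_of_isQuasicoherent (L.restrict J))

include hloc hL in
theorem resMap_eq_zero {x : Sec J L} (hx : resMap J J' h L x = 0) : ∃ n : ℕ, a ^ n • x = 0 := by
  have := isLocalizing_restrict J L hL a
  obtain ⟨⟨_, n, rfl⟩, hn⟩ := (IsLocalizedModule.eq_zero_iff (Submonoid.powers a)
    (((modulesSpecToSheaf (R := A)).obj (L.restrict J)).obj.map
      (PrimeSpectrum.basicOpen a).leTop.op).hom (m := x)).mp (by
    refine (ConcreteCategory.injective_of_mono_of_preservesPullback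
      (L.presheaf.map (eqToHom (image_basicOpen_eq a hloc J J' h).symm).op)) ?_
    refine Eq.trans ?_ (map_zero _).symm
    show (L.presheaf.map _) ((L.presheaf.map _) ((secEquiv J L).symm x)) = 0
    rw [← ConcreteCategory.comp_apply, ← Functor.map_comp]
    exact hx)
  exact ⟨n, hn⟩

include hloc hL in
theorem exists_resMap_eq (z : Sec J' L) : ∃ (n : ℕ) (x : Sec J L),
    resMap J J' h L x = φ a ^ n • z := by
  have := isLocalizing_restrict J L hL a
  let e := L.presheaf.map (eqToHom (image_basicOpen_eq a hloc J J' h)).op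
  obtain ⟨⟨x, ⟨_, n, rfl⟩⟩, hn⟩ := IsLocalizedModule.surj (Submonoid.powers a)
    (((modulesSpecToSheaf (R := A)).obj (L.restrict J)).obj.map
      (PrimeSpectrum.basicOpen a).leTop.op).hom (e ((secEquiv J' L).symm z))
  refine ⟨n, x, ?_⟩
  have hle : J ''ᵁ PrimeSpectrum.basicOpen a ≤ chartOpen J := J.image_mono le_top
  have hn' : L.presheaf.map (homOfLE hle).op ((secEquiv J L).symm x) =
      X.presheaf.map (homOfLE hle).op (chartRing J (a ^ n)) • e ((secEquiv J' L).symm z) := by
    refine hn.symm.trans ?_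
    exact congrArg (fun w : Γ(X, J ''ᵁ PrimeSpectrum.basicOpen a) =>
        w • e ((secEquiv J' L).symm z))
      congr($(J.appIso_inv_naturality (PrimeSpectrum.basicOpen a).leTop.op).hom
        ((Scheme.ΓSpecIso A).inv (a ^ n)))
  refine Eq.trans ?_ ((secEquiv_smul J' L (φ (a ^ n)) ((secEquiv J' L).symm z)).trans
    (congrArg (fun w => w • z) (map_pow φ.hom a n)))
  show secEquiv J' L (L.presheaf.map _ ((secEquiv J L).symm x)) = _
  refine congrArg (secEquiv J' L) ?_
  refine (ConcreteCategory.injective_of_mono_of_preservesPullback e) ?_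
  refine Eq.trans ?_ (Scheme.Modules.map_smul L (eqToHom (image_basicOpen_eq a hloc J J' h))
    (chartRing J' (φ (a ^ n))) _).symm
  rw [← map_chartRing J J' h (a ^ n), ← ConcreteCategory.comp_apply, ← Functor.map_comp,
    ← ConcreteCategory.comp_apply, ← Functor.map_comp]
  exact hn'

end Localization

end Fermat.Agent.Jac
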