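import Fermat.Agent.Jac.Sheaf.SecHom

/-!
# Rigidifications on sections

For a section `σ` of `p : X ⟶ T`, a rigidification of `M` over `U ⊆ T` is a morphism `ρ` from `M`
to `σ_* O_T` over `p⁻¹ U` sending frames to units.  Normalised isomorphisms are unique.
-/

set_option autoImplicit false

noncomputable section

universe u

open CategoryTheory CategoryTheory.Limits AlgebraicGeometry Opposite TopologicalSpace

namespace Fermat.Agent.Jac

variable {X T : Scheme.{u}}

/-- `σ_* O_T`. -/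
def pushUnit (σ : T ⟶ X) : X.Modules := (Scheme.Modules.pushforward σ).obj (unitMod T)

/-- A section of `σ_* O_T` as a function. -/
def pushVal (σ : T ⟶ X) {V : X.Opens} : Γ(pushUnit σ, V) ≃+ Γ(T, σ ⁻¹ᵁ V) := AddEquiv.refl _

theorem pushVal_smul (σ : T ⟶ X) {V : X.Opens} (r : Γ(X, V)) (z : Γ(pushUnit σ, V)) :
    pushVal σ (r • z) = σ.app V r * pushVal σ z := rfl

theorem pushVal_map (σ : T ⟶ X) {V V' : X.Opens} (h : V' ≤ V) (z : Γ(pushUnit σ, V)) :
    pushVal σ ((pushUnit σ).presheaf.map (homOfLE h).op z) =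
      T.presheaf.map (homOfLE (σ.preimage_mono h)).op (pushVal σ z) := rfl

variable (σ : T ⟶ X) (p : X ⟶ T) (hσp : σ ≫ p = 𝟙 T)

include hσp in
theorem preimage_le_of_le {U : T.Opens} {V : X.Opens} (hV : V ≤ p ⁻¹ᵁ U) : σ ⁻¹ᵁ V ≤ U := fun x hx => by
  have h := hV hx
  rwa [Scheme.Hom.mem_preimage, show p (σ x) = x from congr($hσp x)] at h

include hσp in
theorem mem_preimage_section {U : T.Opens} {t : T} (ht : t ∈ U) : σ t ∈ p ⁻¹ᵁ U := by
  rwa [Scheme.Hom.mem_preimage, show p (σ t) = t from congr($hσp t)]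

include hσp in
theorem app_section {U : T.Opens} {V : X.Opens} (hV : V ≤ p ⁻¹ᵁ U) (b : Γ(T, U)) :
    σ.app V (X.presheaf.map (homOfLE hV).op (p.app U b)) =
      T.presheaf.map (homOfLE (preimage_le_of_le σ p hσp hV)).op b := by
  show (p.app U ≫ X.presheaf.map (homOfLE hV).op ≫ σ.app V) b = _
  have h : p.app U ≫ X.presheaf.map (homOfLE hV).op ≫ σ.app V =
      T.presheaf.map (homOfLE (preimage_le_of_le σ p hσp hV)).op := by
    have := Scheme.Hom.appLE_comp_appLE σ p U V (σ ⁻¹ᵁ V) hV le_rfl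
    simp only [hσp] at this
    simp only [Scheme.Hom.appLE] at this
    simp [Category.assoc] at this ⊢
    exact this.trans (Category.id_comp _)
  exact congr($(h).hom b)

/-- A rigidification over `U`. -/
structure RigOn (M : X.Modules) (U : T.Opens) where
  hom : SecHom M (pushUnit σ) (p ⁻¹ᵁ U)
  frames : ∀ x ∈ p ⁻¹ᵁ U, ∃ (V : X.Opens) (e : Γ(M, V)), x ∈ V ∧ V ≤ p ⁻¹ᵁ U ∧ IsFrame e
  unit : ∀ (V : X.Opens) (hV : V ≤ p ⁻¹ᵁ U) (e : Γ(M, V)), IsFrame e →
    IsUnit (pushVal σ (hom.app V hV e))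

variable {σ p}
variable {M M' : X.Modules} {U U' : T.Opens}

/-- Restriction of a rigidification. -/
def RigOn.res (r : RigOn σ p M U) (h : U' ≤ U) : RigOn σ p M U' where
  hom := r.hom.res (p.preimage_mono h)
  frames x hx := by
    obtain ⟨V, e, hxV, -, he⟩ := r.frames x (p.preimage_mono h hx)
    exact ⟨V ⊓ p ⁻¹ᵁ U', _, ⟨hxV, hx⟩, inf_le_right, he.res inf_le_left⟩
  unit V hV e he := r.unit V _ e he

include hσp in
/-- Every morphism to `σ_* O_T` is a multiple of the rigidification. -/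
theorem RigOn.existsUnique_scalar (r : RigOn σ p M U) (H : SecHom M (pushUnit σ) (p ⁻¹ᵁ U)) :
    ∃! a : Γ(T, U), ∀ (V : X.Opens) (hV : V ≤ p ⁻¹ᵁ U) (x : Γ(M, V)),
      pushVal σ (H.app V hV x) =
        T.presheaf.map (homOfLE (preimage_le_of_le σ p hσp hV)).op a * pushVal σ (r.hom.app V hV x) := by
  choose V e hmV hVP he using fun t : U => r.frames _ (mem_preimage_section σ p hσp t.2)
  have hu : ∀ t, IsUnit (pushVal σ (r.hom.app (V t) (hVP t) (e t))) := fun t => r.unit _ _ _ (he t)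
  let a : ∀ t, Γ(T, σ ⁻¹ᵁ V t) := fun t =>
    pushVal σ (H.app (V t) (hVP t) (e t)) * ((hu t).unit⁻¹ : (Γ(T, σ ⁻¹ᵁ V t))ˣ)
  have hmul : ∀ (f : SecHom M (pushUnit σ) (p ⁻¹ᵁ U)) (t : U) (W : X.Opens) (hW : W ≤ V t)
      (s : Γ(X, W)) (x : Γ(M, W)),
      f.app W (hW.trans (hVP t)) x =
          s • (pushUnit σ).presheaf.map (homOfLE hW).op (f.app (V t) (hVP t) (e t)) →
        pushVal σ (f.app W (hW.trans (hVP t)) x) = σ.app W s *
          T.presheaf.map (homOfLE (σ.preimage_mono hW)).op (pushVal σ (f.app (V t) (hVP t) (e t))) :=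
    fun f t W hW s x h => by rw [h, pushVal_smul, pushVal_map]
  have hloc : ∀ (t : U) (W : X.Opens) (hW : W ≤ V t) (x : Γ(M, W)),
      pushVal σ (H.app W (hW.trans (hVP t)) x) =
        T.presheaf.map (homOfLE (σ.preimage_mono hW)).op (a t) *
          pushVal σ (r.hom.app W (hW.trans (hVP t)) x) := fun t W hW x => by
    obtain ⟨s, hs, hH⟩ := eq_smul_of_frame (he t) H (hVP t) hW x
    have hr : r.hom.app W (hW.trans (hVP t)) x =
        s • (pushUnit σ).presheaf.map (homOfLE hW).op (r.hom.app (V t) (hVP t) (e t)) := by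
      rw [r.hom.app_map _ W (hVP t) (homOfLE hW) (e t), ← r.hom.app_smul]
      exact congrArg _ hs
    rw [hmul H t W hW s x hH, hmul r.hom t W hW s x hr, mul_left_comm, ← map_mul]
    simp only [a, mul_assoc, IsUnit.val_inv_mul, mul_one]
  obtain ⟨A, hA, hA'⟩ := TopCat.Sheaf.existsUnique_gluing' T.sheaf (fun t : U => σ ⁻¹ᵁ V t) U
    (fun t => homOfLE (preimage_le_of_le σ p hσp (hVP t)))
    (fun t ht => Opens.mem_iSup.mpr ⟨⟨t, ht⟩, hmV ⟨t, ht⟩⟩) a fun t t' => by
      let W := V t ⊓ V t'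
      let x := M.presheaf.map (homOfLE (inf_le_left : W ≤ V t)).op (e t)
      refine IsUnit.mul_right_cancel (r.unit W (inf_le_left.trans (hVP t)) x ((he t).res inf_le_left)) ?_
      exact (hloc t W inf_le_left x).symm.trans (hloc t' W inf_le_right x)
  refine ⟨A, fun W hW x => ?_, fun B hB => hA' B fun t => ?_⟩
  · refine TopCat.Sheaf.eq_of_locally_eq' T.sheaf (fun t : U => σ ⁻¹ᵁ (W ⊓ V t)) (σ ⁻¹ᵁ W)
      (fun t => homOfLE (σ.preimage_mono inf_le_left))
      (fun s hs => Opens.mem_iSup.mpr ⟨⟨s, preimage_le_of_le σ p hσp hW hs⟩, hs,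
        hmV ⟨s, preimage_le_of_le σ p hσp hW hs⟩⟩) _ _ fun t => ?_
    refine ((pushVal_map σ (inf_le_left : W ⊓ V t ≤ W) (H.app W hW x)).symm).trans ?_
    rw [H.app_map]
    refine (hloc t _ inf_le_right _).trans ?_
    refine Eq.trans ?_ (map_mul (T.presheaf.map
      (homOfLE (σ.preimage_mono (inf_le_left : W ⊓ V t ≤ W))).op).hom
      (T.presheaf.map (homOfLE (preimage_le_of_le σ p hσp hW)).op A)
      (pushVal σ (r.hom.app W hW x))).symm
    refine congrArg₂ (· * ·) ?_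
      ((congrArg (pushVal σ) (r.hom.app_map W _ hW (homOfLE inf_le_left) x)).symm.trans
        (pushVal_map σ inf_le_left _))
    refine (congrArg _ (hA t).symm).trans ?_
    show T.presheaf.map _ (T.presheaf.map _ A) = T.presheaf.map _ (T.presheaf.map _ A)
    exact (presheaf_map_map _ _ (homOfLE ((σ.preimage_mono inf_le_left).trans
      (preimage_le_of_le σ p hσp hW))) _).trans (presheaf_map_map _ _ _ _).symm
  · show T.presheaf.map _ B = a t
    refine IsUnit.mul_right_cancel (hu t) ((hB (V t) (hVP t) (e t)).symm.trans ?_)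
    simp only [a, mul_assoc, IsUnit.val_inv_mul, mul_one]

/-- `f` respects the rigidifications. -/
def RigOn.Compat (r : RigOn σ p M U) (r' : RigOn σ p M' U) (f : SecHom M M' (p ⁻¹ᵁ U)) : Prop :=
  ∀ (V : X.Opens) (hV : V ≤ p ⁻¹ᵁ U) (x : Γ(M, V)),
    r'.hom.app V hV (f.app V hV x) = r.hom.app V hV x

include hσp in
/-- An isomorphism can be normalised. -/
theorem RigOn.exists_compat (r : RigOn σ p M U) (r' : RigOn σ p M' U)
    (f : SecHom M M' (p ⁻¹ᵁ U)) (g : SecHom M' M (p ⁻¹ᵁ U))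
    (hgf : ∀ V hV x, g.app V hV (f.app V hV x) = x)
    (hfg : ∀ V hV x, f.app V hV (g.app V hV x) = x) :
    ∃ (f' : SecHom M M' (p ⁻¹ᵁ U)) (g' : SecHom M' M (p ⁻¹ᵁ U)),
      (∀ V hV x, g'.app V hV (f'.app V hV x) = x) ∧ (∀ V hV x, f'.app V hV (g'.app V hV x) = x) ∧
        r.Compat r' f' := by
  obtain ⟨a, ha, -⟩ := r.existsUnique_scalar hσp (f.comp r'.hom)
  obtain ⟨b, hb, -⟩ := r'.existsUnique_scalar hσp (g.comp r.hom)
  obtain ⟨c, -, hc⟩ := r.existsUnique_scalar hσp r.hom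
  have hba : b * a = 1 := (hc (b * a) fun V hV x => by
    rw [map_mul, mul_assoc, ← ha V hV x]
    refine Eq.trans ?_ (hb V hV (f.app V hV x))
    rw [SecHom.comp_app, hgf]).trans (hc 1 fun V hV x => by rw [map_one, one_mul]).symm
  refine ⟨f.scale (p.app U b), g.scale (p.app U a), fun V hV x => ?_, fun V hV x => ?_, fun V hV x => ?_⟩
  · rw [SecHom.scale_app, SecHom.scale_app, g.app_smul, hgf, smul_smul, ← map_mul, ← map_mul,
      mul_comm, hba, map_one, map_one, one_smul]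
  · rw [SecHom.scale_app, SecHom.scale_app, f.app_smul, hfg, smul_smul, ← map_mul, ← map_mul,
      hba, map_one, map_one, one_smul]
  · apply (pushVal σ).injective
    rw [SecHom.scale_app, r'.hom.app_smul, pushVal_smul, app_section σ p hσp hV]
    refine (congrArg (_ * ·) (ha V hV x)).trans ?_
    rw [← mul_assoc, ← map_mul, hba, map_one, one_mul]

include hσp in
/-- Normalised isomorphisms are unique. -/
theorem RigOn.compat_unique (hbij : Function.Bijective (p.app U)) (r : RigOn σ p M U)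
    (r' : RigOn σ p M' U) (f₁ f₂ : SecHom M M' (p ⁻¹ᵁ U)) (g : SecHom M' M (p ⁻¹ᵁ U))
    (hfg : ∀ V hV x, f₁.app V hV (g.app V hV x) = x)
    (h₁ : r.Compat r' f₁) (h₂ : r.Compat r' f₂) : f₁ = f₂ := by
  obtain ⟨α, hα⟩ := exists_scalar_endo r.frames (f₂.comp g)
  obtain ⟨a, rfl⟩ := hbij.2 α
  obtain ⟨c, -, hc⟩ := r.existsUnique_scalar hσp r.hom
  have hh : ∀ V hV (x : Γ(M, V)), g.app V hV (f₂.app V hV x) =
      X.presheaf.map (homOfLE hV).op (p.app U a) • x := fun V hV x => by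
    rw [← SecHom.comp_app, hα]; rfl
  have ha : a = 1 := (hc a fun V hV x => by
    rw [← app_section σ p hσp hV, ← pushVal_smul, ← r.hom.app_smul, ← hh V hV x,
      ← h₁ V hV (g.app V hV (f₂.app V hV x)), hfg, h₂]).trans
        (hc 1 fun V hV x => by rw [map_one, one_mul]).symm
  refine SecHom.ext' fun V hV x => ?_
  have hx : g.app V hV (f₂.app V hV x) = x := by rw [hh, ha, map_one, map_one, one_smul]
  rw [← hfg V hV (f₂.app V hV x), hx]

end Fermat.Agent.Jac
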