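import Fermat.Agent.Jac.Sheaf.Rig
import Fermat.Agent.Jac.Sheaf.Overlap

/-!
# Rigidifications and trivialisations of the pullback along the section
-/

set_option autoImplicit false

noncomputable section

universe u

open CategoryTheory CategoryTheory.Limits AlgebraicGeometry Opposite TopologicalSpace

namespace Fermat.Agent.Jac

variable {X T : Scheme.{u}} (σ : T ⟶ X) (p : X ⟶ T) (hσp : σ ≫ p = 𝟙 T)
variable {L : X.Modules} (hL : Scheme.Modules.IsInvertible L)

/-- The map to `σ_* O` adjoint to a map out of the pullback. -/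
def adjUnitHom (f : (Scheme.Modules.pullback σ).obj L ⟶ unitMod T) : L ⟶ pushUnit σ :=
  (Scheme.Modules.pullbackPushforwardAdjunction σ).homEquiv L (unitMod T) f

variable {σ} in
theorem secMap_pullMap {A A' : CommRingCat.{u}} {φ : A ⟶ A'} (J : Spec A ⟶ X) (J' : Spec A' ⟶ T)
    [IsOpenImmersion J] [IsOpenImmersion J'] (sq : J' ≫ σ = Spec.map φ ≫ J)
    (f : (Scheme.Modules.pullback σ).obj L ⟶ unitMod T) (x : Γ(L, chartOpen J)) :
    secMap J' f (pullMap σ J J' sq L (secEquiv J L x)) = secEquiv J' (unitMod T)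
      ((unitMod T).presheaf.map (homOfLE (chartOpen_le_preimage σ J J' sq)).op
        ((adjUnitHom σ f).app (chartOpen J) x)) := by
  refine congrArg (secEquiv J' (unitMod T)) ?_
  refine (congr($(f.mapPresheaf.naturality (homOfLE (chartOpen_le_preimage σ J J' sq)).op).hom
    (((Scheme.Modules.pullbackPushforwardAdjunction σ).unit.app L).app (chartOpen J) x))).trans ?_
  rw [adjUnitHom, Adjunction.homEquiv_unit]
  rfl

/-- A section of the structure sheaf on a chart, as a function. -/
def unitVal {A' : CommRingCat.{u}} (J' : Spec A' ⟶ T) [IsOpenImmersion J'] :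
    Sec J' (unitMod T) ≃+ Γ(T, chartOpen J') :=
  (secEquiv J' (unitMod T)).symm

theorem unitVal_smul {A' : CommRingCat.{u}} (J' : Spec A' ⟶ T) [IsOpenImmersion J'] (c : A')
    (z : Sec J' (unitMod T)) : unitVal J' (c • z) = chartRing J' c * unitVal J' z := rfl

theorem exists_square {V : X.Opens} {t : T} (ht : σ t ∈ V) :
    ∃ (A A' : CommRingCat.{u}) (φ : A ⟶ A') (J : Spec A ⟶ X) (J' : Spec A' ⟶ T)
      (_ : IsOpenImmersion J) (_ : IsOpenImmersion J'), J' ≫ σ = Spec.map φ ≫ J ∧
        t ∈ J'.opensRange ∧ chartOpen J ≤ V := by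
  obtain ⟨A, J, hJ, htJ, hJV⟩ := Scheme.exists_affine_mem_range_and_range_subset ht
  obtain ⟨A', J', hJ', htJ', hJ'V⟩ :=
    Scheme.exists_affine_mem_range_and_range_subset (X := T) (U := σ ⁻¹ᵁ J.opensRange) (x := t) htJ
  have hr : Set.range (J' ≫ σ) ⊆ Set.range J := by
    rintro _ ⟨y, rfl⟩
    exact hJ'V ⟨y, rfl⟩
  refine ⟨A, A', Spec.preimage (IsOpenImmersion.lift J (J' ≫ σ) hr), J, J', hJ, hJ', ?_, htJ', ?_⟩
  · rw [Spec.map_preimage, IsOpenImmersion.lift_fac]
  · rintro _ ⟨y, -, rfl⟩
    exact hJV ⟨y, rfl⟩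

include hL in
/-- A trivialisation sends frames to units. -/
theorem isUnit_adjUnitHom (r : (Scheme.Modules.pullback σ).obj L ≅ unitMod T) {V : X.Opens}
    {e : Γ(L, V)} (he : IsFrame e) : IsUnit (pushVal σ ((adjUnitHom σ r.hom).app V e)) := by
  refine T.toRingedSpace.isUnit_of_isUnit_germ _ _ fun t ht => ?_
  obtain ⟨A, A', φ, J, J', hJ, hJ', sq, htJ', hJV⟩ := exists_square σ (V := V) (t := t) ht
  let e' := L.presheaf.map (homOfLE hJV).op e
  let v : Γ(T, chartOpen J') := T.presheaf.map (homOfLE (chartOpen_le_preimage σ J J' sq)).op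
    (pushVal σ ((adjUnitHom σ r.hom).app (chartOpen J) e'))
  have hv : IsUnit v := by
    rw [← Ideal.span_singleton_eq_top, Ideal.eq_top_iff_one]
    obtain ⟨z, hz⟩ := (secIso J' r).surjective ((unitVal J').symm (1 : Γ(T, chartOpen J')))
    suffices h : ∀ w ∈ Submodule.span A' (Set.range (pullMap σ J J' sq L)),
        unitVal J' (secIso J' r w) ∈ Ideal.span {v} by
      have := h z (span_range_pullMap σ J J' sq L hL ▸ Submodule.mem_top)
      rwa [hz, AddEquiv.apply_symm_apply] at this
    intro w hw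
    induction hw using Submodule.span_induction with
    | mem w hw =>
      obtain ⟨x, rfl⟩ := hw
      obtain ⟨s, hs⟩ := (he (chartOpen J) hJV).2 ((secEquiv J L).symm x)
      have h1 := secMap_pullMap J J' sq r.hom ((secEquiv J L).symm x)
      refine Ideal.mem_span_singleton'.mpr ⟨T.presheaf.map
        (homOfLE (chartOpen_le_preimage σ J J' sq)).op (σ.app (chartOpen J) s), ?_⟩
      refine Eq.trans ?_ (congrArg (unitVal J') h1).symm
      show _ = (T.presheaf.map (homOfLE (chartOpen_le_preimage σ J J' sq)).op)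
        (pushVal σ ((adjUnitHom σ r.hom).app (chartOpen J) ((secEquiv J L).symm x)))
      rw [← hs]
      simp only [Scheme.Modules.Hom.app_smul, pushVal_smul, map_mul]
      rfl
    | zero =>
      rw [(secIso J' r).map_zero, map_zero]
      exact zero_mem (Ideal.span {v})
    | add a b _ _ ha hb =>
      rw [(secIso J' r).map_add, map_add]
      exact (Ideal.span {v}).add_mem ha hb
    | smul c a _ ha =>
      rw [(secIso J' r).map_smul, unitVal_smul]
      exact (Ideal.span {v}).mul_mem_left _ ha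
  have hle : chartOpen J' ≤ σ ⁻¹ᵁ V := (chartOpen_le_preimage σ J J' sq).trans (σ.preimage_mono hJV)
  have htc : t ∈ chartOpen J' := by
    rw [chartOpen, Scheme.Hom.image_top_eq_opensRange]; exact htJ'
  have hres : T.presheaf.map (homOfLE hle).op (pushVal σ ((adjUnitHom σ r.hom).app V e)) = v := by
    have h1 : (adjUnitHom σ r.hom).app (chartOpen J) e' =
        (pushUnit σ).presheaf.map (homOfLE hJV).op ((adjUnitHom σ r.hom).app V e) :=
      congr($((adjUnitHom σ r.hom).mapPresheaf.naturality (homOfLE hJV).op).hom e)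
    simp only [v, h1, pushVal_map]
    exact (presheaf_map_map _ _ _ _).symm
  have := hv.map (T.presheaf.germ (chartOpen J') t htc).hom
  rw [← hres] at this
  erw [T.presheaf.germ_res_apply] at this
  exact this

/-- The rigidification of a trivialisation. -/
def rigOnOfIso (hL : Scheme.Modules.IsInvertible L)
    (r : (Scheme.Modules.pullback σ).obj L ≅ unitMod T) (U : T.Opens) : RigOn σ p L U where
  hom := SecHom.ofHom (adjUnitHom σ r.hom) _
  frames x hx := exists_frame (p ⁻¹ᵁ U).ι (isInvertible_restrict _ hL)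
    (by rwa [Scheme.Opens.opensRange_ι]) (p ⁻¹ᵁ U) hx
  unit V _ e he := isUnit_adjUnitHom σ hL r he

variable {σ}

/-- A morphism of invertible sheaves on an affine scheme, bijective on global sections, is an iso. -/
theorem isIso_of_bijective_top {A : CommRingCat.{u}} {M M' : (Spec A).Modules}
    (hM : Scheme.Modules.IsInvertible M) (hM' : Scheme.Modules.IsInvertible M') (f : M ⟶ M')
    (hf : Function.Bijective (f.app ⊤)) : IsIso f := by
  let e : ΓMod M ≅ ΓMod M' :=
    (LinearEquiv.ofBijective ((moduleSpecΓFunctor (R := A)).map f).hom hf).toModuleIso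
  have : f = (isoOfΓ hM hM' e).hom :=
    hom_ext_of_app_top hM fun z => (isoOfΓ_app_top hM hM' e z).symm
  rw [this]
  infer_instance

include hσp hL in
/-- A rigidification over the whole base gives a trivialisation of the pullback. -/
theorem exists_iso_of_rigOn (r : RigOn σ p L ⊤) :
    Nonempty ((Scheme.Modules.pullback σ).obj L ≅ unitMod T) := by
  obtain ⟨ρ, hρ, -⟩ := existsUnique_glue_hom (L := L) (L' := pushUnit σ)
    (fun _ : PUnit.{u + 1} => (p ⁻¹ᵁ (⊤ : T.Opens)).ι)
    (fun x => ⟨PUnit.unit, ⟨⟨x, trivial⟩, rfl⟩⟩)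
    (fun _ => r.hom.toRestrict _ (Scheme.Opens.opensRange_ι _).le) fun i j W hi hj x => rfl
  let f := ((Scheme.Modules.pullbackPushforwardAdjunction σ).homEquiv L (unitMod T)).symm ρ
  have hf : adjUnitHom σ f = ρ := Equiv.apply_symm_apply _ _
  have hρ' : ∀ (V : X.Opens) (x : Γ(L, V)),
      ρ.app V x = r.hom.app V (fun _ _ => trivial) x := fun V x => by
    have hV : V ≤ (p ⁻¹ᵁ (⊤ : T.Opens)).ι.opensRange := by
      rw [Scheme.Opens.opensRange_ι]; exact fun _ _ => trivial
    exact (hρ PUnit.unit V hV x).trans (SecHom.appOn_toRestrict _ _ _ _ x)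
  have hiso : ∀ t : T, ∃ (A' : CommRingCat.{u}) (J' : Spec A' ⟶ T) (_ : IsOpenImmersion J'),
      t ∈ J'.opensRange ∧ IsIso ((Scheme.Modules.restrictFunctor J').map f) := by
    intro t
    obtain ⟨V, e, htV, -, he⟩ := r.frames (σ t) (mem_preimage_section σ p hσp (U := ⊤) trivial)
    obtain ⟨A, A', φ, J, J', hJ, hJ', sq, htJ', hJV⟩ := exists_square σ (V := V) (t := t) htV
    refine ⟨A', J', hJ', htJ', ?_⟩
    have h1 := isInvertible_restrict J' (hL.pullback σ)
    have h2 : Scheme.Modules.IsInvertible ((unitMod T).restrict J') :=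
      isInvertible_restrict J' (Scheme.Modules.isInvertible_unit T)
    refine isIso_of_bijective_top h1 h2 _ ?_
    have : Module.Invertible A' (Sec J' ((Scheme.Modules.pullback σ).obj L)) := moduleInvertible_ΓMod h1
    have : Module.Invertible A' (Sec J' (unitMod T)) := moduleInvertible_ΓMod h2
    refine Module.Invertible.bijective_of_surjective (f := secMap J' f) fun w => ?_
    let e' := L.presheaf.map (homOfLE hJV).op e
    let v : Γ(T, chartOpen J') := T.presheaf.map (homOfLE (chartOpen_le_preimage σ J J' sq)).op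
      (pushVal σ (r.hom.app (chartOpen J) (fun _ _ => trivial) e'))
    have hv : IsUnit v := (r.unit _ _ e' (he.res hJV)).map _
    have hw : secMap J' f (pullMap σ J J' sq L (secEquiv J L e')) =
        secEquiv J' (unitMod T) v := by
      rw [secMap_pullMap J J' sq f e', hf, hρ']
      rfl
    obtain ⟨q, hq⟩ : ∃ q : Γ(T, chartOpen J'), q * v = unitVal J' w :=
      ⟨unitVal J' w * ((hv.unit⁻¹ : _ˣ) : Γ(T, chartOpen J')),
        by rw [mul_assoc, IsUnit.val_inv_mul, mul_one]⟩
    let c : A' := (Scheme.ΓSpecIso A').hom ((J'.appIso ⊤).hom q)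
    have hc : chartRing J' c = q := by
      show (J'.appIso ⊤).inv ((Scheme.ΓSpecIso A').inv ((Scheme.ΓSpecIso A').hom
        ((J'.appIso ⊤).hom q))) = q
      rw [← ConcreteCategory.comp_apply (Scheme.ΓSpecIso A').hom, Iso.hom_inv_id,
        ConcreteCategory.id_apply, ← ConcreteCategory.comp_apply, Iso.hom_inv_id,
        ConcreteCategory.id_apply]
    refine ⟨c • pullMap σ J J' sq L (secEquiv J L e'), ?_⟩
    apply (unitVal J').injective
    rw [(secMap J' f).map_smul, unitVal_smul, hc, hw]
    exact hq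
  choose A' J' hJ' htJ' hi using hiso
  let φ : ∀ t : T, ((Scheme.Modules.pullback σ).obj L).restrict (J' t) ≅
      (unitMod T).restrict (J' t) := fun t => @asIso _ _ _ _ _ (hi t)
  obtain ⟨F, -⟩ := exists_glue_iso J' (fun t => ⟨t, htJ' t⟩) φ fun i j W hWi hWj x =>
    (appOn_restrict_map (J' i) f hWi x).trans (appOn_restrict_map (J' j) f hWj x).symm
  exact ⟨F⟩

end Fermat.Agent.Jac
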