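import Fermat.Agent.Jac.Sheaf.SecHom

/-!
# Gluing and inverting morphisms given on sections
-/

set_option autoImplicit false

noncomputable section

universe u

open CategoryTheory CategoryTheory.Limits AlgebraicGeometry Opposite TopologicalSpace

namespace Fermat.Agent.Jac.SecHom

variable {X : Scheme.{u}} {M M' : X.Modules} {P : X.Opens}

/-- Morphisms on sections glue. -/
theorem exists_glue {ι : Type u} (Q : ι → X.Opens) (hQ : ∀ i, Q i ≤ P)
    (hcov : ∀ x ∈ P, ∃ i, x ∈ Q i) (f : ∀ i, SecHom M M' (Q i))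
    (hf : ∀ (i j : ι) (V : X.Opens) (hi : V ≤ Q i) (hj : V ≤ Q j) (x : Γ(M, V)),
      (f i).app V hi x = (f j).app V hj x) :
    ∃ F : SecHom M M' P, ∀ (i : ι) (V : X.Opens) (hV : V ≤ Q i) (x : Γ(M, V)),
      F.app V (hV.trans (hQ i)) x = (f i).app V hV x := by
  have hex : ∀ (V : X.Opens), V ≤ P → ∀ x : Γ(M, V), ∃! y : Γ(M', V),
      ∀ i, M'.presheaf.map (homOfLE (inf_le_left : V ⊓ Q i ≤ V)).op y =
        (f i).app _ inf_le_right (M.presheaf.map (homOfLE inf_le_left).op x) := by
    intro V hV x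
    refine TopCat.Sheaf.existsUnique_gluing' ⟨_, M'.isSheaf⟩ (fun i => V ⊓ Q i) V
      (fun i => homOfLE inf_le_left)
      (fun p hp => Opens.mem_iSup.mpr ((hcov p (hV hp)).imp fun _ hi => ⟨hp, hi⟩))
      (fun i => (f i).app _ inf_le_right (M.presheaf.map (homOfLE inf_le_left).op x)) ?_
    intro i j
    refine ((f i).app_map _ _ inf_le_right _ _).trans ?_
    refine Eq.trans ?_ ((f j).app_map _ _ inf_le_right _ _).symm
    refine (hf i j _ _ (inf_le_right.trans inf_le_right) _).trans ?_
    exact congrArg _ ((map_map_apply M _ _ (homOfLE (inf_le_left.trans inf_le_left)) x).trans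
      (map_map_apply M _ _ _ x).symm)
  choose a ha hu using hex
  let app : ∀ V : X.Opens, V ≤ P → (Γ(M, V) →+ Γ(M', V)) := fun V hV =>
    AddMonoidHom.mk' (a V hV) fun x y => (hu V hV (x + y) _ fun i => by
      simp only [map_add, ha]).symm
  refine ⟨⟨app, fun V hV r x => ?_, fun V V' hV h x => ?_⟩, fun i V hV x => ?_⟩
  · refine (hu V hV _ (r • a V hV x) fun i => ?_).symm
    rw [Scheme.Modules.map_smul, ha, Scheme.Modules.map_smul, (f i).app_smul]
  · refine (hu V' (h.le.trans hV) (M.presheaf.map h.op x) (M'.presheaf.map h.op (a V hV x))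
      fun i => ?_)
    refine (map_map_apply M' h _ (homOfLE (inf_le_left.trans h.le)) _).trans ?_
    refine ((map_map_apply M' (homOfLE (inf_le_left : V ⊓ Q i ≤ V))
      (homOfLE (inf_le_inf_right _ h.le)) _ (a V hV x)).symm.trans
      ((congrArg _ (ha V hV x i)).trans ((f i).app_map _ _ inf_le_right _ _))).trans ?_
    exact congrArg _ ((map_map_apply M _ _ (homOfLE (inf_le_left.trans h.le)) x).trans
      (map_map_apply M h _ _ x).symm)
  · refine (hu V (hV.trans (hQ i)) x _ fun j => ?_).symm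
    refine ((f i).app_map V _ hV (homOfLE inf_le_left) x).trans ?_
    exact hf i j _ _ inf_le_right _

/-- The inverse of a bijective morphism. -/
def inverse (f : SecHom M M' P) (hf : ∀ V hV, Function.Bijective (f.app V hV)) : SecHom M' M P where
  app V hV := (AddEquiv.ofBijective (f.app V hV) (hf V hV)).symm.toAddMonoidHom
  app_smul V hV r y := by
    refine (hf V hV).1 ?_
    rw [f.app_smul]
    exact ((AddEquiv.ofBijective (f.app V hV) (hf V hV)).apply_symm_apply _).trans
      (congrArg (r • ·) ((AddEquiv.ofBijective (f.app V hV) (hf V hV)).apply_symm_apply y).symm)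
  app_map V V' hV h y := by
    refine (hf V' (h.le.trans hV)).1 ?_
    rw [← f.app_map V V' hV h]
    exact (congrArg (M'.presheaf.map h.op)
        ((AddEquiv.ofBijective (f.app V hV) (hf V hV)).apply_symm_apply y)).trans
      ((AddEquiv.ofBijective (f.app V' (h.le.trans hV)) (hf V' (h.le.trans hV))).apply_symm_apply _).symm

theorem inverse_app (f : SecHom M M' P) (hf : ∀ V hV, Function.Bijective (f.app V hV))
    (V : X.Opens) (hV : V ≤ P) (x : Γ(M, V)) : (f.inverse hf).app V hV (f.app V hV x) = x :=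
  (AddEquiv.ofBijective (f.app V hV) (hf V hV)).symm_apply_apply x

theorem app_inverse (f : SecHom M M' P) (hf : ∀ V hV, Function.Bijective (f.app V hV))
    (V : X.Opens) (hV : V ≤ P) (y : Γ(M', V)) : f.app V hV ((f.inverse hf).app V hV y) = y :=
  (AddEquiv.ofBijective (f.app V hV) (hf V hV)).apply_symm_apply y

/-- An isomorphism on sections, as an isomorphism of restrictions. -/
def toRestrictIso {Z : Scheme.{u}} (J : Z ⟶ X) [IsOpenImmersion J] (f : SecHom M M' P)
    (g : SecHom M' M P) (hgf : ∀ V hV x, g.app V hV (f.app V hV x) = x)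
    (hfg : ∀ V hV x, f.app V hV (g.app V hV x) = x) (h : J.opensRange ≤ P) :
    M.restrict J ≅ M'.restrict J where
  hom := f.toRestrict J h
  inv := g.toRestrict J h
  hom_inv_id := by
    refine Scheme.Modules.hom_ext _ _ fun V => ?_
    ext x
    exact hgf _ _ x
  inv_hom_id := by
    refine Scheme.Modules.hom_ext _ _ fun V => ?_
    ext x
    exact hfg _ _ x

theorem appOn_hom_inv {Z : Scheme.{u}} (J : Z ⟶ X) [IsOpenImmersion J]
    (e : M.restrict J ≅ M'.restrict J) (h : P ≤ J.opensRange) (V : X.Opens) (hV : V ≤ P)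
    (x : Γ(M, V)) :
    (ofAppOn J e.inv h).app V hV ((ofAppOn J e.hom h).app V hV x) = x :=
  (appOn_comp J e.hom e.inv (hV.trans h) x).trans (by rw [Iso.hom_inv_id]; exact appOn_id _ _ x)

theorem appOn_inv_hom {Z : Scheme.{u}} (J : Z ⟶ X) [IsOpenImmersion J]
    (e : M.restrict J ≅ M'.restrict J) (h : P ≤ J.opensRange) (V : X.Opens) (hV : V ≤ P)
    (x : Γ(M', V)) :
    (ofAppOn J e.hom h).app V hV ((ofAppOn J e.inv h).app V hV x) = x :=
  (appOn_comp J e.inv e.hom (hV.trans h) x).trans (by rw [Iso.inv_hom_id]; exact appOn_id _ _ x)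

end Fermat.Agent.Jac.SecHom
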