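import Fermat.Agent.Jac.Sheaf.RigPullback
import Fermat.Agent.Jac.Sheaf.SecGlue

/-!
# Rigidifications along an open immersion of bases
-/

set_option autoImplicit false

noncomputable section

universe u

open CategoryTheory CategoryTheory.Limits AlgebraicGeometry Opposite TopologicalSpace

namespace Fermat.Agent.Jac

variable {X T X' T' : Scheme.{u}}

theorem le_preimage_top (p : X ⟶ T) (V : X.Opens) : V ≤ p ⁻¹ᵁ (⊤ : T.Opens) := fun _ _ => trivial

/-- A frame of a pushforward along an open immersion is a frame of the module. -/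
theorem IsFrame.of_pushforward {j : X' ⟶ X} [IsOpenImmersion j] {M' : X'.Modules} {V : X.Opens}
    {e : Γ((Scheme.Modules.pushforward j).obj M', V)} (he : IsFrame e) :
    IsFrame (M := M') (V := j ⁻¹ᵁ V) e := fun W hW => by
  have hWV : j ''ᵁ W ≤ V := (j.image_mono hW).trans (j.image_preimage_le V)
  have eW : j ⁻¹ᵁ (j ''ᵁ W) = W := j.preimage_image_eq W
  let N := (Scheme.Modules.pushforward j).obj M'
  let r : Γ(X, j ''ᵁ W) → Γ(X', W) := fun s => X'.presheaf.map (homOfLE eW.ge).op (j.app (j ''ᵁ W) s)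
  let k : Γ(N, j ''ᵁ W) → Γ(M', W) := fun z => M'.presheaf.map (homOfLE eW.ge).op z
  have hr : Function.Bijective r := by
    have h : r = (j.appIso W).hom := by
      funext s
      have h' := congr($(Scheme.Hom.appIso_hom j W).hom s)
      exact h'.symm
    rw [h]
    exact ConcreteCategory.bijective_of_isIso _
  have hk : Function.Bijective k := by
    refine ⟨fun a b h => ?_, fun z => ⟨M'.presheaf.map (homOfLE eW.le).op z, ?_⟩⟩
    · have h1 := congrArg (M'.presheaf.map (homOfLE eW.le).op) h
      exact ((map_map_apply M' _ _ (𝟙 _) a).trans (map_self_apply M' _ a)).symm.trans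
        (h1.trans ((map_map_apply M' _ _ (𝟙 _) b).trans (map_self_apply M' _ b)))
    · exact (map_map_apply M' _ _ (𝟙 _) z).trans (map_self_apply M' _ z)
  have hcomp : (fun s : Γ(X', W) => s • M'.presheaf.map (homOfLE hW).op e) ∘ r =
      k ∘ fun s : Γ(X, j ''ᵁ W) => s • N.presheaf.map (homOfLE hWV).op e := by
    funext s
    refine Eq.trans ?_ (Scheme.Modules.map_smul M' (homOfLE eW.ge) (j.app (j ''ᵁ W) s) _).symm
    exact congrArg (fun z : Γ(M', W) => r s • z) (map_map_apply M' _ (homOfLE eW.ge) _ e).symm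
  refine (Function.Bijective.of_comp_iff _ hr).mp ?_
  rw [hcomp]
  exact hk.comp (he (j ''ᵁ W) hWV)

variable {σ : T ⟶ X} {p : X ⟶ T} {σ' : T' ⟶ X'} {p' : X' ⟶ T'} (j : X' ⟶ X) (i : T' ⟶ T)
  [IsOpenImmersion j] [IsOpenImmersion i] (sq : σ' ≫ j = i ≫ σ) (hσp : σ ≫ p = 𝟙 T)
  (hP : p ⁻¹ᵁ i.opensRange = j.opensRange) {M' : X'.Modules}

omit [IsOpenImmersion j] in
include sq hσp in
theorem image_preimage_section {V : X.Opens} (hV : V ≤ p ⁻¹ᵁ i.opensRange) :
    i ''ᵁ (σ' ⁻¹ᵁ (j ⁻¹ᵁ V)) = σ ⁻¹ᵁ V := by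
  rw [← Scheme.Hom.comp_preimage, sq, Scheme.Hom.comp_preimage,
    Scheme.Hom.image_preimage_eq_opensRange_inf]
  exact inf_eq_right.mpr (preimage_le_of_le σ p hσp hV)

omit [IsOpenImmersion j] in
include sq in
theorem app_sq {V : X.Opens} (e : i ''ᵁ (σ' ⁻¹ᵁ (j ⁻¹ᵁ V)) = σ ⁻¹ᵁ V) (r : Γ(X, V)) :
    T.presheaf.map (homOfLE e.ge).op ((i.appIso _).inv (σ'.app _ (j.app V r))) = σ.app V r := by
  have : IsIso (T.presheaf.map (homOfLE e.le).op) :=
    Subsingleton.elim (eqToHom e) (homOfLE e.le) ▸ inferInstance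
  have h : j.app V ≫ σ'.app _ ≫ (i.appIso _).inv ≫ T.presheaf.map (homOfLE e.ge).op = σ.app V := by
    rw [← cancel_mono (T.presheaf.map (homOfLE e.le).op), Category.assoc, Category.assoc,
      Category.assoc, ← Functor.map_comp, Subsingleton.elim ((homOfLE e.ge).op ≫ (homOfLE e.le).op)
        (𝟙 _), CategoryTheory.Functor.map_id, Category.comp_id,
      ← cancel_mono (i.appIso _).hom, Category.assoc, Category.assoc, Category.assoc,
      Iso.inv_hom_id, Category.comp_id, Scheme.Hom.appIso_hom', Scheme.Hom.map_appLE,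
      Scheme.Hom.app_eq_appLE, Scheme.Hom.app_eq_appLE, Scheme.Hom.app_eq_appLE,
      Scheme.Hom.appLE_comp_appLE, Scheme.Hom.appLE_comp_appLE]
    simp only [sq]
  exact congr($(h).hom r)

include sq hσp hP in
/-- A rigidification moves to the pushforward along an open immersion of bases. -/
def RigOn.push (r : RigOn σ' p' M' (⊤ : T'.Opens)) (hM' : Scheme.Modules.IsInvertible M') :
    RigOn σ p ((Scheme.Modules.pushforward j).obj M') i.opensRange where
  hom :=
    { app := fun V hV => (pushVal σ).symm.toAddMonoidHom.comp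
        ((T.presheaf.map (homOfLE (image_preimage_section j i sq hσp hV).ge).op).hom.toAddMonoidHom.comp
          ((i.appIso _).inv.hom.toAddMonoidHom.comp
            ((pushVal σ').toAddMonoidHom.comp (r.hom.app (j ⁻¹ᵁ V) (le_preimage_top p' _)))))
      app_smul := fun V hV a x => by
        apply (pushVal σ).injective
        rw [pushVal_smul]
        let x' : Γ(M', j ⁻¹ᵁ V) := x
        let w := pushVal σ' (r.hom.app (j ⁻¹ᵁ V) (le_preimage_top p' _) x')
        show T.presheaf.map _ ((i.appIso _).inv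
          (pushVal σ' (r.hom.app (j ⁻¹ᵁ V) (le_preimage_top p' _) (j.app V a • x')))) =
            σ.app V a * T.presheaf.map _ ((i.appIso _).inv w)
        rw [r.hom.app_smul, pushVal_smul, map_mul, map_mul,
          app_sq j i sq (image_preimage_section j i sq hσp hV)]
      app_map := fun V V' hV h x => by
        apply (pushVal σ).injective
        have e := image_preimage_section j i sq hσp hV
        have e' := image_preimage_section j i sq hσp (h.le.trans hV)
        have hle : σ' ⁻¹ᵁ (j ⁻¹ᵁ V') ≤ σ' ⁻¹ᵁ (j ⁻¹ᵁ V) := σ'.preimage_mono (j.preimage_mono h.le)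
        have h1 := congr($(i.appIso_inv_naturality (homOfLE hle).op).hom
          (pushVal σ' (r.hom.app (j ⁻¹ᵁ V) (le_preimage_top p' _) x)))
        have h2 := r.hom.app_map (j ⁻¹ᵁ V) (j ⁻¹ᵁ V') (le_preimage_top p' _)
          (homOfLE (j.preimage_mono h.le)) x
        refine (presheaf_map_map (homOfLE e.ge) (homOfLE (σ.preimage_mono h.le))
          (homOfLE ((σ.preimage_mono h.le).trans e.ge)) _).trans ?_
        refine Eq.trans ?_ (congrArg (T.presheaf.map (homOfLE e'.ge).op)
          (h1.symm.trans (congrArg (fun z => (i.appIso _).inv (pushVal σ' z)) h2)))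
        exact (presheaf_map_map (homOfLE (i.image_mono hle)) (homOfLE e'.ge) _ _).symm }
  frames x hx := exists_frame j
    (isInvertible_congr ((asIso (Scheme.Modules.restrictAdjunction j).counit).app M').symm hM')
    (hP ▸ hx) _ hx
  unit V hV e he :=
    ((r.unit (j ⁻¹ᵁ V) (le_preimage_top p' _) e he.of_pushforward).map
      (i.appIso _).inv.hom).map
        (T.presheaf.map (homOfLE (image_preimage_section j i sq hσp hV).ge).op).hom

end Fermat.Agent.Jac
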