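import Fermat.Agent.Jac.Sheaf.GlueObj

/-!
# Morphisms on sections inside an open set, and frames

`SecHom M M' P` is a morphism `M|P ⟶ M'|P`, given on the sections over the opens inside `P`.
-/

set_option autoImplicit false

noncomputable section

universe u

open CategoryTheory CategoryTheory.Limits AlgebraicGeometry Opposite TopologicalSpace

namespace Fermat.Agent.Jac

variable {X : Scheme.{u}}

theorem presheaf_map_map {U V W : X.Opens} (i : V ⟶ U) (j : W ⟶ V) (k : W ⟶ U) (s : Γ(X, U)) :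
    X.presheaf.map j.op (X.presheaf.map i.op s) = X.presheaf.map k.op s := by
  rw [← ConcreteCategory.comp_apply, ← Functor.map_comp]
  rfl

theorem presheaf_map_self {U : X.Opens} (i : U ⟶ U) (s : Γ(X, U)) : X.presheaf.map i.op s = s := by
  rw [Subsingleton.elim i (𝟙 U), op_id, CategoryTheory.Functor.map_id]
  rfl

/-- The structure sheaf, as a sheaf of modules. -/
def unitMod (X : Scheme.{u}) : X.Modules := SheafOfModules.unit X.ringCatSheaf

/-- A morphism on the opens inside `P`. -/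
structure SecHom (M M' : X.Modules) (P : X.Opens) where
  app : ∀ V : X.Opens, V ≤ P → (Γ(M, V) →+ Γ(M', V))
  app_smul : ∀ (V : X.Opens) (hV : V ≤ P) (r : Γ(X, V)) (x : Γ(M, V)),
    app V hV (r • x) = r • app V hV x
  app_map : ∀ (V V' : X.Opens) (hV : V ≤ P) (h : V' ⟶ V) (x : Γ(M, V)),
    M'.presheaf.map h.op (app V hV x) = app V' (h.le.trans hV) (M.presheaf.map h.op x)

namespace SecHom

variable {M M' M'' : X.Modules} {P Q : X.Opens}

theorem ext' {f g : SecHom M M' P} (h : ∀ V hV x, f.app V hV x = g.app V hV x) : f = g := by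
  obtain ⟨a, _, _⟩ := f
  obtain ⟨b, _, _⟩ := g
  obtain rfl : a = b := funext fun V => funext fun hV => AddMonoidHom.ext (h V hV)
  rfl

/-- Composition. -/
def comp (f : SecHom M M' P) (g : SecHom M' M'' P) : SecHom M M'' P where
  app V hV := (g.app V hV).comp (f.app V hV)
  app_smul V hV r x := (congrArg (g.app V hV) (f.app_smul V hV r x)).trans (g.app_smul V hV r _)
  app_map V V' hV h x := (g.app_map V V' hV h _).trans (congrArg _ (f.app_map V V' hV h x))

theorem comp_app (f : SecHom M M' P) (g : SecHom M' M'' P) (V : X.Opens) (hV : V ≤ P) (x : Γ(M, V)) :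
    (f.comp g).app V hV x = g.app V hV (f.app V hV x) := rfl

/-- The identity. -/
def idHom (M : X.Modules) (P : X.Opens) : SecHom M M P where
  app _ _ := AddMonoidHom.id _
  app_smul _ _ _ _ := rfl
  app_map _ _ _ _ _ := rfl

/-- Restriction to a smaller open. -/
def res (f : SecHom M M' P) (h : Q ≤ P) : SecHom M M' Q where
  app V hV := f.app V (hV.trans h)
  app_smul V hV := f.app_smul V (hV.trans h)
  app_map V V' hV := f.app_map V V' (hV.trans h)

/-- Multiplication by a function on `P`. -/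
def scale (a : Γ(X, P)) (f : SecHom M M' P) : SecHom M M' P where
  app V hV :=
    { toFun := fun x => X.presheaf.map (homOfLE hV).op a • f.app V hV x
      map_zero' := by rw [map_zero, smul_zero]
      map_add' := fun x y => by rw [map_add, smul_add] }
  app_smul V hV r x := by
    show X.presheaf.map (homOfLE hV).op a • f.app V hV (r • x) =
      r • (X.presheaf.map (homOfLE hV).op a • f.app V hV x)
    rw [f.app_smul, smul_comm]
  app_map V V' hV h x := by
    refine (Scheme.Modules.map_smul M' h _ _).trans ?_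
    rw [f.app_map V V' hV h x, presheaf_map_map (homOfLE hV) h (homOfLE (h.le.trans hV))]
    rfl

theorem scale_app (a : Γ(X, P)) (f : SecHom M M' P) (V : X.Opens) (hV : V ≤ P) (x : Γ(M, V)) :
    (f.scale a).app V hV x = X.presheaf.map (homOfLE hV).op a • f.app V hV x := rfl

/-- A global morphism, on sections. -/
def ofHom (f : M ⟶ M') (P : X.Opens) : SecHom M M' P where
  app V _ := (f.app V).hom
  app_smul _ _ r x := Scheme.Modules.Hom.app_smul f r x
  app_map _ _ _ h x := (congr($(f.mapPresheaf.naturality h.op).hom x)).symm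

/-- A morphism of restrictions, on sections. -/
def ofAppOn {Z : Scheme.{u}} (J : Z ⟶ X) [IsOpenImmersion J] (φ : M.restrict J ⟶ M'.restrict J)
    (h : P ≤ J.opensRange) : SecHom M M' P where
  app V hV := appOn J φ V (hV.trans h)
  app_smul V hV := appOn_smul J φ V (hV.trans h)
  app_map _ _ hV h' x := map_appOn J φ (hV.trans h) (h'.le.trans (hV.trans h)) h' x

/-- A morphism on sections, as a morphism of restrictions. -/
def toRestrict {Z : Scheme.{u}} (J : Z ⟶ X) [IsOpenImmersion J] (f : SecHom M M' P)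
    (h : J.opensRange ≤ P) : M.restrict J ⟶ M'.restrict J :=
  ⟨PresheafOfModules.homMk (M₁ := (M.restrict J).val) (M₂ := (M'.restrict J).val)
    { app := fun V => AddCommGrpCat.ofHom (f.app (J ''ᵁ V.unop) ((J.image_le_opensRange _).trans h))
      naturality := fun V V' i => by
        ext x
        exact (f.app_map (J ''ᵁ V.unop) (J ''ᵁ V'.unop) ((J.image_le_opensRange _).trans h)
          (J.opensFunctor.map i.unop) x).symm }
    fun V r x => f.app_smul (J ''ᵁ V.unop) ((J.image_le_opensRange _).trans h)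
      ((J.appIso V.unop).inv r) x⟩

theorem appOn_toRestrict {Z : Scheme.{u}} (J : Z ⟶ X) [IsOpenImmersion J] (f : SecHom M M' P)
    (h : J.opensRange ≤ P) {V : X.Opens} (hV : V ≤ J.opensRange) (x : Γ(M, V)) :
    appOn J (f.toRestrict J h) V hV x = f.app V (hV.trans h) x := by
  refine (f.app_map _ V ((J.image_le_opensRange _).trans h)
    (homOfLE (image_preimage_of_le J hV).ge) _).trans ?_
  exact congrArg _ ((map_map_apply M _ _ (𝟙 V) x).trans (map_self_apply M _ x))

theorem eq_of_locally {f g : SecHom M M' P}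
    (h : ∀ p ∈ P, ∃ V₀ : X.Opens, p ∈ V₀ ∧ ∀ (V : X.Opens) (hV : V ≤ P), V ≤ V₀ →
      ∀ x, f.app V hV x = g.app V hV x) : f = g := by
  refine ext' fun V hV x => ?_
  choose W hpW hW using fun p : V => h p.1 (hV p.2)
  refine TopCat.Sheaf.eq_of_locally_eq' ⟨_, M'.isSheaf⟩ (fun p : V => V ⊓ W p) V
    (fun p => homOfLE inf_le_left)
    (fun p hp => Opens.mem_iSup.mpr ⟨⟨p, hp⟩, hp, hpW ⟨p, hp⟩⟩) _ _ fun p => ?_
  exact (f.app_map V _ hV (homOfLE inf_le_left) x).trans
    ((hW p _ (inf_le_left.trans hV) inf_le_right _).trans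
      (g.app_map V _ hV (homOfLE inf_le_left) x).symm)

end SecHom

/-- `e` freely generates `M` on `V`. -/
def IsFrame {M : X.Modules} {V : X.Opens} (e : Γ(M, V)) : Prop :=
  ∀ (W : X.Opens) (h : W ≤ V),
    Function.Bijective fun s : Γ(X, W) => s • M.presheaf.map (homOfLE h).op e

theorem IsFrame.res {M : X.Modules} {V V' : X.Opens} {e : Γ(M, V)} (he : IsFrame e) (h : V' ≤ V) :
    IsFrame (M.presheaf.map (homOfLE h).op e) := fun W hW => by
  rw [map_map_apply M (homOfLE h) (homOfLE hW) (homOfLE (hW.trans h)) e]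
  exact he W (hW.trans h)

/-- Frames exist near every point of an invertible sheaf. -/
theorem exists_frame {M : X.Modules} {Z : Scheme.{u}} (J : Z ⟶ X) [IsOpenImmersion J]
    (hM : Scheme.Modules.IsInvertible (M.restrict J)) {p : X} (hp : p ∈ J.opensRange) (P : X.Opens)
    (hpP : p ∈ P) : ∃ (V : X.Opens) (e : Γ(M, V)), p ∈ V ∧ V ≤ P ∧ IsFrame e := by
  obtain ⟨q, rfl⟩ := hp
  obtain ⟨U, hqU, ⟨eU⟩⟩ := hM.1 q
  let K : U.toScheme ⟶ X := U.ι ≫ J
  let η : M.restrict K ≅ unitMod U.toScheme :=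
    (Scheme.Modules.restrictFunctorComp U.ι J).app M ≪≫ restrictIsoPullback U.ι (M.restrict J) ≪≫ eU
  let V₁ : U.toScheme.Opens := K ⁻¹ᵁ P
  have hV : K ''ᵁ V₁ ≤ P := K.image_preimage_le P
  let e : Γ(M, K ''ᵁ V₁) := η.inv.app V₁ (1 : Γ(U.toScheme, V₁))
  refine ⟨K ''ᵁ V₁, e, ⟨⟨q, hqU⟩, hpP, rfl⟩, hV, fun W hW => ?_⟩
  have hWK : W ≤ K.opensRange := hW.trans (K.image_le_opensRange _)
  have hW₁ : K ⁻¹ᵁ W ≤ V₁ := (K.preimage_mono hW).trans (K.preimage_image_eq V₁).le
  have eW : K ''ᵁ (K ⁻¹ᵁ W) = W := image_preimage_of_le K hWK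
  let W₁ := K ⁻¹ᵁ W
  -- multiplication by the frame, transported to `U`
  have key : ∀ s : Γ(X, K ''ᵁ W₁), η.hom.app W₁
      (s • M.presheaf.map (homOfLE (eW.le.trans hW)).op e) = (K.appIso W₁).hom s := by
    intro s
    have h1 : η.hom.app W₁ (M.presheaf.map (homOfLE (eW.le.trans hW)).op e) =
        (1 : Γ(U.toScheme, W₁)) := by
      refine (congr($(η.hom.mapPresheaf.naturality (homOfLE hW₁).op).hom e)).trans ?_
      have h2 : η.hom.app V₁ e = (1 : Γ(U.toScheme, V₁)) :=
        congr(($(η.inv_hom_id)).app V₁ (1 : Γ(U.toScheme, V₁)))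
      exact (congrArg _ h2).trans (map_one (U.toScheme.presheaf.map (homOfLE hW₁).op).hom)
    refine (congrArg (fun w : Γ(X, K ''ᵁ W₁) =>
      η.hom.app W₁ (w • M.presheaf.map (homOfLE (eW.le.trans hW)).op e))
      (congr($((K.appIso W₁).hom_inv_id).hom s))).symm.trans ?_
    refine (Scheme.Modules.Hom.app_smul η.hom ((K.appIso W₁).hom s)
      (M.presheaf.map (homOfLE (eW.le.trans hW)).op e)).trans ?_
    refine (congrArg (fun z => (K.appIso W₁).hom s • z) h1).trans ?_
    exact mul_one ((K.appIso W₁).hom s : Γ(U.toScheme, W₁))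
  have hb : Function.Bijective
      fun s : Γ(X, K ''ᵁ W₁) => s • M.presheaf.map (homOfLE (eW.le.trans hW)).op e := by
    have := Scheme.Modules.Hom.isIso_iff_isIso_app.mp η.isIso_hom W₁
    have hη : Function.Bijective (η.hom.app W₁) := ConcreteCategory.bijective_of_isIso _
    refine (Function.Bijective.of_comp_iff' hη _).mp ?_
    rw [show (η.hom.app W₁ ∘ fun s : Γ(X, K ''ᵁ W₁) =>
      s • M.presheaf.map (homOfLE (eW.le.trans hW)).op e) = (K.appIso W₁).hom from funext key]
    exact ConcreteCategory.bijective_of_isIso _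
  refine ⟨fun s t hst => ?_, fun x => ?_⟩
  · have h1 := congrArg (M.presheaf.map (homOfLE eW.le).op) hst
    simp only [Scheme.Modules.map_smul] at h1
    rw [map_map_apply M (homOfLE hW) (homOfLE eW.le) (homOfLE (eW.le.trans hW))] at h1
    have h2 := congrArg (X.presheaf.map (homOfLE eW.ge).op) (hb.1 h1)
    rwa [presheaf_map_map _ _ (𝟙 W), presheaf_map_map _ _ (𝟙 W), presheaf_map_self,
      presheaf_map_self] at h2
  · obtain ⟨s, hs⟩ := hb.2 (M.presheaf.map (homOfLE eW.le).op x)
    refine ⟨X.presheaf.map (homOfLE eW.ge).op s, ?_⟩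
    have h1 := congrArg (M.presheaf.map (homOfLE eW.ge).op) hs
    simp only [Scheme.Modules.map_smul] at h1
    rwa [map_map_apply M _ _ (homOfLE hW), map_map_apply M _ _ (𝟙 W), map_self_apply] at h1

theorem eq_smul_of_frame {M M' : X.Modules} {P V W : X.Opens} {e : Γ(M, V)} (he : IsFrame e)
    (f : SecHom M M' P) (hV : V ≤ P) (hW : W ≤ V) (x : Γ(M, W)) :
    ∃ s : Γ(X, W), x = s • M.presheaf.map (homOfLE hW).op e ∧
      f.app W (hW.trans hV) x = s • M'.presheaf.map (homOfLE hW).op (f.app V hV e) := by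
  obtain ⟨s, hs⟩ := (he W hW).2 x
  refine ⟨s, hs.symm, ?_⟩
  rw [f.app_map V W hV (homOfLE hW) e, ← f.app_smul]
  exact congrArg (f.app W _) hs.symm

/-- Endomorphisms of an invertible sheaf are scalars. -/
theorem exists_scalar_endo {M : X.Modules} {P : X.Opens}
    (hM : ∀ p ∈ P, ∃ (V : X.Opens) (e : Γ(M, V)), p ∈ V ∧ V ≤ P ∧ IsFrame e)
    (g : SecHom M M P) : ∃ α : Γ(X, P), g = (SecHom.idHom M P).scale α := by
  choose V e hpV hVP he using fun p : P => hM p.1 p.2
  choose a ha using fun p : P => (he p (V p) le_rfl).2 (g.app (V p) (hVP p) (e p))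
  have hscal : ∀ (p : P) (W : X.Opens) (hW : W ≤ V p) (x : Γ(M, W)),
      g.app W (hW.trans (hVP p)) x = X.presheaf.map (homOfLE hW).op (a p) • x := fun p W hW x => by
    obtain ⟨s, hs, hgs⟩ := eq_smul_of_frame (he p) g (hVP p) hW x
    rw [hgs, ← ha p, Scheme.Modules.map_smul, map_self_apply, smul_comm, ← hs]
  obtain ⟨α, hα, -⟩ := TopCat.Sheaf.existsUnique_gluing' X.sheaf V P (fun p => homOfLE (hVP p))
    (fun p hp => Opens.mem_iSup.mpr ⟨⟨p, hp⟩, hpV ⟨p, hp⟩⟩) a fun p q => by
      apply ((he p).res inf_le_left (V p ⊓ V q) le_rfl).1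
      show X.presheaf.map _ (a p) • _ = X.presheaf.map _ (a q) • _
      exact (hscal p _ inf_le_left _).symm.trans (hscal q _ inf_le_right _)
  refine ⟨α, SecHom.eq_of_locally fun p hp => ⟨V ⟨p, hp⟩, hpV ⟨p, hp⟩, fun W hW hWV x => ?_⟩⟩
  refine (hscal ⟨p, hp⟩ W hWV x).trans ?_
  show _ = X.presheaf.map (homOfLE hW).op α • x
  refine congrArg (· • x) ?_
  rw [← presheaf_map_map (homOfLE (hVP ⟨p, hp⟩)) (homOfLE hWV) (homOfLE hW) α]
  exact congrArg _ (hα ⟨p, hp⟩).symm

end Fermat.Agent.Jac
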